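import Fermat.Agent.S55.G2.Defs
import Fermat.Agent.S55.G.Single

/-!
# S55, chapter G2, leaf (BR7): normal closures, Galois correspondence in `ℚ̄`
-/

set_option autoImplicit false
set_option linter.unusedSectionVars false
set_option linter.unusedVariables false

namespace Fermat.Agent.S55Lib

noncomputable section

variable (F : IntermediateField ℚ Qbar)

/-- (BR7) S55/G2/PlaceNormal.lean : every number field lies in a finite stable one. -/
theorem exists_stable_ge [FiniteDimensional ℚ F] :
    ∃ M : IntermediateField ℚ Qbar, FiniteDimensional ℚ M ∧ StableF M ∧ F ≤ M :=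
  exists_stableF_ge F

/-- (BR7) Galois correspondence in `ℚ̄`. -/
theorem mem_of_fixed_Q (x : Qbar) (hx : ∀ s ∈ F.fixingSubgroup, s x = x) : x ∈ F := by
  have hF : IntermediateField.fixedField F.fixingSubgroup = F :=
    InfiniteGalois.fixedField_fixingSubgroup _
  rw [← hF, IntermediateField.mem_fixedField_iff]
  exact hx

end

end Fermat.Agent.S55Lib
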