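import Fermat.Agent.S55.G2.Defs
import Fermat.Agent.S55.G.LocFix

/-!
# S55, chapter G2, leaf (LT0): Galois correspondence in `Ω_q`; ultrametric toolbox
-/

set_option autoImplicit false
set_option linter.unusedSectionVars false
set_option linter.unusedVariables false

namespace Fermat.Agent.S55Lib

noncomputable section

variable (q : Nat.Primes) (K : IntermediateField ℚ_[(q : ℕ)] (Om q))

/-- (LT0) S55/G2/TameFix.lean : Galois correspondence in `Ω_q`. -/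
theorem mem_of_fixed (x : Om q) (hx : ∀ h : Gq q, (∀ y ∈ K, h y = y) → h x = x) : x ∈ K := by
  have hF : IntermediateField.fixedField K.fixingSubgroup = K :=
    InfiniteGalois.fixedField_fixingSubgroup _
  rw [← hF, IntermediateField.mem_fixedField_iff]
  intro h hh
  exact hx h ((IntermediateField.mem_fixingSubgroup_iff K h).1 hh)

variable {q}

/-! ### ultrametric toolbox in `Ω_q` -/

lemma LT_add_le (x y : Om q) : ‖x + y‖ ≤ max ‖x‖ ‖y‖ := IsUltrametricDist.norm_add_le_max x y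

lemma LT_sub_le (x y : Om q) : ‖x - y‖ ≤ max ‖x‖ ‖y‖ := by
  rw [sub_eq_add_neg, ← norm_neg y]
  exact LT_add_le x (-y)

lemma LT_add_lt {x y : Om q} {c : ℝ} (hx : ‖x‖ < c) (hy : ‖y‖ < c) : ‖x + y‖ < c :=
  (LT_add_le x y).trans_lt (max_lt hx hy)

lemma LT_sub_lt {x y : Om q} {c : ℝ} (hx : ‖x‖ < c) (hy : ‖y‖ < c) : ‖x - y‖ < c :=
  (LT_sub_le x y).trans_lt (max_lt hx hy)

/-- transitivity of congruence -/
lemma LT_trans {x y z : Om q} {c : ℝ} (h1 : ‖x - y‖ < c) (h2 : ‖y - z‖ < c) : ‖x - z‖ < c := by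
  have : x - z = (x - y) + (y - z) := by ring
  rw [this]
  exact LT_add_lt h1 h2

lemma LT_symm {x y : Om q} {c : ℝ} (h1 : ‖x - y‖ < c) : ‖y - x‖ < c := by
  rwa [norm_sub_rev]

lemma LT_norm_eq_of_sub_lt {x y : Om q} (h : ‖x - y‖ < ‖y‖) : ‖x‖ = ‖y‖ := by
  have h1 : x = (x - y) + y := by ring
  rw [h1]
  have := IsUltrametricDist.norm_add_eq_max_of_norm_ne_norm (x := x - y) (y := y) h.ne
  rw [this, max_eq_right h.le]

lemma LT_norm_eq_one {x y : Om q} (h : ‖x - y‖ < 1) (hy : ‖y‖ = 1) : ‖x‖ = 1 := by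
  rw [← hy]
  exact LT_norm_eq_of_sub_lt (by rwa [hy])

lemma LT_norm_le_one {x y : Om q} (h : ‖x - y‖ < 1) (hy : ‖y‖ ≤ 1) : ‖x‖ ≤ 1 := by
  have h1 : x = (x - y) + y := by ring
  rw [h1]
  exact (LT_add_le _ _).trans (max_le h.le hy)

lemma LT_sum_le {ι : Type*} (s : Finset ι) (f : ι → Om q) {C : ℝ} (hC : 0 ≤ C)
    (h : ∀ i ∈ s, ‖f i‖ ≤ C) : ‖∑ i ∈ s, f i‖ ≤ C :=
  IsUltrametricDist.norm_sum_le_of_forall_le_of_nonneg hC h

lemma LT_mul_congr {x y x' y' : Om q} (hx : ‖x‖ ≤ 1) (hy' : ‖y'‖ ≤ 1) (h1 : ‖x - x'‖ < 1)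
    (h2 : ‖y - y'‖ < 1) : ‖x * y - x' * y'‖ < 1 := by
  have : x * y - x' * y' = x * (y - y') + (x - x') * y' := by ring
  rw [this]
  apply LT_add_lt
  · rw [norm_mul]
    exact mul_lt_one_of_nonneg_of_lt_one_right hx (norm_nonneg _) h2
  · rw [norm_mul]
    exact mul_lt_one_of_nonneg_of_lt_one_left (norm_nonneg _) h1 hy'

lemma LT_pow_congr {x y : Om q} (hx : ‖x‖ ≤ 1) (hy : ‖y‖ ≤ 1) (h : ‖x - y‖ < 1) (n : ℕ) :
    ‖x ^ n - y ^ n‖ < 1 := by
  induction n with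
  | zero => simp
  | succ n ih =>
    rw [pow_succ, pow_succ]
    exact LT_mul_congr (by rw [norm_pow]; exact pow_le_one₀ (norm_nonneg _) hx) hy ih h

/-- a product of small norm has a small factor -/
lemma LT_exists_factor_lt {ι : Type*} (s : Finset ι) (f : ι → Om q) (h : ‖∏ i ∈ s, f i‖ < 1) :
    ∃ i ∈ s, ‖f i‖ < 1 := by
  by_contra hcon
  push Not at hcon
  rw [norm_prod] at h
  have : (1 : ℝ) ≤ ∏ i ∈ s, ‖f i‖ := by
    calc (1 : ℝ) = ∏ i ∈ s, (1 : ℝ) := by simp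
      _ ≤ ∏ i ∈ s, ‖f i‖ := Finset.prod_le_prod (fun _ _ => zero_le_one) hcon
  exact absurd h (not_lt.2 this)

end

end Fermat.Agent.S55Lib
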