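import Fermat.Agent.S55.G2.Defs
import Fermat.Agent.S55.G.ApproxQ
import Fermat.Agent.S55.G.Single

/-!
# S55, chapter G2, leaf (BR2): `F` is dense in `F_v`
-/

set_option autoImplicit false
set_option linter.unusedSectionVars false
set_option linter.unusedVariables false

namespace Fermat.Agent.S55Lib

noncomputable section

variable (F : IntermediateField ℚ Qbar)

/-- (BR2) S55/G2/PlaceDense.lean : `F` is dense in `F_v`. -/
theorem dense_locF [FiniteDimensional ℚ F] (q : Nat.Primes) (g : GQ) (z : Om q)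
    (hz : z ∈ locF q g F) (ε : ℝ) (hε : 0 < ε) : ∃ x ∈ F, ‖z - iq q (g x)‖ < ε := by
  by_cases hz0 : z = 0
  · exact ⟨0, zero_mem F, by simpa [hz0] using hε⟩
  · obtain ⟨x, hx, hxg, -, -⟩ := exists_single F q g (Units.mk0 z hz0) hz
    obtain ⟨a, ha, h⟩ := approx_at_q F x hx q ε hε
    refine ⟨a, ha, ?_⟩
    have := h g
    rw [hxg, Units.val_mk0, norm_sub_rev] at this
    exact this

end

end Fermat.Agent.S55Lib
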