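import Mathlib

/-!
# S55, chapter G2, block AB: abstract counting lemmas
-/

set_option autoImplicit false
set_option linter.unusedSectionVars false
set_option linter.unusedVariables false

namespace Fermat.Agent.S55Lib

section AB

/-- (AB0) -/
theorem index_le_of_cyclic {E : Type} [CommGroup E] (P : Subgroup E) (p : ℕ) (hp : 0 < p) (e₀ : E)
    (h0 : e₀ ^ p ∈ P) (h : ∀ e : E, ∃ k : ℕ, e / e₀ ^ k ∈ P) : P.index ≠ 0 ∧ P.index ≤ p := by
  have hsurj : Function.Surjective (fun k : Fin p => (QuotientGroup.mk (e₀ ^ (k : ℕ)) : E ⧸ P)) := by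
    intro x
    induction x using QuotientGroup.induction_on with
    | H e =>
      obtain ⟨k, hk⟩ := h e
      refine ⟨⟨k % p, Nat.mod_lt _ hp⟩, ?_⟩
      show (QuotientGroup.mk (e₀ ^ (k % p)) : E ⧸ P) = QuotientGroup.mk e
      rw [QuotientGroup.eq]
      have hk' : e₀ ^ k = e₀ ^ (k % p) * (e₀ ^ p) ^ (k / p) := by
        rw [← pow_mul, ← pow_add, Nat.mod_add_div]
      have e1 : (e₀ ^ (k % p))⁻¹ * e = (e / e₀ ^ k) * (e₀ ^ p) ^ (k / p) := by
        rw [hk', div_eq_mul_inv, mul_inv, mul_assoc, mul_assoc, inv_mul_cancel, mul_one, mul_comm]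
      rw [e1]
      exact P.mul_mem hk (P.pow_mem h0 _)
  have hfin : Finite (E ⧸ P) := Finite.of_surjective _ hsurj
  constructor
  · exact Subgroup.index_ne_zero_of_finite
  · have := Nat.card_le_card_of_surjective _ hsurj
    simpa [Subgroup.index] using this

/-- the subgroup `{a ^ j * b ^ p}` -/
def AB1_span {E : Type} [CommGroup E] (p : ℕ) (hp : 0 < p) (a : E) : Subgroup E where
  carrier := {e | ∃ (j : ℕ) (b : E), e = a ^ j * b ^ p}
  one_mem' := ⟨0, 1, by simp⟩
  mul_mem' := by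
    rintro _ _ ⟨j, b, rfl⟩ ⟨j', b', rfl⟩
    exact ⟨j + j', b * b', by rw [pow_add, mul_pow, mul_mul_mul_comm]⟩
  inv_mem' := by
    rintro _ ⟨j, b, rfl⟩
    refine ⟨j * (p - 1), (a ^ j)⁻¹ * b⁻¹, ?_⟩
    obtain ⟨n, rfl⟩ : ∃ n, p = n + 1 := ⟨p - 1, by omega⟩
    rw [Nat.add_sub_cancel, mul_pow, mul_inv, inv_pow, inv_pow, ← mul_assoc, pow_mul, pow_succ (a ^ j) n,
      mul_inv, ← mul_assoc, mul_inv_cancel, one_mul]

/-- (AB1) -/
theorem exists_mem_not_span {E : Type} [CommGroup E] (p : ℕ) [Fact p.Prime] (s i : ℕ)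
    (hE : Nat.card (E ⧸ (powMonoidHom p : E →* E).range) = p ^ s) (K : Subgroup E)
    (hK0 : K.index ≠ 0) (hK : K.index ≤ p ^ i) (his : i + 2 ≤ s) (a : E) :
    ∃ e ∈ K, ∀ (j : ℕ) (b : E), e ≠ a ^ j * b ^ p := by
  have hp : 0 < p := (Fact.out : p.Prime).pos
  by_contra hcon
  push Not at hcon
  set B := AB1_span p hp a with hB
  set P := (powMonoidHom p : E →* E).range with hP
  have hKB : K ≤ B := fun e he => hcon e he
  have hPB : P ≤ B := by
    rintro _ ⟨b, rfl⟩
    exact ⟨0, b, by simp⟩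
  have h1 : B.index ≤ p ^ i :=
    (Nat.le_of_dvd (Nat.pos_of_ne_zero hK0) (Subgroup.index_dvd_of_le hKB)).trans hK
  have h2 : P.relIndex B ≤ p := by
    refine (index_le_of_cyclic (P.subgroupOf B) p hp ⟨a, 1, 1, by simp⟩ ?_ ?_).2
    · rw [Subgroup.mem_subgroupOf]
      exact ⟨a, rfl⟩
    · rintro ⟨_, j, b, rfl⟩
      refine ⟨j, ?_⟩
      rw [Subgroup.mem_subgroupOf]
      refine ⟨b, ?_⟩
      show b ^ p = a ^ j * b ^ p / a ^ j
      rw [mul_div_cancel_left]
  have h3 : P.relIndex B * B.index = P.index := Subgroup.relIndex_mul_index hPB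
  have h4 : P.index = p ^ s := hE
  have h5 : p ^ s ≤ p * p ^ i := by
    rw [← h4, ← h3]
    exact Nat.mul_le_mul h2 h1
  have h6 : p ^ (i + 2) ≤ p ^ s := Nat.pow_le_pow_right hp his
  have h7 : p * p ^ i < p ^ (i + 2) := by
    rw [← pow_succ']
    exact Nat.pow_lt_pow_right (Fact.out : p.Prime).one_lt (by omega)
  omega

/-- (AB2) the final count. -/
theorem cyclic_of_count {X E : Type} [CommGroup X] [CommGroup E] (p : ℕ) [Fact p.Prime] (s : ℕ)
    (hX : Nat.card (X ⧸ (powMonoidHom p : X →* X).range) = p ^ (2 * s))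
    (hE : Nat.card (E ⧸ (powMonoidHom p : E →* E).range) = p ^ s)
    (f : E →* X) (n : ℕ) (hn : n + 1 = s) (y : Fin n → X) (N : Subgroup X)
    (hNp : ∀ x : X, x ^ p ∈ N) (hNf : ∀ e, f e ∈ N) (hNy : ∀ i, y i ∈ N)
    (hinj : ∀ (e : E) (m : Fin n → ℕ) (x : X), f e * ∏ i, y i ^ m i = x ^ p →
      (∃ e', e = e' ^ p) ∧ ∀ i, p ∣ m i) :
    ∃ x₀ : X, ∀ x : X, ∃ k : ℕ, x / x₀ ^ k ∈ N := by
  have hpp : p.Prime := Fact.out
  have hp : 0 < p := hpp.pos
  set P := (powMonoidHom p : X →* X).range with hP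
  set PE := (powMonoidHom p : E →* E).range with hPE
  have hPN : P ≤ N := by
    rintro _ ⟨x, rfl⟩
    exact hNp x
  have hPi : P.index = p ^ (2 * s) := hX
  have h3 : P.relIndex N * N.index = P.index := Subgroup.relIndex_mul_index hPN
  have hrel0 : P.relIndex N ≠ 0 := by
    intro h0
    rw [h0, zero_mul, hPi] at h3
    exact (pow_pos hp _).ne h3
  have hfin : Finite (N ⧸ P.subgroupOf N) :=
    haveI : (P.subgroupOf N).FiniteIndex := ⟨hrel0⟩
    Subgroup.finite_quotient_of_finiteIndex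
  -- the injection
  let θ : (E ⧸ PE) × (Fin n → Fin p) → N ⧸ P.subgroupOf N := fun em =>
    QuotientGroup.mk ⟨f (Quotient.out em.1) * ∏ i, y i ^ ((em.2 i : Fin p) : ℕ),
      N.mul_mem (hNf _) (N.prod_mem fun i _ => N.pow_mem (hNy i) _)⟩
  have hθ : Function.Injective θ := by
    rintro ⟨e, m⟩ ⟨e', m'⟩ h
    have h1 := QuotientGroup.eq.1 h
    rw [Subgroup.mem_subgroupOf] at h1
    obtain ⟨x, hx⟩ := h1
    have hx' : x ^ p = (f (Quotient.out e) * ∏ i, y i ^ ((m i : Fin p) : ℕ))⁻¹ *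
        (f (Quotient.out e') * ∏ i, y i ^ ((m' i : Fin p) : ℕ)) := hx
    have key := hinj ((Quotient.out e)⁻¹ * Quotient.out e')
      (fun i => (m' i : ℕ) + (p - (m i : ℕ))) (x * ∏ i, y i) (by
        rw [mul_pow, hx', map_mul, map_inv, ← Finset.prod_pow]
        have e1 : ∀ i, y i ^ ((m' i : ℕ) + (p - (m i : ℕ))) =
            y i ^ (m' i : ℕ) * (y i ^ (m i : ℕ))⁻¹ * y i ^ p := by
          intro i
          have h0 : y i ^ p = y i ^ (m i : ℕ) * y i ^ (p - (m i : ℕ)) := by
            rw [← pow_add]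
            congr 1
            have := (m i).2
            omega
          rw [h0, pow_add, mul_assoc, inv_mul_cancel_left]
        rw [Finset.prod_congr rfl (fun i _ => e1 i), Finset.prod_mul_distrib,
          Finset.prod_mul_distrib, Finset.prod_inv_distrib, mul_inv]
        simp only [mul_assoc, mul_comm, mul_left_comm])
    obtain ⟨⟨e'', he''⟩, hm⟩ := key
    have he : e = e' := by
      rw [← Quotient.out_eq e, ← Quotient.out_eq e']
      exact QuotientGroup.eq.2 ⟨e'', he''.symm⟩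
    have hmm : m = m' := by
      funext i
      have h1 := hm i
      have h2 := (m i).2
      have h3 := (m' i).2
      obtain ⟨c, hc⟩ := h1
      apply Fin.ext
      have hc1 : c = 1 := by
        have h4 : p * c < p * 2 := by omega
        have h5 : 0 < p * c := by omega
        have h6 : c < 2 := Nat.lt_of_mul_lt_mul_left h4
        have h7 : 0 < c := Nat.pos_of_mul_pos_left h5 |> fun h => by
          rcases Nat.eq_zero_or_pos c with h0 | h0
          · rw [h0] at h5; simp at h5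
          · exact h0
        omega
      rw [hc1] at hc
      omega
    rw [he, hmm]
  have hcard : p ^ s * p ^ n ≤ P.relIndex N := by
    have := Nat.card_le_card_of_injective θ hθ
    rw [Nat.card_prod, hE, Nat.card_fun, Nat.card_fin, Nat.card_fin] at this
    exact this
  have hNle : N.index ≤ p := by
    by_contra hlt
    push Not at hlt
    have h4 : p ^ s * p ^ n * (p + 1) ≤ P.relIndex N * N.index := Nat.mul_le_mul hcard hlt
    rw [h3, hPi, ← hn] at h4
    have h5 : p ^ (2 * (n + 1)) = p ^ (n + 1) * p ^ n * p := by ring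
    rw [h5] at h4
    have h6 : 0 < p ^ (n + 1) * p ^ n := by positivity
    have := Nat.le_of_mul_le_mul_left h4 h6
    omega
  have hNdvd : N.index ∣ p ^ (2 * s) := by
    rw [← hPi, ← h3]
    exact Dvd.intro_left _ rfl
  obtain ⟨k, hk, hNk⟩ := (Nat.dvd_prime_pow hpp).1 hNdvd
  have hk1 : k ≤ 1 := by
    by_contra hlt
    push Not at hlt
    have : p ^ 2 ≤ p ^ k := Nat.pow_le_pow_right hp hlt
    have h2 : p < p ^ 2 := by
      have := hpp.one_lt
      nlinarith
    omega
  interval_cases k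
  · rw [pow_zero, Subgroup.index_eq_one] at hNk
    exact ⟨1, fun x => ⟨0, by rw [hNk]; trivial⟩⟩
  · rw [pow_one] at hNk
    have hc : Nat.card (X ⧸ N) = p := hNk
    have hcyc : IsCyclic (X ⧸ N) := isCyclic_of_prime_card hc
    have hfinQ : Finite (X ⧸ N) := Nat.finite_of_card_ne_zero (by rw [hc]; exact hp.ne')
    obtain ⟨g, hg⟩ := hcyc.exists_generator
    induction g using QuotientGroup.induction_on with
    | H x₀ =>
      refine ⟨x₀, fun x => ?_⟩
      have h1 := hg (QuotientGroup.mk x)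
      rw [← mem_powers_iff_mem_zpowers] at h1
      obtain ⟨k, hk⟩ := h1
      refine ⟨k, ?_⟩
      have h2 : (QuotientGroup.mk (x₀ ^ k) : X ⧸ N) = QuotientGroup.mk x := hk
      have h3 := QuotientGroup.eq.1 h2
      rwa [mul_comm, ← div_eq_mul_inv] at h3

end AB

end Fermat.Agent.S55Lib
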