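import Fermat.Agent.S55.G.G1Defs

/-!
# S55, chapter G2 (second inequality): definitions
-/

set_option autoImplicit false
set_option linter.unusedSectionVars false
set_option linter.unusedVariables false

namespace Fermat.Agent.S55Lib

noncomputable section

/-- `x` is a `p`-th power in the completion of `F` at the place `(q,g)` -/
def LocPow (p : ℕ) (F : IntermediateField ℚ Qbar) (q : Nat.Primes) (g : GQ) (x : Qbar) : Prop :=
  ∃ z ∈ locF q g F, z ^ p = iq q (g x)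

/-- the place `(q,g)` of `F` splits completely in `L` -/
def SplitAt (q : Nat.Primes) (g : GQ) (F L : IntermediateField ℚ Qbar) : Prop :=
  ∀ h : Gq q, g⁻¹ * rq q h * g ∈ F.fixingSubgroup → g⁻¹ * rq q h * g ∈ L.fixingSubgroup

/-- `L = F(α)`, `α ^ p ∈ F`, is a cyclic layer of degree `p` with generator `σ` -/
structure IsKum (p : ℕ) (F L : IntermediateField ℚ Qbar) (σ : GQ) (α : Qbar) : Prop where
  layer : IsLayer p F L σ
  ne : α ≠ 0
  mem : α ∈ L
  pow : α ^ p ∈ F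
  moved : σ α ≠ α

/-- `τ` is a Frobenius at the place `(q,g)` of `ℚ̄` -/
def IsFrobPl (q : Nat.Primes) (g τ : GQ) : Prop :=
  ∀ x : Qbar, ‖iq q (g x)‖ ≤ 1 → ‖iq q (g (τ x)) - iq q (g x) ^ (q : ℕ)‖ < 1

/-- the norm `∏_{i<p} σ^i y` on ideles -/
def NJ (p : ℕ) (σ : GQ) (y : JJ) : JJ := ∏ i ∈ Finset.range p, σ ^ i • y

/-- the idele `x` of `F` is a norm from `L` at the place `(q,g)` -/
def LocNorm (p : ℕ) (L : IntermediateField ℚ Qbar) (σ : GQ) (x : JJ) (q : Nat.Primes) (g : GQ) :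
    Prop :=
  ∃ y ∈ JF L, cmp (NJ p σ y) q g = cmp x q g

/-- same, with a solution which is a unit at all places of `L` above the place `(q,g)` of `F` -/
def LocNormU (p : ℕ) (F L : IntermediateField ℚ Qbar) (σ : GQ) (x : JJ) (q : Nat.Primes) (g : GQ) :
    Prop :=
  ∃ y ∈ JF L, (∀ g', SamePlace q F g g' → ‖((cmp y q g' : (Om q)ˣ) : Om q)‖ = 1) ∧
    cmp (NJ p σ y) q g = cmp x q g

/-- the prime `p` as an element of `Nat.Primes` -/
def pP (p : ℕ) [hp : Fact p.Prime] : Nat.Primes := ⟨p, hp.out⟩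

/-- the auxiliary places of the second inequality (`T` = list of places `(q,g)` of `F`, above
pairwise distinct rational primes outside `S`, at which `a` is a `p`-th power, and such that the
`S`-units surject onto `∏_{v ∈ T} U_v / U_v^p`) -/
structure IsAux (p : ℕ) (F : IntermediateField ℚ Qbar) (S : Finset Nat.Primes) (a : Qbar)
    (T : List (Nat.Primes × GQ)) : Prop where
  nodup : (T.map Prod.fst).Nodup
  notMem : ∀ v ∈ T, v.1 ∉ S
  locPow : ∀ v ∈ T, LocPow p F v.1 v.2 a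
  surj : ∀ u ∈ JF F, (∀ v ∈ T, ‖((cmp u v.1 v.2 : (Om v.1)ˣ) : Om v.1)‖ = 1) →
    ∃ e ∈ EFT F S, ∀ v ∈ T, ∃ z ∈ locF v.1 v.2 F,
      ((cmp u v.1 v.2 : (Om v.1)ˣ) : Om v.1) = iq v.1 (v.2 (e : Qbar)) * z ^ p

/-- `(q,g)` is one of the places of the list `T` -/
def InPl (F : IntermediateField ℚ Qbar) (T : List (Nat.Primes × GQ)) (q : Nat.Primes) (g : GQ) :
    Prop :=
  ∃ v ∈ T, v.1 = q ∧ ∃ g₀ : GQ, g₀ = v.2 ∧ SamePlace q F g₀ g

end

end Fermat.Agent.S55Lib
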