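import Fermat.Agent.S55.G2.Defs
import Fermat.Agent.S55.G.Reps

/-! # S55 G2 (ID4): the number of places above `T` exists -/

set_option autoImplicit false
set_option linter.unusedSectionVars false
set_option linter.unusedVariables false

namespace Fermat.Agent.S55Lib

noncomputable section

open groupCohomology

section ID

variable (F : IntermediateField ℚ Qbar) [FiniteDimensional ℚ F]

/-- (ID4) S55/G2/IdeleCount.lean : the number of places above `T` exists. -/
theorem exists_placeCount (T : Finset Nat.Primes) :
    ∃ t : ℕ, IsPlaceCount F T t ∧ (T.Nonempty → 0 < t) := by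
  classical
  choose R hR1 hR2 using exists_reps F
  refine ⟨∑ q ∈ T, (R q).card, ⟨R, hR1, hR2, rfl⟩, ?_⟩
  rintro ⟨q, hq⟩
  obtain ⟨g₀, hg₀, -⟩ := hR1 q 1
  exact lt_of_lt_of_le (Finset.card_pos.2 ⟨g₀, hg₀⟩)
    (Finset.single_le_sum (f := fun q => (R q).card) (fun _ _ => Nat.zero_le _) hq)

end ID

end

end Fermat.Agent.S55Lib
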