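import Fermat.Agent.S55.G2.Defs
import Fermat.Agent.S55.G.Cut

/-! # S55 G2 (ID3): the `S`-part of an idele -/

set_option autoImplicit false
set_option linter.unusedSectionVars false
set_option linter.unusedVariables false

namespace Fermat.Agent.S55Lib

noncomputable section

open groupCohomology

section ID

variable (F : IntermediateField ℚ Qbar) [FiniteDimensional ℚ F]

/-- (ID3) S55/G2/IdeleCut.lean : the `S`-part of an idele. -/
theorem exists_cutF (S : Finset Nat.Primes) (x : JJ) (hx : x ∈ JF F) :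
    ∃ y ∈ JF F ⊓ JT S, ∀ q ∈ S, ∀ g, cmp y q g = cmp x q g := by
  obtain ⟨y, h1, h2⟩ := exists_cut x S
  exact ⟨y, ⟨cut_mem_JF hx h1 h2, h2⟩, h1⟩

end ID

end

end Fermat.Agent.S55Lib
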