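import Fermat.Agent.S55.G2.Defs
import Fermat.Agent.S55.G1b.Glue

/-! # S55 G2 (ID1): the general constructor of ideles -/

set_option autoImplicit false
set_option linter.unusedSectionVars false
set_option linter.unusedVariables false

namespace Fermat.Agent.S55Lib

noncomputable section

open groupCohomology

section ID

variable (F : IntermediateField ℚ Qbar) [FiniteDimensional ℚ F]

/-- (ID1) S55/G2/IdeleMk.lean : the general constructor. -/
theorem exists_idele (φ : ∀ q : Nat.Primes, GQ → (Om q)ˣ)
    (h1 : ∀ (q : Nat.Primes) (h : Gq q) (g : GQ), φ q (rq q h * g) = h • φ q g)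
    (h2 : ∀ (q : Nat.Primes) (g : GQ), ∀ s ∈ F.fixingSubgroup, φ q (g * s) = φ q g)
    (h3 : {q : Nat.Primes | ∃ g, ‖((φ q g : (Om q)ˣ) : Om q)‖ ≠ 1}.Finite) :
    ∃ x ∈ JF F, ∀ q g, cmp x q g = φ q g := by
  refine exists_idele_of_family F φ (fun q h g s hs => ?_) (h3.subset ?_)
  · rw [h2 q _ s hs, h1]
  · intro q hq
    by_contra hcon
    apply hq
    intro g
    by_contra hg
    exact hcon ⟨g, hg⟩

end ID

end

end Fermat.Agent.S55Lib
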