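import Fermat.Agent.S55.G2.Defs
import Fermat.Agent.S55.G.Reps

/-! # S55 G2 (ID2): a choice of representatives of the places of `F` -/

set_option autoImplicit false
set_option linter.unusedSectionVars false
set_option linter.unusedVariables false

namespace Fermat.Agent.S55Lib

noncomputable section

open groupCohomology

section ID

variable (F : IntermediateField ℚ Qbar) [FiniteDimensional ℚ F]

/-- (ID2) S55/G2/IdeleRep.lean : a choice of representatives of the places of `F`. -/
theorem exists_placeRep : ∃ ρ : ∀ q : Nat.Primes, GQ → GQ,
    (∀ q g, SamePlace q F (ρ q g) g) ∧ ∀ q g g', SamePlace q F g g' → ρ q g = ρ q g' := by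
  classical
  let st : Nat.Primes → Setoid GQ := fun q =>
    ⟨SamePlace q F, SamePlace.refl q F, SamePlace.symm, SamePlace.trans⟩
  refine ⟨fun q g => Quotient.out (Quotient.mk (st q) g), fun q g => ?_, fun q g g' h => ?_⟩
  · exact Quotient.exact (Quotient.out_eq (Quotient.mk (st q) g))
  · have : Quotient.mk (st q) g = Quotient.mk (st q) g' := Quotient.sound h
    simp only [this]

end ID

end

end Fermat.Agent.S55Lib
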