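import Fermat.Agent.S55.G2.Defs
import Fermat.Agent.S55.G1b.Layer
import Fermat.Agent.S55.G2.PlaceNormal

/-!
# S55, chapter G2, (KU3): basic facts on Kummer layers
(`IsLayer.pow_mem`, `IsLayer.conj_mem` are in `S55/G1b/Layer.lean`)
-/

set_option autoImplicit false
set_option linter.unusedSectionVars false
set_option linter.unusedVariables false

namespace Fermat.Agent.S55Lib

noncomputable section

section KU

variable {p : ℕ} [Fact p.Prime] {F L : IntermediateField ℚ Qbar} {σ : GQ} {α : Qbar}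

lemma KU3_fix {F : IntermediateField ℚ Qbar} {s : GQ} (hs : s ∈ F.fixingSubgroup) {x : Qbar}
    (hx : x ∈ F) : s x = x := (IntermediateField.mem_fixingSubgroup_iff F s).1 hs x hx

/-- (KU3) S55/G2/KumBasic.lean -/
theorem IsLayer.exists_pow_mul (hL : IsLayer p F L σ) (s : GQ) (hs : s ∈ F.fixingSubgroup) :
    ∃ i < p, ∃ t ∈ L.fixingSubgroup, s = σ ^ i * t := hL.exists_pow s hs

/-- an element of `L` fixed by `σ` lies in `F` -/
lemma IsLayer.KU3_mem_of_fixed (hL : IsLayer p F L σ) {x : Qbar} (hx : x ∈ L) (hσ : σ x = x) :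
    x ∈ F := by
  apply mem_of_fixed_Q
  intro s hs
  obtain ⟨i, -, t, ht, rfl⟩ := hL.exists_pow s hs
  show (σ ^ i) (t x) = x
  rw [KU3_fix ht hx]
  clear hs
  induction i with
  | zero => simp
  | succ i ih =>
    rw [pow_succ]
    show (σ ^ i) (σ x) = x
    rw [hσ, ih]

/-- (KU3) -/
theorem IsKum.exists_zeta (hK : IsKum p F L σ α) (hμ : HasMu p F) :
    ∃ ζ ∈ F, ζ ^ p = 1 ∧ ζ ≠ 1 ∧ ∀ i : ℕ, (σ ^ i) α = ζ ^ i * α := by
  have hα := hK.ne
  have hζp : (σ α / α) ^ p = 1 := by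
    rw [div_pow, ← map_pow, KU3_fix hK.layer.mem hK.pow, div_self (pow_ne_zero _ hα)]
  have hζF : σ α / α ∈ F := hμ _ hζp
  refine ⟨σ α / α, hζF, hζp, fun h => hK.moved ((div_eq_one_iff_eq hα).1 h), fun i => ?_⟩
  induction i with
  | zero => simp
  | succ i ih =>
    rw [pow_succ']
    show σ ((σ ^ i) α) = _
    rw [ih, map_mul, map_pow, KU3_fix hK.layer.mem hζF, pow_succ]
    field_simp

lemma KU3_isPrimitiveRoot {ζ : Qbar} (h1 : ζ ^ p = 1) (h2 : ζ ≠ 1) : IsPrimitiveRoot ζ p := by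
  have := IsPrimitiveRoot.orderOf ζ
  rwa [orderOf_eq_prime h1 h2] at this

/-- (KU3) -/
theorem IsKum.mem_fix_iff (hK : IsKum p F L σ α) (hμ : HasMu p F) (s : GQ)
    (hs : s ∈ F.fixingSubgroup) : s ∈ L.fixingSubgroup ↔ s α = α := by
  constructor
  · intro h
    exact KU3_fix h hK.mem
  · intro h
    obtain ⟨ζ, -, hζp, hζ1, hζ⟩ := hK.exists_zeta hμ
    obtain ⟨i, hi, t, ht, rfl⟩ := hK.layer.exists_pow s hs
    have h1 : (σ ^ i) (t α) = α := h
    rw [KU3_fix ht hK.mem, hζ] at h1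
    have h2 : ζ ^ i = 1 := mul_right_cancel₀ hK.ne (by rw [h1, one_mul])
    have h3 := (KU3_isPrimitiveRoot hζp hζ1).dvd_of_pow_eq_one i h2
    have h4 : i = 0 := Nat.eq_zero_of_dvd_of_lt h3 hi
    rw [h4, pow_zero, one_mul]
    exact ht

/-- (KU3) `N α = α ^ p` (`p` odd). -/
theorem IsKum.prod_conj (hK : IsKum p F L σ α) (hμ : HasMu p F) (hp2 : p ≠ 2) :
    ∏ i ∈ Finset.range p, (σ ^ i) α = α ^ p := by
  obtain ⟨ζ, -, hζp, -, hζ⟩ := hK.exists_zeta hμ
  have hp : p.Prime := Fact.out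
  rw [Finset.prod_congr rfl (fun i _ => hζ i), Finset.prod_mul_distrib, Finset.prod_const,
    Finset.card_range, Finset.prod_pow_eq_pow_sum, Finset.sum_range_id]
  obtain ⟨k, hk⟩ := hp.odd_of_ne_two hp2
  have : p * (p - 1) / 2 = p * k := by
    have h1 : p - 1 = 2 * k := by omega
    rw [h1, ← mul_assoc, mul_comm p 2, mul_assoc, Nat.mul_div_cancel_left _ (by norm_num)]
  rw [this, pow_mul, hζp, one_pow, one_mul]

/-- (KU3) change of generator -/
theorem IsKum.mul (hK : IsKum p F L σ α) (b : Qbar) (hb : b ∈ F) (hb0 : b ≠ 0) :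
    IsKum p F L σ (α * b) where
  layer := hK.layer
  ne := mul_ne_zero hK.ne hb0
  mem := mul_mem hK.mem (hK.layer.le hb)
  pow := by rw [mul_pow]; exact mul_mem hK.pow (pow_mem hb p)
  moved := by
    rw [map_mul, KU3_fix hK.layer.mem hb]
    exact fun h => hK.moved (mul_right_cancel₀ hb0 h)

end KU

end

end Fermat.Agent.S55Lib
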