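import Fermat.Agent.S55.G2.KumBasic

/-!
# S55, chapter G2, (KU1): a cyclic layer of degree `p` over `F ∋ μ_p` is a Kummer layer
-/

set_option autoImplicit false
set_option linter.unusedSectionVars false
set_option linter.unusedVariables false

namespace Fermat.Agent.S55Lib

noncomputable section

section KU

variable (p : ℕ) [Fact p.Prime] {F L : IntermediateField ℚ Qbar} {σ : GQ} {α : Qbar}

/-- the characters `θ ↦ σ^i θ` of `L^×` -/
def KU1_char (L : IntermediateField ℚ Qbar) (σ : GQ) (i : ℕ) : L →* Qbar :=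
  (((σ ^ i : GQ) : Qbar →ₐ[ℚ] Qbar).comp L.val : L →ₐ[ℚ] Qbar)

lemma KU1_char_apply (L : IntermediateField ℚ Qbar) (σ : GQ) (i : ℕ) (θ : L) :
    KU1_char L σ i θ = (σ ^ i) (θ : Qbar) := rfl

variable {p}

lemma KU1_char_injective (hL : IsLayer p F L σ) :
    Function.Injective (fun i : Fin p => KU1_char L σ (i : ℕ)) := by
  have key : ∀ i j : ℕ, i ≤ j → j < p → KU1_char L σ i = KU1_char L σ j → i = j := by
    intro i j hij hj h
    have h1 : σ ^ (j - i) ∈ L.fixingSubgroup := by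
      rw [IntermediateField.mem_fixingSubgroup_iff]
      intro θ hθ
      have h2 := congrArg (fun f : L →* Qbar => f ⟨θ, hθ⟩) h
      simp only [KU1_char_apply] at h2
      have h3 : σ ^ j = σ ^ i * σ ^ (j - i) := by rw [← pow_add]; congr 1; omega
      rw [h3] at h2
      exact ((σ ^ i).injective h2).symm
    have h4 := (hL.pow_mem_iff _).1 h1
    have h5 : j - i = 0 := Nat.eq_zero_of_dvd_of_lt h4 (by omega)
    omega
  intro i j h
  apply Fin.ext
  rcases le_total (i : ℕ) (j : ℕ) with hij | hij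
  · exact key _ _ hij j.2 h
  · exact (key _ _ hij i.2 h.symm).symm

variable (p)

/-- (KU1) S55/G2/KumGen.lean : a cyclic layer of degree `p` over `F ∋ μ_p` is a Kummer layer. -/
theorem exists_isKum (hL : IsLayer p F L σ) (hμ : HasMu p F) : ∃ α : Qbar, IsKum p F L σ α := by
  have hp : p.Prime := Fact.out
  have : NeZero p := ⟨hp.ne_zero⟩
  have : NeZero (p : Qbar) := ⟨by exact_mod_cast hp.ne_zero⟩
  obtain ⟨ζ, hζ⟩ := HasEnoughRootsOfUnity.exists_primitiveRoot Qbar p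
  have hζ0 : ζ ≠ 0 := hζ.ne_zero hp.ne_zero
  have hζ1 : ζ ≠ 1 := hζ.ne_one hp.one_lt
  have hξp : ζ⁻¹ ^ p = 1 := by rw [inv_pow, hζ.pow_eq_one, inv_one]
  have hξF : ζ⁻¹ ∈ F := hμ _ hξp
  -- the resolvent
  have hli := (linearIndependent_monoidHom L Qbar).comp _ (KU1_char_injective hL)
  have hex : ∃ θ : L, ∑ i ∈ Finset.range p, ζ⁻¹ ^ i * (σ ^ i) (θ : Qbar) ≠ 0 := by
    by_contra hcon
    push Not at hcon
    have h0 := Fintype.linearIndependent_iff.1 hli (fun i : Fin p => ζ⁻¹ ^ (i : ℕ)) (by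
      funext θ
      have := hcon θ
      rw [Finset.sum_range] at this
      simpa [KU1_char_apply] using this) ⟨0, hp.pos⟩
    simp at h0
  obtain ⟨θ, hθ⟩ := hex
  set α := ∑ i ∈ Finset.range p, ζ⁻¹ ^ i * (σ ^ i) (θ : Qbar) with hα
  have hσα : σ α = ζ * α := by
    have h1 : σ α = ζ * ∑ i ∈ Finset.range p, ζ⁻¹ ^ (i + 1) * (σ ^ (i + 1)) (θ : Qbar) := by
      rw [hα, map_sum, Finset.mul_sum]
      refine Finset.sum_congr rfl fun i _ => ?_
      rw [map_mul, map_pow, KU3_fix hL.mem hξF, pow_succ' σ i, pow_succ]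
      show ζ⁻¹ ^ i * σ ((σ ^ i) (θ : Qbar)) = ζ * (ζ⁻¹ ^ i * ζ⁻¹ * σ ((σ ^ i) (θ : Qbar)))
      field_simp
    have h2 := Finset.sum_range_succ (fun i => ζ⁻¹ ^ i * (σ ^ i) (θ : Qbar)) p
    have h3 := Finset.sum_range_succ' (fun i => ζ⁻¹ ^ i * (σ ^ i) (θ : Qbar)) p
    rw [h2] at h3
    have h4 : ζ⁻¹ ^ p * (σ ^ p) (θ : Qbar) = ζ⁻¹ ^ 0 * (σ ^ 0) (θ : Qbar) := by
      rw [hξp, KU3_fix hL.pow_mem θ.2]; simp
    rw [h4] at h3
    rw [h1, ← add_right_cancel h3]
  have hαL : α ∈ L := by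
    refine sum_mem fun i _ => mul_mem (pow_mem (hL.le hξF) i) ?_
    exact hL.normal _ (Subgroup.pow_mem _ hL.mem i) _ θ.2
  refine ⟨α, hL, hθ, hαL, ?_, ?_⟩
  · apply hL.KU3_mem_of_fixed (pow_mem hαL p)
    rw [map_pow, hσα, mul_pow, hζ.pow_eq_one, one_mul]
  · rw [hσα]
    intro h
    exact hζ1 (mul_right_cancel₀ hθ (by rw [h, one_mul]))

end KU

end

end Fermat.Agent.S55Lib
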