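import Fermat.Agent.S55.G2.KumBasic

/-!
# S55, chapter G2, (KU5): the Kummer lemma of degree `p`
-/

set_option autoImplicit false
set_option linter.unusedSectionVars false
set_option linter.unusedVariables false

namespace Fermat.Agent.S55Lib

noncomputable section

section KU

variable {p : ℕ} [Fact p.Prime] {F L : IntermediateField ℚ Qbar} {σ : GQ} {α : Qbar}

/-- (KU5) S55/G2/KumIndep.lean : the Kummer lemma of degree `p`. -/
theorem IsKum.kummer (hK : IsKum p F L σ α) (hμ : HasMu p F) (e ε : Qbar) (he : e ∈ F)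
    (he0 : e ≠ 0) (hε : ε ^ p = e) (hfix : ∀ τ ∈ L.fixingSubgroup, τ ε = ε) :
    ∃ j : ℕ, ∃ b ∈ F, e = (α ^ p) ^ j * b ^ p := by
  have hp : p.Prime := Fact.out
  have : NeZero p := ⟨hp.ne_zero⟩
  have hεL : ε ∈ L := mem_of_fixed_Q L ε hfix
  have hε0 : ε ≠ 0 := by
    intro h0
    rw [h0, zero_pow hp.ne_zero] at hε
    exact he0 hε.symm
  obtain ⟨ζ, hζF, hζp, hζ1, hζ⟩ := hK.exists_zeta hμ
  have h1 : (σ ε / ε) ^ p = 1 := by
    rw [div_pow, ← map_pow, hε, KU3_fix hK.layer.mem he, div_self he0]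
  obtain ⟨j, -, hj⟩ := (KU3_isPrimitiveRoot hζp hζ1).eq_pow_of_pow_eq_one h1
  have hσε : σ ε = ζ ^ j * ε := by
    rw [hj]; field_simp
  have hσα : σ α = ζ * α := by
    have := hζ 1
    simpa using this
  have hζ0 : ζ ≠ 0 := by
    intro h0
    rw [h0, zero_pow hp.ne_zero] at hζp
    exact zero_ne_one hζp
  refine ⟨j, ε / α ^ j, ?_, ?_⟩
  · apply hK.layer.KU3_mem_of_fixed (div_mem hεL (pow_mem hK.mem j))
    rw [map_div₀, map_pow, hσε, hσα, mul_pow]
    have := hK.ne
    field_simp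
  · rw [div_pow, hε, ← pow_mul, ← pow_mul, mul_comm p j]
    have := hK.ne
    field_simp

end KU

end

end Fermat.Agent.S55Lib
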