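import Fermat.Agent.S55.G2.KumBasic

/-!
# S55, chapter G2, (KU2): `F(x^{1/p})` is a Kummer layer if `x ∉ F^p`
-/

set_option autoImplicit false
set_option linter.unusedSectionVars false
set_option linter.unusedVariables false

namespace Fermat.Agent.S55Lib

noncomputable section

open IntermediateField

section KU

variable (p : ℕ) [Fact p.Prime] {F : IntermediateField ℚ Qbar}

lemma KU2_mem_fix_adjoin (α : Qbar) (s : GQ) : s ∈ (ℚ⟮α⟯).fixingSubgroup ↔ s α = α := by
  constructor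
  · intro h
    exact KU3_fix h (mem_adjoin_simple_self ℚ α)
  · intro h
    rw [IntermediateField.mem_fixingSubgroup_iff]
    have h1 : ℚ⟮α⟯ ≤ fixedField (Subgroup.zpowers s) := by
      rw [adjoin_simple_le_iff, mem_fixedField_iff]
      have h2 : Subgroup.zpowers s ≤ MulAction.stabilizer GQ α := by
        rw [Subgroup.zpowers_le]
        exact h
      exact fun f hf => h2 hf
    intro y hy
    exact (mem_fixedField_iff _ y).1 (h1 hy) s (Subgroup.mem_zpowers s)

lemma KU2_mem_fix_iff (α : Qbar) (s : GQ) :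
    s ∈ (F ⊔ ℚ⟮α⟯).fixingSubgroup ↔ s ∈ F.fixingSubgroup ∧ s α = α := by
  rw [fixingSubgroup_sup, Subgroup.mem_inf, KU2_mem_fix_adjoin]

/-- the Kummer character `s ↦ s α / α` -/
def KU2_chi (hμ : HasMu p F) (α : Qbar) (hα : α ≠ 0) (hαF : α ^ p ∈ F) :
    F.fixingSubgroup →* Qbarˣ where
  toFun s := Units.mk0 ((s : GQ) α / α) (div_ne_zero (by simpa using hα) hα)
  map_one' := by
    apply Units.ext
    show (1 : GQ) α / α = 1
    exact div_self hα
  map_mul' s t := by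
    apply Units.ext
    show (s : GQ) ((t : GQ) α) / α = ((s : GQ) α / α) * ((t : GQ) α / α)
    have h1 : ((t : GQ) α / α) ^ p = 1 := by
      rw [div_pow, ← map_pow, KU3_fix t.2 hαF, div_self (pow_ne_zero _ hα)]
    have h2 : (s : GQ) ((t : GQ) α / α) = (t : GQ) α / α := KU3_fix s.2 (hμ _ h1)
    have h3 : (t : GQ) α = ((t : GQ) α / α) * α := by field_simp
    conv_lhs => rw [h3, map_mul, h2]
    field_simp

/-- (KU2) S55/G2/KumLayer.lean : `F(x^{1/p})` is a Kummer layer if `x ∉ F^p`. -/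
theorem exists_isKum_of_not_pow [FiniteDimensional ℚ F] (hμ : HasMu p F) (x : Qbar) (hx : x ∈ F)
    (hx0 : x ≠ 0) (hne : ¬ ∃ y ∈ F, y ^ p = x) :
    ∃ (L : IntermediateField ℚ Qbar) (σ : GQ) (α : Qbar), IsKum p F L σ α ∧ α ^ p = x := by
  have hp : p.Prime := Fact.out
  have : NeZero p := ⟨hp.ne_zero⟩
  have : NeZero (p : Qbar) := ⟨by exact_mod_cast hp.ne_zero⟩
  obtain ⟨α, hα⟩ := IsAlgClosed.exists_pow_nat_eq x hp.pos
  have hα0 : α ≠ 0 := by
    intro h0
    rw [h0, zero_pow hp.ne_zero] at hα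
    exact hx0 hα.symm
  have hαF : α ^ p ∈ F := by rw [hα]; exact hx
  have hαL : α ∈ F ⊔ ℚ⟮α⟯ := (le_sup_right : ℚ⟮α⟯ ≤ F ⊔ ℚ⟮α⟯) (mem_adjoin_simple_self ℚ α)
  obtain ⟨σ, hσ, hσα⟩ : ∃ σ ∈ F.fixingSubgroup, σ α ≠ α := by
    by_contra hcon
    push Not at hcon
    exact hne ⟨α, mem_of_fixed_Q F α hcon, hα⟩
  have hroot : ∀ s ∈ F.fixingSubgroup, (s α / α) ^ p = 1 := fun s hs => by
    rw [div_pow, ← map_pow, KU3_fix hs hαF, div_self (pow_ne_zero _ hα0)]
  have hfinα : FiniteDimensional ℚ ℚ⟮α⟯ :=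
    adjoin.finiteDimensional (Algebra.IsIntegral.isIntegral α)
  refine ⟨F ⊔ ℚ⟮α⟯, σ, α, ⟨⟨inferInstance, finiteDimensional_sup F ℚ⟮α⟯, le_sup_left, ?_, ?_, hσ,
    fun h => hσα ((KU2_mem_fix_iff α σ).1 h).2⟩, hα0, hαL, hαF, hσα⟩, hα⟩
  · -- normality
    intro s hs y hy
    have h1 : (F ⊔ ℚ⟮α⟯).map (s : Qbar →ₐ[ℚ] Qbar) ≤ F ⊔ ℚ⟮α⟯ := by
      rw [IntermediateField.map_sup]
      apply sup_le
      · rintro _ ⟨z, hz, rfl⟩
        have : s z = z := KU3_fix hs hz
        show s z ∈ _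
        rw [this]
        exact (le_sup_left : F ≤ F ⊔ ℚ⟮α⟯) hz
      · rw [adjoin_map, Set.image_singleton, adjoin_simple_le_iff]
        have h3 : s α = (s α / α) * α := by field_simp
        show s α ∈ _
        rw [h3]
        exact mul_mem ((le_sup_left : F ≤ F ⊔ ℚ⟮α⟯) (hμ _ (hroot s hs))) hαL
    exact h1 ⟨y, hy, rfl⟩
  · -- the index
    set χ := KU2_chi p hμ α hα0 hαF with hχ
    have hker : χ.ker = (F ⊔ ℚ⟮α⟯).fixingSubgroup.subgroupOf F.fixingSubgroup := by
      ext s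
      rw [MonoidHom.mem_ker, Subgroup.mem_subgroupOf, KU2_mem_fix_iff]
      constructor
      · intro h
        have h1 : (s : GQ) α / α = 1 := congrArg Units.val h
        exact ⟨s.2, (div_eq_one_iff_eq hα0).1 h1⟩
      · rintro ⟨-, h⟩
        apply Units.ext
        show (s : GQ) α / α = 1
        rw [h, div_self hα0]
    have hle : χ.range ≤ rootsOfUnity p Qbar := by
      rintro _ ⟨s, rfl⟩
      rw [mem_rootsOfUnity]
      apply Units.ext
      exact hroot s s.2
    have hcard : Nat.card (rootsOfUnity p Qbar) = p := HasEnoughRootsOfUnity.natCard_rootsOfUnity Qbar p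
    have hdvd : Nat.card χ.range ∣ p := by
      rw [← hcard]
      exact Subgroup.card_dvd_of_le hle
    have hne1 : Nat.card χ.range ≠ 1 := by
      intro h1
      rw [Subgroup.card_eq_one] at h1
      have h2 : χ ⟨σ, hσ⟩ ∈ χ.range := ⟨_, rfl⟩
      rw [h1, Subgroup.mem_bot] at h2
      have h3 : σ α / α = 1 := congrArg Units.val h2
      exact hσα ((div_eq_one_iff_eq hα0).1 h3)
    show ((F ⊔ ℚ⟮α⟯).fixingSubgroup.subgroupOf F.fixingSubgroup).index = p
    rw [← hker, Subgroup.index_ker]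
    exact (Nat.dvd_prime hp).1 hdvd |>.resolve_left hne1

end KU

end

end Fermat.Agent.S55Lib
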