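import Fermat.Agent.S55.G2.Defs
import Fermat.Agent.S55.G.LocFix
import Fermat.Agent.S55.G.LocSurj

/-!
# S55, chapter G2, leaf (BR1): places and local fields, basic facts
(`iq_mem_locF` is in `S55/G/LocSurj.lean`.)
-/

set_option autoImplicit false
set_option linter.unusedSectionVars false
set_option linter.unusedVariables false

namespace Fermat.Agent.S55Lib

noncomputable section

variable (F : IntermediateField ℚ Qbar)

/-- (BR1) S55/G2/PlaceFix.lean -/
theorem fixes_locF_iff (q : Nat.Primes) (g : GQ) (h : Gq q) :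
    (∀ y ∈ locF q g F, h y = y) ↔ g⁻¹ * rq q h * g ∈ F.fixingSubgroup := by
  rw [← mem_fixingSubgroup_locF_iff, IntermediateField.mem_fixingSubgroup_iff]

/-- (BR1) -/
theorem locF_mono {F L : IntermediateField ℚ Qbar} (h : F ≤ L) (q : Nat.Primes) (g : GQ) :
    locF q g F ≤ locF q g L :=
  IntermediateField.adjoin.mono _ _ _ (Set.image_mono h)

/-- (BR1) -/
theorem cmp_samePlace {x : JJ} (hx : x ∈ JF F) (q : Nat.Primes) (g : GQ) (h : Gq q) (s : GQ)
    (hs : s ∈ F.fixingSubgroup) : cmp x q (rq q h * g * s) = h • cmp x q g := by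
  rw [mem_JF_iff.mp hx s hs q (rq q h * g), cmp_rq]

/-- (BR1) -/
theorem JF_mono {F L : IntermediateField ℚ Qbar} (h : F ≤ L) : JF F ≤ JF L :=
  fun _ hx s hs => hx s (IntermediateField.fixingSubgroup_antitone h hs)

end

end Fermat.Agent.S55Lib
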