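import Fermat.Agent.S55.G2.KumBasic
import Fermat.Agent.S55.G2.PlaceFix

/-!
# S55, chapter G2, (KU4): a Kummer layer splits at the places where the radicand is a `p`-th power
-/

set_option autoImplicit false
set_option linter.unusedSectionVars false
set_option linter.unusedVariables false

namespace Fermat.Agent.S55Lib

noncomputable section

section KU

variable {p : ℕ} [Fact p.Prime] {F L : IntermediateField ℚ Qbar} {σ : GQ} {α : Qbar}

/-- the `p`-th roots of unity of `Ω_q` lie in `F_v` -/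
lemma KU4_root_mem (hμ : HasMu p F) (q : Nat.Primes) (g : GQ) (ξ : Om q) (hξ : ξ ^ p = 1) :
    ξ ∈ locF q g F := by
  have hp : p.Prime := Fact.out
  have : NeZero p := ⟨hp.ne_zero⟩
  have : NeZero (p : Qbar) := ⟨by exact_mod_cast hp.ne_zero⟩
  obtain ⟨ζ₀, hζ₀⟩ := HasEnoughRootsOfUnity.exists_primitiveRoot Qbar p
  have h1 : IsPrimitiveRoot (iq q (g ζ₀)) p :=
    (hζ₀.map_of_injective (f := g) g.injective).map_of_injective (f := iq q) (iq q).injective
  obtain ⟨k, -, hk⟩ := h1.eq_pow_of_pow_eq_one hξ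
  rw [← hk, ← map_pow, ← map_pow]
  apply iq_mem_locF
  apply hμ
  rw [← pow_mul, mul_comm, pow_mul, hζ₀.pow_eq_one, one_pow]

/-- (KU4) S55/G2/KumSplit.lean -/
theorem IsKum.splitAt (hK : IsKum p F L σ α) (hμ : HasMu p F) (q : Nat.Primes) (g : GQ)
    (h : LocPow p F q g (α ^ p)) : SplitAt q g F L := by
  have hp : p.Prime := Fact.out
  obtain ⟨z, hz, hzp⟩ := h
  have hβ0 : iq q (g α) ≠ 0 := by
    rw [Ne, map_eq_zero, map_eq_zero]
    exact hK.ne
  have hz0 : z ≠ 0 := by
    intro h0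
    rw [h0, zero_pow hp.ne_zero, map_pow, map_pow] at hzp
    exact pow_ne_zero p hβ0 hzp.symm
  have hβ : iq q (g α) ∈ locF q g F := by
    have h1 : (iq q (g α) / z) ^ p = 1 := by
      rw [div_pow, hzp, map_pow, map_pow, div_self (pow_ne_zero p hβ0)]
    have h2 := mul_mem (KU4_root_mem hμ q g _ h1) hz
    rwa [div_mul_cancel₀ _ hz0] at h2
  intro h hs
  rw [hK.mem_fix_iff hμ _ hs]
  have h1 := (fixes_locF_iff F q g h).2 hs _ hβ
  rw [← iq_rq] at h1
  have h2 : rq q h (g α) = g α := (iq q).injective h1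
  show g⁻¹ (rq q h (g α)) = α
  rw [h2]
  exact g.symm_apply_apply α

end KU

end

end Fermat.Agent.S55Lib
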