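import Fermat.Agent.S55.G2.NormBasic
import Fermat.Agent.S55.G2.IdeleRep

/-! # S55 G2 (NO1): an idele which is a norm at every place is a norm -/

set_option autoImplicit false
set_option linter.unusedSectionVars false
set_option linter.unusedVariables false

namespace Fermat.Agent.S55Lib

noncomputable section

open groupCohomology

section NO

variable {p : ℕ} [Fact p.Prime] {F L : IntermediateField ℚ Qbar} {σ : GQ} {α : Qbar}

/-- the common assembly lemma -/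
lemma NO1_asm (hL : IsLayer p F L σ) (x : JJ) (hx : x ∈ JF F) (Y : ∀ q : Nat.Primes, GQ → JJ)
    (hY : ∀ q g, Y q g ∈ JF L) (hYx : ∀ q g, cmp (NJ p σ (Y q g)) q g = cmp x q g)
    (T₀ : Finset Nat.Primes)
    (hYu : ∀ q ∉ T₀, ∀ g g', SamePlace q F g g' → ‖((cmp (Y q g) q g' : (Om q)ˣ) : Om q)‖ = 1) :
    ∃ w ∈ JF L, x = NJ p σ w ∧ ∀ q g, ∃ g₀, SamePlace q F g₀ g ∧ cmp w q g = cmp (Y q g₀) q g := by
  have := hL.finF
  have := hL.finL
  obtain ⟨ρ, hρ1, hρ2⟩ := exists_placeRep F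
  have heq : ∀ q, IsEqv q L (fun g => cmp (Y q (ρ q g)) q g) := by
    intro q h g s hs
    have h1 : ρ q (rq q h * g * s) = ρ q g := (hρ2 q g _ ⟨h, s, hL.fix_le hs, rfl⟩).symm
    show cmp (Y q (ρ q (rq q h * g * s))) q (rq q h * g * s) = h • cmp (Y q (ρ q g)) q g
    rw [h1]
    exact cmp_isEqv (hY q _) q h g s hs
  obtain ⟨w, hw, hwc⟩ := exists_idele_of_family L (fun q g => cmp (Y q (ρ q g)) q g) heq (by
    refine (Finset.finite_toSet T₀).subset ?_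
    intro q hq
    by_contra hcon
    exact hq (fun g => hYu q hcon _ g (hρ1 q g)))
  refine ⟨w, hw, ?_, fun q g => ⟨ρ q g, hρ1 q g, hwc q g⟩⟩
  apply JJ.ext
  intro q g
  have h1 : cmp (NJ p σ w) q g = cmp (NJ p σ (Y q (ρ q g))) q g := by
    rw [cmp_NJ, cmp_NJ]
    refine Finset.prod_congr rfl fun i _ => ?_
    rw [hwc]
    have h2 : ρ q (g * σ ^ i) = ρ q g :=
      (hρ2 q g _ ⟨1, σ ^ i, Subgroup.pow_mem _ hL.mem i, by rw [map_one, one_mul]⟩).symm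
    show cmp (Y q (ρ q (g * σ ^ i))) q (g * σ ^ i) = _
    rw [h2]
  rw [h1]
  exact ((cmp_isEqv (NJ_mem_JF hL _ (hY q (ρ q g))) q).eq_of_samePlace (cmp_isEqv hx q)
    (hρ1 q g) (hYx q (ρ q g))).symm

/-- (NO1) S55/G2/NormAsm.lean : **assembly**: an idele of `F` which is a norm at every place (with
unit solutions at almost all primes) is a norm. -/
theorem norm_of_locNorm (hL : IsLayer p F L σ) (x : JJ) (hx : x ∈ JF F)
    (h1 : ∀ q g, LocNorm p L σ x q g) (T₀ : Finset Nat.Primes)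
    (h2 : ∀ q ∉ T₀, ∀ g, LocNormU p F L σ x q g) : ∃ y ∈ JF L, x = NJ p σ y := by
  classical
  have h3 : ∀ q g, ∃ y ∈ JF L, cmp (NJ p σ y) q g = cmp x q g ∧
      (q ∉ T₀ → ∀ g', SamePlace q F g g' → ‖((cmp y q g' : (Om q)ˣ) : Om q)‖ = 1) := by
    intro q g
    by_cases hq : q ∈ T₀
    · obtain ⟨y, hy, hyx⟩ := h1 q g
      exact ⟨y, hy, hyx, fun h => absurd hq h⟩
    · obtain ⟨y, hy, hyu, hyx⟩ := h2 q hq g
      exact ⟨y, hy, hyx, fun _ => hyu⟩
  choose Y hY hYx hYu using h3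
  obtain ⟨w, hw, hxw, -⟩ := NO1_asm hL x hx Y hY hYx T₀ (fun q hq g g' => hYu q g hq g')
  exact ⟨w, hw, hxw⟩

/-- (NO1') same, keeping track of units and supports. -/
theorem norm_of_locNormU (hL : IsLayer p F L σ) (x : JJ) (hx : x ∈ JF F) (S : Finset Nat.Primes)
    (hxS : x ∈ UId S) (h2 : ∀ q ∉ S, ∀ g, LocNormU p F L σ x q g) :
    ∃ y ∈ JF L ⊓ UId S, x = NJ p σ y := by
  classical
  have h3 : ∀ q g, ∃ y ∈ JF L, cmp (NJ p σ y) q g = cmp x q g ∧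
      (q ∉ S → ∀ g', SamePlace q F g g' → ‖((cmp y q g' : (Om q)ˣ) : Om q)‖ = 1) ∧
      (q ∈ S → y = 1) := by
    intro q g
    by_cases hq : q ∈ S
    · exact ⟨1, one_mem _, by rw [NO0_NJ_one, cmp_one, hxS.1 q hq g], fun h => absurd hq h,
        fun _ => rfl⟩
    · obtain ⟨y, hy, hyu, hyx⟩ := h2 q hq g
      exact ⟨y, hy, hyx, fun _ => hyu, fun h => absurd h hq⟩
  choose Y hY hYx hYu hY1 using h3
  obtain ⟨w, hw, hxw, hwY⟩ := NO1_asm hL x hx Y hY hYx S (fun q hq g g' => hYu q g hq g')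
  refine ⟨w, ⟨hw, fun q hq g => ?_, fun q hq g => ?_⟩, hxw⟩
  · obtain ⟨g₀, -, h⟩ := hwY q g
    rw [h, hY1 q g₀ hq, cmp_one]
  · obtain ⟨g₀, hg₀, h⟩ := hwY q g
    rw [h]
    exact hYu q g₀ hq g hg₀

end NO

end

end Fermat.Agent.S55Lib
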