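import Fermat.Agent.S55.G2.Defs
import Fermat.Agent.S55.G1b.Glue
import Fermat.Agent.S55.G1b.Place

/-! # S55 G2 (NO0): basic properties of the idele norm `NJ` -/

set_option autoImplicit false
set_option linter.unusedSectionVars false
set_option linter.unusedVariables false

namespace Fermat.Agent.S55Lib

noncomputable section

open groupCohomology

section NO

variable {p : ℕ} [Fact p.Prime] {F L : IntermediateField ℚ Qbar} {σ : GQ} {α : Qbar}

lemma NO0_NJ_eq (p : ℕ) (σ : GQ) (y : JJ) : NJ p σ y = Nσ p σ y := rfl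

/-- (NO0) S55/G2/NormBasic.lean -/
theorem NJ_mem_JF (hL : IsLayer p F L σ) (y : JJ) (hy : y ∈ JF L) : NJ p σ y ∈ JF F :=
  hL.Nσ_mem_JF hy

/-- (NO0) -/
theorem NJ_mul (σ : GQ) (y y' : JJ) : NJ p σ (y * y') = NJ p σ y * NJ p σ y' := by
  unfold NJ
  simp only [smul_mul']
  exact Finset.prod_mul_distrib

/-- (NO0) -/
theorem NJ_of_mem (hL : IsLayer p F L σ) (y : JJ) (hy : y ∈ JF F) : NJ p σ y = y ^ p := by
  unfold NJ
  have h : ∀ i ∈ Finset.range p, σ ^ i • y = y := fun i _ => hy _ (Subgroup.pow_mem _ hL.mem i)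
  rw [Finset.prod_congr rfl h, Finset.prod_const, Finset.card_range]

/-- (NO0) -/
theorem cmp_NJ (σ : GQ) (y : JJ) (q : Nat.Primes) (g : GQ) :
    cmp (NJ p σ y) q g = ∏ i ∈ Finset.range p, cmp y q (g * σ ^ i) :=
  cmp_Nσ p σ y q g

/-- (NO0) -/
theorem LocNorm.of_samePlace (hL : IsLayer p F L σ) {x : JJ} (hx : x ∈ JF F) {q : Nat.Primes}
    {g g' : GQ} (hg : SamePlace q F g g') (h : LocNorm p L σ x q g) : LocNorm p L σ x q g' := by
  obtain ⟨y, hy, hyx⟩ := h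
  exact ⟨y, hy, (cmp_isEqv (NJ_mem_JF hL y hy) q).eq_of_samePlace (cmp_isEqv hx q) hg hyx⟩

lemma NO0_NJ_one (p : ℕ) (σ : GQ) : NJ p σ (1 : JJ) = 1 := by
  unfold NJ
  simp only [smul_one]
  exact Finset.prod_const_one

/-- (NO0) -/
theorem locNormU_one (F L : IntermediateField ℚ Qbar) (σ : GQ) (x : JJ) (q : Nat.Primes) (g : GQ)
    (h : cmp x q g = 1) : LocNormU p F L σ x q g := by
  refine ⟨1, one_mem _, fun g' _ => ?_, ?_⟩
  · rw [cmp_one]; simp
  · rw [NO0_NJ_one, cmp_one, h]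

/-- (NO0) -/
theorem LocNormU.locNorm {F L : IntermediateField ℚ Qbar} {σ : GQ} {x : JJ} {q : Nat.Primes} {g : GQ}
    (h : LocNormU p F L σ x q g) : LocNorm p L σ x q g := by
  obtain ⟨y, hy, -, hyx⟩ := h
  exact ⟨y, hy, hyx⟩

lemma NO0_cmp_pow (x : JJ) (n : ℕ) (q : Nat.Primes) (g : GQ) :
    cmp (x ^ n) q g = cmp x q g ^ n := by
  induction n with
  | zero => simp
  | succ n ih => rw [pow_succ, pow_succ, cmp_mul, ih]

lemma NO0_NJ_pow (p : ℕ) (σ : GQ) (y : JJ) (n : ℕ) : NJ p σ (y ^ n) = NJ p σ y ^ n := by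
  unfold NJ
  simp only [smul_pow']
  exact Finset.prod_pow _ _ _

end NO

end

end Fermat.Agent.S55Lib
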