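import Fermat.Agent.S55.G2.NormBasic
import Fermat.Agent.S55.G.Single

/-! # S55 G2 (NO3): local `p`-th powers are norms -/

set_option autoImplicit false
set_option linter.unusedSectionVars false
set_option linter.unusedVariables false

namespace Fermat.Agent.S55Lib

noncomputable section

open groupCohomology

section NO

variable {p : ℕ} [Fact p.Prime] {F L : IntermediateField ℚ Qbar} {σ : GQ} {α : Qbar}

/-- (NO3) S55/G2/NormPow.lean : local `p`-th powers are norms. -/
theorem locNorm_of_pow (hL : IsLayer p F L σ) (x : JJ) (q : Nat.Primes) (g : GQ)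
    (z : Om q) (hz : z ∈ locF q g F) (hzx : ((cmp x q g : (Om q)ˣ) : Om q) = z ^ p) :
    LocNorm p L σ x q g := by
  have := hL.finF
  have hz0 : z ≠ 0 := by
    rintro rfl
    rw [zero_pow (Fact.out : p.Prime).ne_zero] at hzx
    exact (cmp x q g).ne_zero hzx
  obtain ⟨y, hy, hy1, -, -⟩ := exists_single F q g (Units.mk0 z hz0) hz
  refine ⟨y, hL.JF_le hy, ?_⟩
  rw [NJ_of_mem hL y hy, NO0_cmp_pow, hy1]
  apply Units.ext
  rw [hzx]
  rfl

end NO

end

end Fermat.Agent.S55Lib
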