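import Fermat.Agent.S55.G2.NormBasic
import Fermat.Agent.S55.G.Single

/-! # S55 G2 (NO2): everything is a norm at a split place -/

set_option autoImplicit false
set_option linter.unusedSectionVars false
set_option linter.unusedVariables false

namespace Fermat.Agent.S55Lib

noncomputable section

open groupCohomology

section NO

variable {p : ℕ} [Fact p.Prime] {F L : IntermediateField ℚ Qbar} {σ : GQ} {α : Qbar}

lemma NO2_locF_mono {F L : IntermediateField ℚ Qbar} (h : F ≤ L) (q : Nat.Primes) (g : GQ) :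
    locF q g F ≤ locF q g L :=
  IntermediateField.adjoin.mono _ _ _ (Set.image_mono h)

/-- at a split place the conjugates `g σ^i`, `0 < i < p`, are other places of `L` -/
lemma NO2_not_samePlace (hL : IsLayer p F L σ) (q : Nat.Primes) (g : GQ)
    (hs : SplitAt q g F L) (i : ℕ) (hi0 : 0 < i) (hip : i < p) :
    ¬ SamePlace q L g (g * σ ^ i) := by
  rintro ⟨h, s, hsL, he⟩
  have h1 : g⁻¹ * rq q h * g = σ ^ i * s⁻¹ := by
    have : rq q h * g = g * σ ^ i * s⁻¹ := by rw [he]; group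
    calc g⁻¹ * rq q h * g = g⁻¹ * (rq q h * g) := by group
      _ = g⁻¹ * (g * σ ^ i * s⁻¹) := by rw [this]
      _ = σ ^ i * s⁻¹ := by group
  have h2 : g⁻¹ * rq q h * g ∈ F.fixingSubgroup := by
    rw [h1]
    exact mul_mem (Subgroup.pow_mem _ hL.mem i) (inv_mem (hL.fix_le hsL))
  have h3 := hs h h2
  rw [h1] at h3
  have h4 : σ ^ i ∈ L.fixingSubgroup := by
    have := mul_mem h3 hsL
    simpa using this
  have h5 := (hL.pow_mem_iff i).1 h4
  exact absurd (Nat.le_of_dvd hi0 h5) (not_le.2 hip)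

lemma NO2_main (hL : IsLayer p F L σ) (x : JJ) (hx : x ∈ JF F) (q : Nat.Primes) (g : GQ)
    (hs : SplitAt q g F L) : ∃ y ∈ JF L, cmp (NJ p σ y) q g = cmp x q g ∧ cmp y q g = cmp x q g ∧
      ∀ g', ¬ SamePlace q L g g' → cmp y q g' = 1 := by
  have := hL.finF
  have := hL.finL
  obtain ⟨y, hy, hy1, hy2, -⟩ := exists_single L q g (cmp x q g)
    (NO2_locF_mono hL.le q g (cmp_mem_locF F x hx q g))
  refine ⟨y, hy, ?_, hy1, hy2⟩
  have hp : 0 < p := (Fact.out : p.Prime).pos
  rw [cmp_NJ, ← Finset.mul_prod_erase (Finset.range p) _ (Finset.mem_range.2 hp), pow_zero,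
    mul_one, hy1]
  rw [Finset.prod_eq_one, mul_one]
  intro i hi
  rw [Finset.mem_erase, Finset.mem_range] at hi
  exact hy2 _ (NO2_not_samePlace hL q g hs i (Nat.pos_of_ne_zero hi.1) hi.2)

/-- (NO2) S55/G2/NormSplit.lean : everything is a norm at a split place. -/
theorem locNorm_of_split (hL : IsLayer p F L σ) (x : JJ) (hx : x ∈ JF F) (q : Nat.Primes) (g : GQ)
    (hs : SplitAt q g F L) : LocNorm p L σ x q g := by
  obtain ⟨y, hy, h, -, -⟩ := NO2_main hL x hx q g hs
  exact ⟨y, hy, h⟩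

/-- (NO2) -/
theorem locNormU_of_split (hL : IsLayer p F L σ) (x : JJ) (hx : x ∈ JF F) (q : Nat.Primes) (g : GQ)
    (hs : SplitAt q g F L) (hu : ‖((cmp x q g : (Om q)ˣ) : Om q)‖ = 1) :
    LocNormU p F L σ x q g := by
  obtain ⟨y, hy, h, h1, h2⟩ := NO2_main hL x hx q g hs
  refine ⟨y, hy, fun g' _ => ?_, h⟩
  by_cases hg : SamePlace q L g g'
  · rw [hg.norm_cmp_eq hy, h1, hu]
  · rw [h2 g' hg]; simp

end NO

end

end Fermat.Agent.S55Lib
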