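import Fermat.Agent.S55.G2.TameMu

/-!
# S55, chapter G2, leaf (LT2): 1-units are `p`-th powers (`q ≠ p`)
-/

set_option autoImplicit false
set_option linter.unusedSectionVars false
set_option linter.unusedVariables false
set_option linter.style.haveILetI false

namespace Fermat.Agent.S55Lib

noncomputable section

open Polynomial

variable (q : Nat.Primes) (K : IntermediateField ℚ_[(q : ℕ)] (Om q))

lemma LT2_exists_prim (p : ℕ) [Fact p.Prime] : ∃ ζ : Om q, IsPrimitiveRoot ζ p := by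
  haveI : NeZero p := ⟨(Fact.out : p.Prime).ne_zero⟩
  haveI : NeZero (p : Om q) := ⟨by exact_mod_cast (Fact.out : p.Prime).ne_zero⟩
  exact HasEnoughRootsOfUnity.exists_primitiveRoot (Om q) p

/-- if `y ^ p ≡ 1` then `y ≡ μ` for a `p`-th root of unity `μ` -/
lemma LT2_exists_root (p : ℕ) [Fact p.Prime] (y : Om q) (hy : ‖y ^ p - 1‖ < 1) :
    ∃ μ : Om q, μ ^ p = 1 ∧ ‖y - μ‖ < 1 := by
  have hp : 0 < p := (Fact.out : p.Prime).pos
  obtain ⟨ζ, hζ⟩ := LT2_exists_prim q p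
  have h1 := congrArg (eval y) (X_pow_sub_one_eq_prod hp hζ)
  rw [eval_sub, eval_pow, eval_X, eval_one, eval_prod] at h1
  rw [h1] at hy
  obtain ⟨μ, hμ, h2⟩ := LT_exists_factor_lt _ _ hy
  refine ⟨μ, (mem_nthRootsFinset hp _).1 hμ, ?_⟩
  simpa using h2

/-- (LT2) S55/G2/TameOne.lean : 1-units are `p`-th powers. -/
theorem one_unit_pow (p : ℕ) [Fact p.Prime] (hqp : (q : ℕ) ≠ p) (x : Om q) (hx : x ∈ K)
    (hx1 : ‖x - 1‖ < 1) : ∃ y ∈ K, y ^ p = x ∧ ‖y - 1‖ < 1 := by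
  have hp : 0 < p := (Fact.out : p.Prime).pos
  have hnd : ¬ (q : ℕ) ∣ p := fun h => hqp ((Nat.prime_dvd_prime_iff_eq q.2 Fact.out).1 h)
  obtain ⟨y₀, hy₀⟩ := IsAlgClosed.exists_pow_nat_eq x hp
  obtain ⟨μ, hμ, h1⟩ := LT2_exists_root q p y₀ (by rw [hy₀]; exact hx1)
  have hμ1 : ‖μ‖ = 1 := LT1_norm_eq_one_of_pow q hp.ne' hμ
  have hμ0 : μ ≠ 0 := by
    intro h0; rw [h0, norm_zero] at hμ1; exact zero_ne_one hμ1
  have hy1 : ‖y₀ / μ - 1‖ < 1 := by
    have : y₀ / μ - 1 = (y₀ - μ) / μ := by field_simp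
    rw [this, norm_div, hμ1, div_one]
    exact h1
  have hyp : (y₀ / μ) ^ p = x := by rw [div_pow, hμ, div_one, hy₀]
  have hyn : ‖y₀ / μ‖ = 1 := LT_norm_eq_one hy1 norm_one
  have hy0 : y₀ / μ ≠ 0 := by
    intro h0; rw [h0, norm_zero] at hyn; exact zero_ne_one hyn
  refine ⟨y₀ / μ, ?_, hyp, hy1⟩
  apply mem_of_fixed
  intro h hh
  set y := y₀ / μ with hy
  have h2 : (h y / y) ^ p = 1 := by
    rw [div_pow, ← map_pow, hyp, hh x hx, div_self]
    rw [← hyp]; exact pow_ne_zero _ hy0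
  have h3 : ‖h y - 1‖ < 1 := by
    have : h y - 1 = h (y - 1) := by rw [map_sub, map_one]
    rw [this, norm_gq]
    exact hy1
  have h4 : ‖h y / y - 1‖ < 1 := by
    have : h y / y - 1 = (h y - y) / y := by field_simp
    rw [this, norm_div, hyn, div_one]
    exact LT_trans h3 (LT_symm hy1)
  have h5 := LT1_eq_one q hnd h2 h4
  exact (div_eq_one_iff_eq hy0).1 h5

end

end Fermat.Agent.S55Lib
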