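import Fermat.Agent.S55.G2.TameRes
import Fermat.Agent.S55.G2.TameOne

/-!
# S55, chapter G2, (LT4): `U_K / U_K^p` is cyclic of order `p`
-/

set_option autoImplicit false
set_option linter.unusedSectionVars false
set_option linter.unusedVariables false

namespace Fermat.Agent.S55Lib

noncomputable section

variable (q : Nat.Primes) (K : IntermediateField ℚ_[(q : ℕ)] (Om q))

lemma LT4_add_eq_of_lt {x y : Om q} (h : ‖y‖ < ‖x‖) : ‖x + y‖ = ‖x‖ := by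
  apply le_antisymm
  · exact (LT_add_le x y).trans (max_le le_rfl h.le)
  · by_contra hlt
    push Not at hlt
    have : ‖x‖ ≤ max ‖x + y‖ ‖y‖ := by
      have := LT_sub_le (x + y) y
      rwa [add_sub_cancel_right] at this
    exact absurd this (not_le.2 (max_lt hlt h))

lemma LT4_norm_eq_one_of_sub_lt {y : Om q} (h : ‖y - 1‖ < 1) : ‖y‖ = 1 := by
  have := LT4_add_eq_of_lt q (x := 1) (y := y - 1) (by rwa [norm_one])
  rwa [add_sub_cancel, norm_one] at this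

lemma LT4_pow_sub_one_le {t : Om q} (ht : ‖t‖ = 1) (i : ℕ) : ‖t ^ i - 1‖ ≤ ‖t - 1‖ := by
  rw [← mul_geom_sum t i, norm_mul]
  have : ‖∑ j ∈ Finset.range i, t ^ j‖ ≤ 1 :=
    LT_sum_le _ _ zero_le_one fun j _ => by rw [norm_pow, ht, one_pow]
  exact mul_le_of_le_one_right (norm_nonneg _) this

lemma LT4_mul_congr {a a' b b' : Om q} (ha : ‖a‖ ≤ 1) (hb' : ‖b'‖ ≤ 1) (h1 : ‖a - a'‖ < 1)
    (h2 : ‖b - b'‖ < 1) : ‖a * b - a' * b'‖ < 1 := by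
  have e : a * b - a' * b' = a * (b - b') + (a - a') * b' := by ring
  rw [e]
  refine (LT_add_le _ _).trans_lt (max_lt ?_ ?_)
  · rw [norm_mul]
    exact mul_lt_one_of_nonneg_of_lt_one_right ha (norm_nonneg _) h2
  · rw [norm_mul]
    exact mul_lt_one_of_nonneg_of_lt_one_left (norm_nonneg _) h1 hb'

lemma LT4_pow_congr {a a' : Om q} (ha : ‖a‖ ≤ 1) (ha' : ‖a'‖ ≤ 1) (h1 : ‖a - a'‖ < 1) (k : ℕ) :
    ‖a ^ k - a' ^ k‖ < 1 := by
  induction k with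
  | zero => simp
  | succ k ih =>
    rw [pow_succ, pow_succ]
    exact LT4_mul_congr q (by rw [norm_pow]; exact pow_le_one₀ (norm_nonneg _) ha) ha' ih h1

lemma LT4_trans {a b c : Om q} (h1 : ‖a - b‖ < 1) (h2 : ‖b - c‖ < 1) : ‖a - c‖ < 1 := by
  have e : a - c = (a - b) + (b - c) := by ring
  rw [e]
  exact (LT_add_le _ _).trans_lt (max_lt h1 h2)

/-- the key claim: `v ^ N ≡ 1` implies that `v` is a `p`-th power -/
lemma LT4_claim (p : ℕ) [Fact p.Prime] (hqp : (q : ℕ) ≠ p) (Q N : ℕ) (hQN : Q = p * N + 1)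
    (hQ : ∀ w : Om q, ‖w‖ ≤ 1 → ‖w ^ Q - w‖ < 1 → ∃ b ∈ K, ‖w - b‖ < 1)
    (v : Om q) (hv : v ∈ K) (hv1 : ‖v‖ = 1) (hvN : ‖v ^ N - 1‖ < 1) : ∃ z ∈ K, z ^ p = v := by
  have hp : p.Prime := Fact.out
  obtain ⟨w, hw⟩ := IsAlgClosed.exists_pow_nat_eq v hp.pos
  have hw1 : ‖w‖ = 1 := by
    have : ‖w‖ ^ p = 1 := by rw [← norm_pow, hw, hv1]
    exact (pow_eq_one_iff_of_nonneg (norm_nonneg w) hp.ne_zero).1 this
  have hwQ : ‖w ^ Q - w‖ < 1 := by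
    have e : w ^ Q - w = (v ^ N - 1) * w := by
      rw [hQN, pow_succ, pow_mul, hw]; ring
    rw [e, norm_mul, hw1, mul_one]
    exact hvN
  obtain ⟨b, hb, hwb⟩ := hQ w hw1.le hwQ
  have hb1 : ‖b‖ = 1 := by
    have := LT4_add_eq_of_lt q (x := w) (y := b - w) (by rw [hw1, norm_sub_rev]; exact hwb)
    rwa [add_sub_cancel, hw1] at this
  have hb0 : b ≠ 0 := by
    intro h0; rw [h0, norm_zero] at hb1; exact zero_ne_one hb1
  have h1 : ‖w / b - 1‖ < 1 := by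
    have : w / b - 1 = (w - b) / b := by field_simp
    rw [this, norm_div, hb1, div_one]
    exact hwb
  have h2 : ‖v / b ^ p - 1‖ < 1 := by
    rw [← hw, ← div_pow]
    exact (LT4_pow_sub_one_le q (LT4_norm_eq_one_of_sub_lt q h1) p).trans_lt h1
  obtain ⟨y, hy, hyp, -⟩ := one_unit_pow q K p hqp (v / b ^ p) (div_mem hv (pow_mem hb p)) h2
  refine ⟨b * y, mul_mem hb hy, ?_⟩
  rw [mul_pow, hyp]
  field_simp

/-- (LT4) S55/G2/TameCyc.lean : `U_K / U_K^p` is cyclic of order `p`. -/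
theorem units_mod_pow_cyclic [FiniteDimensional ℚ_[(q : ℕ)] K] (p : ℕ) [Fact p.Prime]
    (hqp : (q : ℕ) ≠ p) (hμ : ∀ ζ : Om q, ζ ^ p = 1 → ζ ∈ K)
    (e u : Om q) (he : e ∈ K) (hu : u ∈ K) (he1 : ‖e‖ = 1) (hu1 : ‖u‖ = 1)
    (hne : ¬ ∃ z ∈ K, z ^ p = e) : ∃ k : ℕ, ∃ z ∈ K, u = e ^ k * z ^ p := by
  have hp : p.Prime := Fact.out
  have hNq : ¬ (q : ℕ) ∣ p := fun h => hqp ((Nat.prime_dvd_prime_iff_eq q.2 hp).1 h)
  obtain ⟨Q, hQ1, hQK, hQw⟩ := exists_residue_card q K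
  -- `p ∣ Q - 1`
  have : NeZero (p : Om q) := ⟨by exact_mod_cast hp.ne_zero⟩
  have : NeZero p := ⟨hp.ne_zero⟩
  obtain ⟨ζ₀, hζ₀⟩ := HasEnoughRootsOfUnity.exists_primitiveRoot (Om q) p
  have hζ₀1 : ‖ζ₀‖ = 1 := LT1_norm_eq_one_of_pow q hp.ne_zero hζ₀.pow_eq_one
  have hunit : ∀ v ∈ K, ‖v‖ = 1 → ‖v ^ (Q - 1) - 1‖ < 1 := by
    intro v hv hv1
    have h1 := hQK v hv hv1.le
    have e1 : v ^ Q - v = (v ^ (Q - 1) - 1) * v := by
      obtain ⟨m, rfl⟩ : ∃ m, Q = m + 1 := ⟨Q - 1, by omega⟩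
      rw [Nat.add_sub_cancel, pow_succ]; ring
    rwa [e1, norm_mul, hv1, mul_one] at h1
  have hdvd : p ∣ Q - 1 := by
    apply hζ₀.dvd_of_pow_eq_one
    apply LT1_eq_one q hNq (N := p)
    · rw [← pow_mul, mul_comm, pow_mul, hζ₀.pow_eq_one, one_pow]
    · exact hunit ζ₀ (hμ ζ₀ hζ₀.pow_eq_one) hζ₀1
  obtain ⟨N, hN⟩ := hdvd
  have hQN : Q = p * N + 1 := by omega
  have hroot : ∀ v ∈ K, ‖v‖ = 1 → ∃ ζ : Om q, ζ ^ p = 1 ∧ ‖v ^ N - ζ‖ < 1 := by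
    intro v hv hv1
    apply LT2_exists_root q p
    rw [← pow_mul, mul_comm, ← hN]
    exact hunit v hv hv1
  obtain ⟨ζe, hζe, hee⟩ := hroot e he he1
  obtain ⟨ζu, hζu, huu⟩ := hroot u hu hu1
  have hζe1 : ζe ≠ 1 := by
    intro h1
    rw [h1] at hee
    exact hne (LT4_claim q K p hqp Q N hQN hQw e he he1 hee)
  have hprim : IsPrimitiveRoot ζe p := by
    have := IsPrimitiveRoot.orderOf ζe
    rwa [orderOf_eq_prime hζe hζe1] at this
  obtain ⟨k, -, hk⟩ := hprim.eq_pow_of_pow_eq_one hζu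
  have hζen : ‖ζe‖ = 1 := LT1_norm_eq_one_of_pow q hp.ne_zero hζe
  have he0 : e ≠ 0 := by
    intro h0; rw [h0, norm_zero] at he1; exact zero_ne_one he1
  have hv1 : ‖u / e ^ k‖ = 1 := by rw [norm_div, norm_pow, hu1, he1, one_pow, div_one]
  have hvN : ‖(u / e ^ k) ^ N - 1‖ < 1 := by
    have hB : ‖(e ^ N) ^ k‖ = 1 := by rw [norm_pow, norm_pow, he1, one_pow, one_pow]
    have e1 : (u / e ^ k) ^ N - 1 = (u ^ N - (e ^ N) ^ k) / (e ^ N) ^ k := by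
      rw [div_pow, ← pow_mul, ← pow_mul, mul_comm k N]
      field_simp
    rw [e1, norm_div, hB, div_one]
    refine LT4_trans q huu ?_
    rw [← hk, norm_sub_rev]
    exact LT4_pow_congr q (by rw [norm_pow, he1, one_pow]) hζen.le hee k
  obtain ⟨z, hz, hzp⟩ := LT4_claim q K p hqp Q N hQN hQw (u / e ^ k)
    (div_mem hu (pow_mem he k)) hv1 hvN
  refine ⟨k, z, hz, ?_⟩
  rw [hzp]
  field_simp

end

end Fermat.Agent.S55Lib
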