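import Fermat.Agent.S55.G2.NormSplit
import Fermat.Agent.S55.G2.KumSplit
import Fermat.Agent.S55.G2.TameCyc
import Fermat.Agent.S55.G.LocFin
import Fermat.Agent.S55.G.LocSurj

/-! # S55 G2 (NO4): units are norms at the places `v ∤ p` where `α` is a unit -/

set_option autoImplicit false
set_option linter.unusedSectionVars false
set_option linter.unusedVariables false

namespace Fermat.Agent.S55Lib

noncomputable section

open groupCohomology

section NO

variable {p : ℕ} [Fact p.Prime] {F L : IntermediateField ℚ Qbar} {σ : GQ} {α : Qbar}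

/-- the `p`-th roots of unity of `Ω_q` lie in `F_v` -/
lemma NO4_mu_mem (hμ : HasMu p F) (q : Nat.Primes) (g : GQ) (ζ : Om q) (hζ : ζ ^ p = 1) :
    ζ ∈ locF q g F := by
  have hp : 0 < p := (Fact.out : p.Prime).pos
  have : NeZero p := ⟨(Fact.out : p.Prime).ne_zero⟩
  have : NeZero (p : Qbar) := ⟨by exact_mod_cast (Fact.out : p.Prime).ne_zero⟩
  obtain ⟨ζ0, hζ0⟩ : ∃ ζ0 : Qbar, IsPrimitiveRoot ζ0 p :=
    HasEnoughRootsOfUnity.exists_primitiveRoot Qbar p
  have h1 : IsPrimitiveRoot (iq q (g ζ0)) p :=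
    (hζ0.map_of_injective g.injective).map_of_injective (iq q).toRingHom.injective
  obtain ⟨i, -, hi⟩ := h1.eq_pow_of_pow_eq_one hζ
  rw [← hi]
  exact pow_mem (iq_mem_locF q g F (hμ ζ0 hζ0.pow_eq_one)) i

lemma NO4_norm_eq_one_of_pow {q : Nat.Primes} {z : Om q} {n : ℕ} (hn : n ≠ 0)
    (h : ‖z ^ n‖ = 1) : ‖z‖ = 1 := by
  rw [norm_pow] at h
  exact (pow_eq_one_iff_of_nonneg (norm_nonneg z) hn).1 h

/-- the component of the norm of a principal idele -/
lemma NO4_cmp_NJ_diag (σ : GQ) (a : Qbarˣ) (q : Nat.Primes) (g : GQ) :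
    ((cmp (NJ p σ (diag a)) q g : (Om q)ˣ) : Om q) =
      iq q (g (∏ i ∈ Finset.range p, (σ ^ i) (a : Qbar))) := by
  rw [cmp_NJ, Units.coe_prod, map_prod, map_prod]
  refine Finset.prod_congr rfl fun i _ => ?_
  rw [diag_comp]
  rfl

/-- (NO4) S55/G2/NormUnit.lean : units are norms at the places `v ∤ p` where `α` is a unit. -/
theorem locNormU_of_unit (hK : IsKum p F L σ α) (hμ : HasMu p F) (hp2 : p ≠ 2) (x : JJ)
    (hx : x ∈ JF F) (q : Nat.Primes) (hqp : (q : ℕ) ≠ p) (g : GQ) (hα : ‖iq q (g α)‖ = 1)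
    (hu : ‖((cmp x q g : (Om q)ˣ) : Om q)‖ = 1) : LocNormU p F L σ x q g := by
  have hL := hK.layer
  have := hL.finF
  have := hL.finL
  have hp0 : p ≠ 0 := (Fact.out : p.Prime).ne_zero
  by_cases hpow : LocPow p F q g (α ^ p)
  · exact locNormU_of_split hL x hx q g (hK.splitAt hμ q g hpow) hu
  · have he1 : ‖iq q (g (α ^ p))‖ = 1 := by
      rw [map_pow, map_pow, norm_pow, hα, one_pow]
    obtain ⟨k, z, hz, hxz⟩ := units_mod_pow_cyclic q (locF q g F) p hqp (NO4_mu_mem hμ q g)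
      (iq q (g (α ^ p))) ((cmp x q g : (Om q)ˣ) : Om q) (iq_mem_locF q g F hK.pow)
      (cmp_mem_locF F x hx q g) he1 hu hpow
    have hz1 : ‖z‖ = 1 := by
      apply NO4_norm_eq_one_of_pow hp0
      have := congrArg norm hxz
      rw [norm_mul, norm_pow, he1, one_pow, one_mul, hu] at this
      exact this.symm
    have hz0 : z ≠ 0 := by
      intro h
      rw [h, norm_zero] at hz1
      exact zero_ne_one hz1
    obtain ⟨w, hw, hw1, -, -⟩ := exists_single F q g (Units.mk0 z hz0) hz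
    have hdα : diag (Units.mk0 α hK.ne) ∈ JF L := (diag_mem_JF_iff L _).2 hK.mem
    refine ⟨diag (Units.mk0 α hK.ne) ^ k * w, mul_mem (pow_mem hdα k) (hL.JF_le hw),
      fun g' hg' => ?_, ?_⟩
    · rw [cmp_mul, NO0_cmp_pow, Units.val_mul, Units.val_pow_eq_pow_val, norm_mul, norm_pow,
        diag_comp, hg'.norm_cmp_eq hw, hw1]
      have h1 : ‖iq q (g' α)‖ = 1 := by
        apply NO4_norm_eq_one_of_pow hp0
        rw [← map_pow, ← map_pow, hg'.norm_eq hK.pow, he1]
      show ‖iq q (g' α)‖ ^ k * ‖z‖ = 1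
      rw [h1, hz1, one_pow, one_mul]
    · apply Units.ext
      rw [NJ_mul, NO0_NJ_pow, cmp_mul, NO0_cmp_pow, NJ_of_mem hL w hw, NO0_cmp_pow, hw1,
        Units.val_mul, Units.val_pow_eq_pow_val, Units.val_pow_eq_pow_val, NO4_cmp_NJ_diag, hxz]
      show iq q (g (∏ i ∈ Finset.range p, (σ ^ i) α)) ^ k * z ^ p = _
      rw [hK.prod_conj hμ hp2]

end NO

end

end Fermat.Agent.S55Lib
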