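import Fermat.Agent.S55.G.Ideles
import Fermat.Agent.Lib.FrobeniusExists

/-!
# S55, chapter G2, leaf (BR3): all valuation rings of `ℚ̄` above `q` are conjugate
-/

set_option autoImplicit false
set_option linter.unusedSectionVars false
set_option linter.unusedVariables false
set_option linter.style.haveILetI false

namespace Fermat.Agent.S55Lib

noncomputable section

open Fermat.Agent.FrobLib
open scoped Pointwise

local notation "Zbar" => integralClosure ℤ (AlgebraicClosure ℚ)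

lemma BR3_padicPlace_liesOver (q : Nat.Primes) : (padicPlace (q : ℕ)).LiesOverPrime (q : ℕ) := by
  show ((q : ℕ) : Qbar) ∈ (padicPlace (q : ℕ)).nonunits
  rw [ValuationSubring.mem_nonunits_iff_exists_mem_maximalIdeal]
  have h1 : ‖iq q ((q : ℕ) : Qbar)‖ < 1 := by
    rw [map_natCast]
    have h2 : ((((q : ℕ) : ℚ_[(q : ℕ)])) : Om q) = ((q : ℕ) : Om q) := map_natCast _ _
    rw [← h2, PadicAlgCl.norm_extends, Padic.norm_p]
    exact inv_lt_one_of_one_lt₀ (by exact_mod_cast q.2.one_lt)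
  have hmem : ((q : ℕ) : Qbar) ∈ padicPlace (q : ℕ) := by
    rw [mem_padicPlace_iff]
    exact h1.le
  refine ⟨hmem, ?_⟩
  rw [IsLocalRing.mem_maximalIdeal, mem_nonunits_iff]
  intro hu
  obtain ⟨⟨y, hy⟩, hxy⟩ := hu.exists_right_inv
  have h3 : ((q : ℕ) : Qbar) * y = 1 := congrArg Subtype.val hxy
  have h4 : ‖iq q y‖ ≤ 1 := hy
  have h5 : ‖iq q ((q : ℕ) : Qbar)‖ * ‖iq q y‖ = 1 := by
    rw [← norm_mul, ← map_mul, h3, map_one, norm_one]
  have h6 : ‖iq q ((q : ℕ) : Qbar)‖ * ‖iq q y‖ < 1 :=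
    mul_lt_one_of_nonneg_of_lt_one_left (norm_nonneg _) h1 h4
  rw [h5] at h6
  exact lt_irrefl _ h6

lemma BR3_map_mem (A A' : ValuationSubring Qbar) {ℓ : ℕ} (hℓ : ℓ.Prime)
    (hA : (ℓ : Qbar) ∈ A.nonunits) (τ : GQ) (hτ : center A' = τ • center A) {x : Qbar}
    (hx : x ∈ A) : τ x ∈ A' := by
  obtain ⟨b, hb, hbx, hbn⟩ := exists_integral_mul A hℓ hA hx (isAlgebraic_int_Qbar x)
  have h1 : τ b ∉ A'.nonunits := by
    intro h
    have h2 : τ • (⟨b, hb⟩ : Zbar) ∈ center A' := (mem_center_iff A' _).mpr h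
    rw [hτ, Ideal.smul_mem_pointwise_smul_iff] at h2
    exact hbn ((mem_center_iff A _).mp h2)
  have h3 : τ (b * x) ∈ A' :=
    integral_mem_valuationSubring A' (hbx.map (τ : Qbar →ₐ[ℚ] Qbar).toRingHom.toIntAlgHom)
  have h4 : τ b ∈ A' :=
    integral_mem_valuationSubring A' (hb.map (τ : Qbar →ₐ[ℚ] Qbar).toRingHom.toIntAlgHom)
  rw [ValuationSubring.mem_nonunits_iff, not_lt] at h1
  rw [← A'.valuation_le_one_iff] at h3 h4 ⊢
  have h5 : A'.valuation (τ b) = 1 := le_antisymm h4 h1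
  rw [map_mul, map_mul, h5, one_mul] at h3
  exact h3

/-- (BR3) all valuation rings of `ℚ̄` above `q` are conjugate to the one of `iq q`. -/
theorem exists_place_of_valuationSubring (q : Nat.Primes) (A : ValuationSubring Qbar)
    (hA : A.LiesOverPrime (q : ℕ)) : ∃ g : GQ, ∀ x : Qbar, x ∈ A ↔ ‖iq q (g x)‖ ≤ 1 := by
  have hA₀ := BR3_padicPlace_liesOver q
  haveI h1 := center_liesOver A q.2 hA
  haveI h2 := center_liesOver (padicPlace (q : ℕ)) q.2 hA₀
  letI : TopologicalSpace Zbar := ⊥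
  haveI : DiscreteTopology Zbar := ⟨rfl⟩
  haveI := continuousSMul_Zbar
  haveI := isInvariant_Zbar
  obtain ⟨g, hg⟩ := Algebra.IsInvariant.exists_smul_of_under_eq_of_profinite (A := ℤ) (G := GQ)
    (center A) (center (padicPlace (q : ℕ))) (by rw [← h1.over, ← h2.over])
  refine ⟨g, fun x => ⟨fun hx => ?_, fun hx => ?_⟩⟩
  · exact BR3_map_mem A (padicPlace (q : ℕ)) q.2 hA g hg hx
  · have hg' : center A = g⁻¹ • center (padicPlace (q : ℕ)) := by
      rw [hg, inv_smul_smul]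
    have h3 : g x ∈ padicPlace (q : ℕ) := hx
    have h4 := BR3_map_mem (padicPlace (q : ℕ)) A q.2 hA₀ g⁻¹ hg' h3
    have h5 : g⁻¹ (g x) = x := g.symm_apply_apply x
    rwa [h5] at h4

end

end Fermat.Agent.S55Lib
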