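import Fermat.Agent.S55.G2.PlaceFrob
import Fermat.Agent.S55.G2.PlaceVal
import Fermat.Agent.Lib.Chebotarev.Main

/-!
# S55, chapter G2, leaf (BR5): weak Chebotarev in the language of places
-/

set_option autoImplicit false
set_option linter.unusedSectionVars false
set_option linter.unusedVariables false

namespace Fermat.Agent.S55Lib

noncomputable section

/-- (BR5) S55/G2/PlaceCheb.lean : weak Chebotarev in the language of places. -/
theorem weak_cheb_place (M : IntermediateField ℚ Qbar) [FiniteDimensional ℚ M] (hM : StableF M)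
    (τ₀ : GQ) (S₀ : Finset Nat.Primes) :
    ∃ q ∉ S₀, ∃ (g τ : GQ) (k j : ℕ), IsFrobPl q g τ ∧ τ₀⁻¹ * τ ^ k ∈ M.fixingSubgroup ∧
      τ⁻¹ * τ₀ ^ j ∈ M.fixingSubgroup := by
  classical
  obtain ⟨ℓ, A, τ, k, j, hℓ, hℓS, hA, hτ, h1, h2⟩ :=
    ChebLib.weak_chebotarev M.fixingSubgroup M.fixingSubgroup_isOpen (normal_fix M hM) τ₀
      (S₀.image Subtype.val)
  have hq : (⟨ℓ, hℓ⟩ : Nat.Primes) ∉ S₀ := fun h => hℓS (Finset.mem_image.2 ⟨_, h, rfl⟩)
  obtain ⟨g, hg⟩ := exists_place_of_valuationSubring ⟨ℓ, hℓ⟩ A hA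
  exact ⟨⟨ℓ, hℓ⟩, hq, g, τ, k, j, isFrobPl_of_isFrobeniusAt ⟨ℓ, hℓ⟩ A g τ hg hτ, h1, h2⟩

end

end Fermat.Agent.S55Lib
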