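import Fermat.Agent.S55.G2.PlaceDense
import Fermat.Agent.S55.G2.TameFix

/-!
# S55, chapter G2, leaf (BR6): a place whose Frobenius fixes `F` has residue field `𝔽_q`
-/

set_option autoImplicit false
set_option linter.unusedSectionVars false
set_option linter.unusedVariables false

namespace Fermat.Agent.S55Lib

noncomputable section

variable (F : IntermediateField ℚ Qbar)

/-- (BR6) S55/G2/PlaceDeg.lean : a place whose Frobenius fixes `F` has residue field `𝔽_q`. -/
theorem frob_fixed_locF [FiniteDimensional ℚ F] (q : Nat.Primes) (g τ : GQ) (hτ : IsFrobPl q g τ)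
    (hτF : τ ∈ F.fixingSubgroup) (z : Om q) (hz : z ∈ locF q g F) (hz1 : ‖z‖ ≤ 1) :
    ‖z ^ (q : ℕ) - z‖ < 1 := by
  obtain ⟨x, hx, hzx⟩ := dense_locF F q g z hz 1 one_pos
  have hy1 : ‖iq q (g x)‖ ≤ 1 := LT_norm_le_one (LT_symm hzx) hz1
  have h1 := hτ x hy1
  rw [IntermediateField.mem_fixingSubgroup_iff] at hτF
  rw [hτF x hx] at h1
  have h2 : ‖z ^ (q : ℕ) - iq q (g x) ^ (q : ℕ)‖ < 1 := LT_pow_congr hz1 hy1 hzx _
  exact LT_trans (LT_trans h2 (LT_symm h1)) (LT_symm hzx)

end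

end Fermat.Agent.S55Lib
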