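import Fermat.Agent.S55.G2.Defs
import Fermat.Agent.S55.P.Places

/-!
# S55, chapter G2, leaf (BR4): translation of the Prelude's Frobenius elements
-/

set_option autoImplicit false
set_option linter.unusedSectionVars false
set_option linter.unusedVariables false

namespace Fermat.Agent.S55Lib

noncomputable section

/-- a Frobenius element acts as `x ↦ x ^ q` modulo the maximal ideal -/
lemma BR4_frob_mem {A : ValuationSubring Qbar} {τ : GQ} {q : ℕ} (hτ : A.IsFrobeniusAt τ q)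
    {a : Qbar} (ha : a ∈ A) : τ a - a ^ q ∈ A.nonunits := by
  obtain ⟨hσ, h⟩ := hτ
  have h1 := h (IsLocalRing.residue A ⟨a, ha⟩)
  rw [← IsLocalRing.ResidueField.residue_smul, ← map_pow, ← sub_eq_zero, ← map_sub,
    IsLocalRing.residue_eq_zero_iff, A.valuation_lt_one_iff] at h1
  rw [ValuationSubring.mem_nonunits_iff]
  exact h1

lemma BR4_nonunits_iff (q : Nat.Primes) (A : ValuationSubring Qbar) (g : GQ)
    (hg : ∀ x : Qbar, x ∈ A ↔ ‖iq q (g x)‖ ≤ 1) (y : Qbar) :
    y ∈ A.nonunits ↔ ‖iq q (g y)‖ < 1 := by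
  rw [PL_mem_nonunits_iff, hg]
  by_cases hy : y = 0
  · simp [hy]
  · have h0 : iq q (g y) ≠ 0 := by simpa using hy
    have h1 : 0 < ‖iq q (g y)‖ := norm_pos_iff.2 h0
    rw [map_inv₀, map_inv₀, norm_inv, not_le, one_lt_inv₀ h1]
    simp [hy]

/-- (BR4) S55/G2/PlaceFrob.lean : translation of the Prelude's Frobenius elements. -/
theorem isFrobPl_of_isFrobeniusAt (q : Nat.Primes) (A : ValuationSubring Qbar) (g τ : GQ)
    (hg : ∀ x : Qbar, x ∈ A ↔ ‖iq q (g x)‖ ≤ 1) (hτ : A.IsFrobeniusAt τ (q : ℕ)) :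
    IsFrobPl q g τ := by
  intro x hx
  have h1 := BR4_frob_mem hτ ((hg x).2 hx)
  rw [BR4_nonunits_iff q A g hg, map_sub, map_sub, map_pow, map_pow] at h1
  exact h1

end

end Fermat.Agent.S55Lib
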