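import Fermat.Agent.S55.G2.Defs

/-!
# S55, chapter G2, leaf (BR8): an algebraic number is a unit at almost all primes
-/

set_option autoImplicit false
set_option linter.unusedSectionVars false
set_option linter.unusedVariables false

namespace Fermat.Agent.S55Lib

noncomputable section

/-- (BR8) S55/G2/PlaceUnit.lean : an algebraic number is a unit at almost all primes. -/
theorem finite_nonunit (x : Qbar) (hx : x ≠ 0) :
    {q : Nat.Primes | ∃ g : GQ, ‖iq q (g x)‖ ≠ 1}.Finite := by
  refine (finite_diagq_notMem (Units.mk0 x hx)).subset ?_
  rintro q ⟨g, hg⟩ hmem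
  exact hg (hmem g)

end

end Fermat.Agent.S55Lib
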