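import Fermat.Agent.S55.G2.SIIndex

/-!
# S55, chapter G2, leaf (SI3): the auxiliary places
-/

set_option autoImplicit false
set_option linter.unusedSectionVars false
set_option linter.unusedVariables false
set_option linter.style.haveILetI false

namespace Fermat.Agent.S55Lib

noncomputable section

variable {p : ℕ} [Fact p.Prime] {F L : IntermediateField ℚ Qbar} {σ : GQ} {α : Qbar}

/-- (SI3) S55/G2/SIAux.lean : the auxiliary places. -/
theorem exists_isAux (hp2 : p ≠ 2) (hK : IsKum p F L σ α) (hμ : HasMu p F)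
    (S : Finset Nat.Primes) (hpS : pP p ∈ S) (hαS : ∀ q ∉ S, ∀ g : GQ, ‖iq q (g α)‖ = 1)
    (s : ℕ) (hs : Nat.card (EFT F S ⧸ (powMonoidHom p : EFT F S →* EFT F S).range) = p ^ s)
    (i : ℕ) (hi : i + 1 ≤ s) :
    ∃ T : List (Nat.Primes × GQ), T.length = i ∧ IsAux p F S (α ^ p) T := by
  classical
  have hp : 0 < p := (Fact.out : p.Prime).pos
  haveI := hK.layer.finF
  induction i with
  | zero =>
    exact ⟨[], rfl, ⟨by simp, by simp, by simp, fun u _ _ => ⟨1, one_mem _, by simp⟩⟩⟩
  | succ i ih =>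
    obtain ⟨T, hTl, hT⟩ := ih (by omega)
    obtain ⟨K, hK0, hKi, hKmem⟩ := index_locPow_le hμ S hpS T hT.notMem
    rw [hTl] at hKi
    -- `a = α ^ p` as an `S`-unit
    have hαp0 : α ^ p ≠ 0 := pow_ne_zero p hK.ne
    have haE : Units.mk0 (α ^ p) hαp0 ∈ EFT F S :=
      ⟨hK.pow, fun q hq g => by
        rw [Units.val_mk0, map_pow, map_pow, norm_pow, hαS q hq g, one_pow]⟩
    obtain ⟨e, heK, hespan⟩ := exists_mem_not_span p s i hs K hK0 hKi (by omega)
      (⟨Units.mk0 (α ^ p) hαp0, haE⟩ : EFT F S)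
    have hne : ¬ ∃ j : ℕ, ∃ b ∈ F, ((e : Qbarˣ) : Qbar) = (α ^ p) ^ j * b ^ p := by
      rintro ⟨j, b, hb, hjb⟩
      have hb0 : b ≠ 0 := by
        rintro rfl
        rw [zero_pow hp.ne', mul_zero] at hjb
        exact (e : Qbarˣ).ne_zero hjb
      have hbE : Units.mk0 b hb0 ∈ EFT F S := by
        refine ⟨hb, fun q hq g => ?_⟩
        have h1 := e.2.2 q hq g
        rw [hjb, map_mul, map_mul, norm_mul, map_pow, map_pow, map_pow, map_pow, norm_pow,
          norm_pow, hαS q hq g, one_pow, one_pow, one_mul, map_pow, map_pow, norm_pow] at h1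
        exact (pow_eq_one_iff_of_nonneg (norm_nonneg _) hp.ne').1 h1
      apply hespan j ⟨Units.mk0 b hb0, hbE⟩
      apply Subtype.ext
      apply Units.ext
      exact hjb
    obtain ⟨q, hq, g, hloc, hnloc⟩ := exists_aux_place hK hμ (S ∪ (T.map Prod.fst).toFinset)
      (Finset.mem_union_left _ hpS)
      (fun q hq g => hαS q (fun h => hq (Finset.mem_union_left _ h)) g)
      ((e : Qbarˣ) : Qbar) e.2.1
      (fun q hq g => e.2.2 q (fun h => hq (Finset.mem_union_left _ h)) g) hne
    have hqS : q ∉ S := fun h => hq (Finset.mem_union_left _ h)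
    have hqT : q ∉ T.map Prod.fst := fun h => hq (Finset.mem_union_right _ (List.mem_toFinset.2 h))
    refine ⟨(q, g) :: T, by rw [List.length_cons, hTl], ?_, ?_, ?_, ?_⟩
    · rw [List.map_cons, List.nodup_cons]
      exact ⟨hqT, hT.nodup⟩
    · intro v hv
      rcases List.mem_cons.1 hv with rfl | hv
      · exact hqS
      · exact hT.notMem v hv
    · intro v hv
      rcases List.mem_cons.1 hv with rfl | hv
      · exact hloc
      · exact hT.locPow v hv
    · intro u hu hunit
      obtain ⟨e', he', hsurj⟩ := hT.surj u hu (fun v hv => hunit v (List.mem_cons_of_mem _ hv))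
      have he'1 : ‖iq q (g (e' : Qbar))‖ = 1 := he'.2 q hqS g
      have he'0 : iq q (g (e' : Qbar)) ≠ 0 := SI1_ne_zero q he'1
      obtain ⟨k, z, hz, hk⟩ := units_mod_pow_cyclic q (locF q g F) p (SI1_ne_of_notMem hpS hqS)
        (fun ζ hζ => SI1_mu_mem_locF hμ q g ζ hζ)
        (iq q (g ((e : Qbarˣ) : Qbar))) (((cmp u q g : (Om q)ˣ) : Om q) / iq q (g (e' : Qbar)))
        (iq_mem_locF q g F e.2.1)
        (div_mem (cmp_mem_locF F u hu q g) (iq_mem_locF q g F he'.1)) (e.2.2 q hqS g)
        (by rw [norm_div, he'1, div_one]; exact hunit (q, g) List.mem_cons_self)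
        (fun ⟨z, hz, hzp⟩ => hnloc ⟨z, hz, hzp⟩)
      refine ⟨e' * (e : Qbarˣ) ^ k, mul_mem he' (pow_mem e.2 k), ?_⟩
      intro v hv
      rcases List.mem_cons.1 hv with rfl | hv
      · refine ⟨z, hz, ?_⟩
        show ((cmp u q g : (Om q)ˣ) : Om q) = iq q (g ((e' * (e : Qbarˣ) ^ k : Qbarˣ) : Qbar)) * z ^ p
        rw [Units.val_mul, Units.val_pow_eq_pow_val, map_mul, map_mul, map_pow, map_pow,
          mul_assoc, ← hk]
        field_simp
      · obtain ⟨zv, hzv, hzvu⟩ := hsurj v hv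
        obtain ⟨w, hw, hwp⟩ := (hKmem e).1 heK v hv
        have hw0 : w ≠ 0 := by
          rintro rfl
          rw [zero_pow hp.ne'] at hwp
          have : iq v.1 (v.2 ((e : Qbarˣ) : Qbar)) ≠ 0 := by simp
          exact this hwp.symm
        refine ⟨zv / w ^ k, div_mem hzv (pow_mem hw k), ?_⟩
        rw [Units.val_mul, Units.val_pow_eq_pow_val, map_mul, map_mul, map_pow, map_pow, ← hwp,
          hzvu, div_pow]
        field_simp
        rw [← pow_mul, ← pow_mul, mul_comm k p]

end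

end Fermat.Agent.S55Lib
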