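import Fermat.Agent.S55.G2.SIMain
import Fermat.Agent.S55.G.DescentC

/-! # S55 G2 (SI6): the second inequality, idele class form -/

set_option autoImplicit false
set_option linter.unusedSectionVars false
set_option linter.unusedVariables false

namespace Fermat.Agent.S55Lib

noncomputable section

open groupCohomology

section SI

variable {p : ℕ} [Fact p.Prime] {F L : IntermediateField ℚ Qbar} {σ : GQ} {α : Qbar}

lemma SI6_mk_mem {F : IntermediateField ℚ Qbar} {x : JJ} (hx : x ∈ JF F) : CC.mk x ∈ CF F := by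
  intro s hs
  rw [CC.smul_mk, hx s hs]

lemma SI6_mk_mul (x y : JJ) : CC.mk (x * y) = CC.mk x * CC.mk y := rfl

lemma SI6_mk_pow (x : JJ) (k : ℕ) : CC.mk (x ^ k) = CC.mk x ^ k := rfl

lemma SI6_mk_diag (a : Qbarˣ) : CC.mk (diag a) = 1 :=
  (QuotientGroup.eq_one_iff _).2 ⟨a, rfl⟩

lemma SI6_mk_NJ (p : ℕ) (σ : GQ) (y : JJ) :
    CC.mk (NJ p σ y) = ∏ i ∈ Finset.range p, σ ^ i • CC.mk y := by
  have h := map_prod (QuotientGroup.mk' diag.range) (fun i => σ ^ i • y) (Finset.range p)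
  exact h

/-- (SI6) S55/G2/SIClass.lean : **second inequality**, idele class form (= the hypothesis of the
second half of `first_inequality`). -/
theorem second_inequality (hp2 : p ≠ 2) (hL : IsLayer p F L σ) (hμ : HasMu p F) :
    ∃ c₀ ∈ CF F, ∀ c ∈ CF F, ∃ k : ℕ, ∃ d ∈ CF L,
      c = c₀ ^ k * ∏ i ∈ Finset.range p, σ ^ i • d := by
  have := hL.finF
  obtain ⟨x₀, hx₀, h⟩ := second_inequality_JF hp2 hL hμ
  refine ⟨CC.mk x₀, SI6_mk_mem hx₀, fun c hc => ?_⟩
  obtain ⟨x, hx, rfl⟩ := exists_JF_of_mem_CF F c hc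
  obtain ⟨k, a, -, y, hy, hxy⟩ := h x hx
  refine ⟨k, CC.mk y, SI6_mk_mem hy, ?_⟩
  rw [hxy, SI6_mk_mul, SI6_mk_mul, SI6_mk_pow, SI6_mk_diag, mul_one, SI6_mk_NJ]

end SI

end

end Fermat.Agent.S55Lib
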