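import Fermat.Agent.S55.G2.SIPlace

/-!
# S55, chapter G2, leaf (SI2): the local `p`-th powers have index `≤ p` in the `S`-units
-/

set_option autoImplicit false
set_option linter.unusedSectionVars false
set_option linter.unusedVariables false
set_option linter.style.haveILetI false

namespace Fermat.Agent.S55Lib

noncomputable section

variable {p : ℕ} [Fact p.Prime] {F L : IntermediateField ℚ Qbar} {σ : GQ} {α : Qbar}

lemma LocPow.one (p : ℕ) (F : IntermediateField ℚ Qbar) (q : Nat.Primes) (g : GQ) :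
    LocPow p F q g 1 := ⟨1, one_mem _, by simp⟩

lemma LocPow.mul {p : ℕ} {F : IntermediateField ℚ Qbar} {q : Nat.Primes} {g : GQ} {x y : Qbar}
    (hx : LocPow p F q g x) (hy : LocPow p F q g y) : LocPow p F q g (x * y) := by
  obtain ⟨z, hz, hzx⟩ := hx
  obtain ⟨w, hw, hwy⟩ := hy
  exact ⟨z * w, mul_mem hz hw, by rw [mul_pow, hzx, hwy, map_mul, map_mul]⟩

lemma LocPow.inv {p : ℕ} {F : IntermediateField ℚ Qbar} {q : Nat.Primes} {g : GQ} {x : Qbar}
    (hx : LocPow p F q g x) : LocPow p F q g x⁻¹ := by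
  obtain ⟨z, hz, hzx⟩ := hx
  exact ⟨z⁻¹, inv_mem hz, by rw [inv_pow, hzx, map_inv₀, map_inv₀]⟩

lemma LocPow.pow {p : ℕ} {F : IntermediateField ℚ Qbar} {q : Nat.Primes} {g : GQ} {x : Qbar}
    (hx : LocPow p F q g x) (n : ℕ) : LocPow p F q g (x ^ n) := by
  obtain ⟨z, hz, hzx⟩ := hx
  exact ⟨z ^ n, pow_mem hz n, by rw [← pow_mul, mul_comm, pow_mul, hzx, map_pow, map_pow]⟩

lemma LocPow.of_pow (p : ℕ) {F : IntermediateField ℚ Qbar} (q : Nat.Primes) (g : GQ) {x : Qbar}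
    (hx : x ∈ F) : LocPow p F q g (x ^ p) :=
  ⟨iq q (g x), iq_mem_locF q g F hx, by rw [map_pow, map_pow]⟩

/-- the `S`-units that are local `p`-th powers at `(q,g)` -/
def SI2_P (p : ℕ) (F : IntermediateField ℚ Qbar) (S : Finset Nat.Primes) (q : Nat.Primes) (g : GQ) :
    Subgroup (EFT F S) where
  carrier := {e | LocPow p F q g ((e : Qbarˣ) : Qbar)}
  one_mem' := LocPow.one p F q g
  mul_mem' := fun {a b} ha hb => by
    show LocPow p F q g (((a * b : EFT F S) : Qbarˣ) : Qbar)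
    rw [Subgroup.coe_mul, Units.val_mul]
    exact LocPow.mul ha hb
  inv_mem' := fun {a} ha => by
    show LocPow p F q g (((a⁻¹ : EFT F S) : Qbarˣ) : Qbar)
    rw [Subgroup.coe_inv, Units.val_inv_eq_inv_val]
    exact LocPow.inv ha

lemma SI2_index_P [FiniteDimensional ℚ F] (hμ : HasMu p F) (S : Finset Nat.Primes)
    (hpS : pP p ∈ S) (q : Nat.Primes) (hq : q ∉ S) (g : GQ) :
    (SI2_P p F S q g).index ≠ 0 ∧ (SI2_P p F S q g).index ≤ p := by
  have hp : 0 < p := (Fact.out : p.Prime).pos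
  by_cases hall : ∀ e : EFT F S, e ∈ SI2_P p F S q g
  · exact index_le_of_cyclic _ p hp 1 (by simp [one_mem]) (fun e => ⟨0, by simpa using hall e⟩)
  · push Not at hall
    obtain ⟨e₀, he₀⟩ := hall
    refine index_le_of_cyclic _ p hp e₀ ?_ (fun e => ?_)
    · show LocPow p F q g (((e₀ ^ p : EFT F S) : Qbarˣ) : Qbar)
      rw [Subgroup.coe_pow, Units.val_pow_eq_pow_val]
      exact LocPow.of_pow p q g e₀.2.1
    · obtain ⟨k, z, hz, hk⟩ := units_mod_pow_cyclic q (locF q g F) p (SI1_ne_of_notMem hpS hq)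
        (fun ζ hζ => SI1_mu_mem_locF hμ q g ζ hζ)
        (iq q (g ((e₀ : Qbarˣ) : Qbar))) (iq q (g ((e : Qbarˣ) : Qbar)))
        (iq_mem_locF q g F e₀.2.1) (iq_mem_locF q g F e.2.1) (e₀.2.2 q hq g) (e.2.2 q hq g)
        (fun ⟨z, hz, hzp⟩ => he₀ ⟨z, hz, hzp⟩)
      refine ⟨k, z, hz, ?_⟩
      show z ^ p = iq q (g (((e / e₀ ^ k : EFT F S) : Qbarˣ) : Qbar))
      have h0 : iq q (g ((e₀ : Qbarˣ) : Qbar)) ^ k ≠ 0 :=
        pow_ne_zero _ (by simp)
      have h1 : (((e / e₀ ^ k : EFT F S) : Qbarˣ) : Qbar)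
          = ((e : Qbarˣ) : Qbar) / ((e₀ : Qbarˣ) : Qbar) ^ k := by
        rw [Subgroup.coe_div, Units.val_div_eq_div_val, Subgroup.coe_pow,
          Units.val_pow_eq_pow_val]
      rw [h1, map_div₀, map_div₀, map_pow, map_pow, hk]
      field_simp

/-- (SI2) S55/G2/SIIndex.lean : the local `p`-th powers have index `≤ p` in the `S`-units. -/
theorem index_locPow_le [FiniteDimensional ℚ F] (hμ : HasMu p F) (S : Finset Nat.Primes)
    (hpS : pP p ∈ S) (T : List (Nat.Primes × GQ)) (hT : ∀ v ∈ T, v.1 ∉ S) :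
    ∃ K : Subgroup (EFT F S), K.index ≠ 0 ∧ K.index ≤ p ^ T.length ∧
      ∀ e : EFT F S, e ∈ K ↔ ∀ v ∈ T, LocPow p F v.1 v.2 ((e : Qbarˣ) : Qbar) := by
  induction T with
  | nil => exact ⟨⊤, by simp, by simp, fun e => by simp⟩
  | cons v T ih =>
    obtain ⟨K, hK0, hK, hmem⟩ := ih (fun w hw => hT w (List.mem_cons_of_mem _ hw))
    obtain ⟨hP0, hP⟩ := SI2_index_P hμ S hpS v.1 (hT v List.mem_cons_self) v.2
    refine ⟨SI2_P p F S v.1 v.2 ⊓ K, Subgroup.index_inf_ne_zero hP0 hK0, ?_, fun e => ?_⟩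
    · refine Subgroup.index_inf_le.trans ?_
      rw [List.length_cons, pow_succ, mul_comm]
      exact Nat.mul_le_mul hK hP
    · rw [Subgroup.mem_inf, hmem, List.forall_mem_cons]
      rfl

end

end Fermat.Agent.S55Lib
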