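import Fermat.Agent.S55.G2.SIKeyCore
import Fermat.Agent.S55.G.ClassNumber
import Fermat.Agent.S55.G.LocFix
import Fermat.Agent.S55.G.LocSurj

/-!
# S55, chapter G2, leaf (SI5c), core: independence of `S`-units and uniformizers at `T`
-/

set_option autoImplicit false
set_option linter.unusedSectionVars false
set_option linter.unusedVariables false
set_option linter.style.haveILetI false

namespace Fermat.Agent.S55Lib

noncomputable section

variable {p : ℕ} [Fact p.Prime] {F L : IntermediateField ℚ Qbar} {σ : GQ} {α : Qbar}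

lemma SI5c_cmp_prod {ι : Type} (s : Finset ι) (f : ι → JJ) (q : Nat.Primes) (g : GQ) :
    cmp (∏ i ∈ s, f i) q g = ∏ i ∈ s, cmp (f i) q g := by
  classical
  induction s using Finset.induction_on with
  | empty => simp
  | insert a s ha ih => rw [Finset.prod_insert ha, Finset.prod_insert ha, cmp_mul, ih]

/-- (SI5c) with the key lemma (SI4) as a hypothesis -/
theorem SI5c_inj_of [FiniteDimensional ℚ F] (S : Finset Nat.Primes)
    (a : Qbar) (T : List (Nat.Primes × GQ)) (hT : IsAux p F S a T)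
    (hkey : ∀ x : Qbar, x ∈ F → x ≠ 0 → (∀ q ∈ S, ∀ g, LocPow p F q g x) →
      (∀ q ∉ S, ∀ g, ¬ InPl F T q g → ‖iq q (g x)‖ = 1) → ∃ y ∈ F, y ^ p = x)
    (π : Fin T.length → JJ) (b : Fin T.length → Qbarˣ) (y u : Fin T.length → JJ)
    (hπ : ∀ i, π i ∈ JF F)
    (hπ0 : ∀ i, ∀ w ∈ locF (T.get i).1 (T.get i).2 F, w ≠ 0 → ∀ n : ℤ,
      ‖w‖ ^ p = ‖((cmp (π i) (T.get i).1 (T.get i).2 : (Om (T.get i).1)ˣ) : Om (T.get i).1)‖ ^ n →
      (p : ℤ) ∣ n)
    (hπ1 : ∀ i, ∀ g, ¬ SamePlace (T.get i).1 F (T.get i).2 g → cmp (π i) (T.get i).1 g = 1)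
    (hπ2 : ∀ i, ∀ q' ≠ (T.get i).1, ∀ g, cmp (π i) q' g = 1)
    (hb : ∀ i, b i ∈ FX F) (hy : ∀ i, y i ∈ JF F ⊓ JT S) (hu : ∀ i, u i ∈ JF F ⊓ UId S)
    (hdec : ∀ i, π i = diag (b i) * y i * u i)
    (e : Qbarˣ) (he : e ∈ EFT F S) (m : Fin T.length → ℕ) (x : JJ) (hx : x ∈ JF F ⊓ JT S)
    (h : ∀ q ∈ S, ∀ g, cmp (diag e) q g * ∏ i, cmp (y i) q g ^ m i = cmp x q g ^ p) :
    (∃ e' ∈ EFT F S, e = e' ^ p) ∧ ∀ i, p ∣ m i := by
  classical
  have hp0 : p ≠ 0 := (Fact.out : p.Prime).ne_zero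
  have hmemT : ∀ i, T.get i ∈ T := fun i => List.get_mem T i
  have hqS : ∀ i, (T.get i).1 ∉ S := fun i => hT.notMem _ (hmemT i)
  -- the products
  set B : Qbarˣ := ∏ i, b i ^ m i with hB
  set PP : JJ := ∏ i, π i ^ m i with hPP
  set YY : JJ := ∏ i, y i ^ m i with hYY
  set UU : JJ := ∏ i, u i ^ m i with hUU
  have hBF : B ∈ FX F := Subgroup.prod_mem _ (fun i _ => Subgroup.pow_mem _ (hb i) _)
  have hYYm : YY ∈ JF F ⊓ JT S := Subgroup.prod_mem _ (fun i _ => Subgroup.pow_mem _ (hy i) _)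
  have hUUm : UU ∈ JF F ⊓ UId S := Subgroup.prod_mem _ (fun i _ => Subgroup.pow_mem _ (hu i) _)
  have hPdec : PP = diag B * YY * UU := by
    rw [hPP, hB, hYY, hUU, map_prod, ← Finset.prod_mul_distrib, ← Finset.prod_mul_distrib]
    refine Finset.prod_congr rfl (fun i _ => ?_)
    rw [hdec i, mul_pow, mul_pow, map_pow]
  have hPcmp : ∀ q g, cmp PP q g = ∏ i, cmp (π i) q g ^ m i := by
    intro q g
    rw [hPP, SI5c_cmp_prod]
    exact Finset.prod_congr rfl (fun i _ => cmp_pow _ _ _ _)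
  have hYcmp : ∀ q g, cmp YY q g = ∏ i, cmp (y i) q g ^ m i := by
    intro q g
    rw [hYY, SI5c_cmp_prod]
    exact Finset.prod_congr rfl (fun i _ => cmp_pow _ _ _ _)
  -- the element `X = e / B`
  set X : Qbarˣ := e * B⁻¹ with hX
  have hXF : X ∈ FX F := mul_mem he.1 (inv_mem hBF)
  have hXS : ∀ q ∈ S, ∀ g, LocPow p F q g (X : Qbar) := by
    intro q hq g
    refine ⟨((cmp x q g : (Om q)ˣ) : Om q), cmp_mem_locF F x hx.1 q g, ?_⟩
    have h1 : cmp PP q g = 1 := by
      rw [hPcmp]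
      refine Finset.prod_eq_one (fun i _ => ?_)
      rw [hπ2 i q (fun hh => hqS i (hh ▸ hq)) g, one_pow]
    have h2 : cmp (diag B) q g * cmp YY q g = 1 := by
      rw [hPdec, cmp_mul, cmp_mul, hUUm.2.1 q hq g, mul_one] at h1
      exact h1
    have h3 : cmp (diag X) q g = cmp x q g ^ p := by
      rw [← h q hq g, ← hYcmp, hX, map_mul, map_inv, cmp_mul, cmp_inv]
      congr 1
      exact inv_eq_of_mul_eq_one_right h2
    rw [← diag_comp, h3, Units.val_pow_eq_pow_val]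
  have hXn : ∀ q ∉ S, ∀ g, ‖iq q (g (X : Qbar))‖ = ‖((cmp PP q g : (Om q)ˣ) : Om q)‖⁻¹ := by
    intro q hq g
    have h1 : ‖((cmp PP q g : (Om q)ˣ) : Om q)‖ = ‖((cmp (diag B) q g : (Om q)ˣ) : Om q)‖ := by
      rw [hPdec, cmp_mul, cmp_mul, hYYm.2 q hq g, mul_one, Units.val_mul, norm_mul,
        hUUm.2.2 q hq g, mul_one]
    rw [h1, ← diag_comp, hX, map_mul, map_inv, cmp_mul, cmp_inv, Units.val_mul, norm_mul,
      Units.val_inv_eq_inv_val, norm_inv, diag_comp e, he.2 q hq g, one_mul]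
  have hXU : ∀ q ∉ S, ∀ g, ¬ InPl F T q g → ‖iq q (g (X : Qbar))‖ = 1 := by
    intro q hq g hin
    have h1 : cmp PP q g = 1 := by
      rw [hPcmp]
      refine Finset.prod_eq_one (fun i _ => ?_)
      by_cases hqi : q = (T.get i).1
      · subst hqi
        rw [hπ1 i g (fun hs => hin ⟨T.get i, hmemT i, rfl, _, rfl, hs⟩), one_pow]
      · rw [hπ2 i q hqi g, one_pow]
    rw [hXn q hq g, h1]
    simp
  obtain ⟨Y, hYF, hYX⟩ := hkey (X : Qbar) hXF X.ne_zero hXS hXU
  have hY0 : Y ≠ 0 := by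
    rintro rfl
    rw [zero_pow hp0] at hYX
    exact X.ne_zero hYX.symm
  -- divisibility
  have hdiv : ∀ i, p ∣ m i := by
    intro i
    have h1 : cmp PP (T.get i).1 (T.get i).2 = cmp (π i) (T.get i).1 (T.get i).2 ^ m i := by
      rw [hPcmp]
      refine Finset.prod_eq_single i (fun j _ hji => ?_) (fun hi => absurd (Finset.mem_univ i) hi)
      have hne : (T.get i).1 ≠ (T.get j).1 := by
        intro hh
        apply hji
        have hnd := hT.nodup
        have h5 : (T.map Prod.fst).get ⟨i.1, by rw [List.length_map]; exact i.2⟩ =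
            (T.map Prod.fst).get ⟨j.1, by rw [List.length_map]; exact j.2⟩ := by
          simp only [List.get_eq_getElem, List.getElem_map]
          simpa using hh
        have h6 := (List.Nodup.get_inj_iff hnd).1 h5
        exact (Fin.ext (by simpa using h6)).symm
      rw [hπ2 j _ hne, one_pow]
    have h2 := hXn _ (hqS i) (T.get i).2
    rw [h1, ← hYX, map_pow, map_pow, norm_pow, Units.val_pow_eq_pow_val, norm_pow,
      ← zpow_natCast (‖((cmp (π i) (T.get i).1 (T.get i).2 : (Om (T.get i).1)ˣ) :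
        Om (T.get i).1)‖) (m i), ← zpow_neg] at h2
    have h3 := hπ0 i (iq (T.get i).1 ((T.get i).2 Y)) (iq_mem_locF _ _ F hYF)
      (by
        intro h0
        apply hY0
        have h7 : (T.get i).2 Y = 0 := (map_eq_zero (iq (T.get i).1)).1 h0
        exact (map_eq_zero (T.get i).2).1 h7) _ h2
    rw [Int.dvd_neg] at h3
    exact_mod_cast h3
  refine ⟨?_, hdiv⟩
  choose k hk using hdiv
  set e' : Qbarˣ := Units.mk0 Y hY0 * ∏ i, b i ^ k i with he'
  have hee' : e = e' ^ p := by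
    have h1 : (Units.mk0 Y hY0) ^ p = X := Units.ext (by simpa using hYX)
    have h2 : (∏ i, b i ^ k i) ^ p = B := by
      rw [hB, ← Finset.prod_pow]
      refine Finset.prod_congr rfl (fun i _ => ?_)
      rw [← pow_mul, hk i, mul_comm]
    rw [he', mul_pow, h1, h2, hX, inv_mul_cancel_right]
  refine ⟨e', ⟨?_, ?_⟩, hee'⟩
  · have h1 : (∏ i, b i ^ k i) ∈ FX F :=
      Subgroup.prod_mem _ (fun i _ => Subgroup.pow_mem _ (hb i) _)
    have h2 : Units.mk0 Y hY0 ∈ FX F := hYF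
    exact mul_mem h2 h1
  · intro q hq g
    have h1 := he.2 q hq g
    rw [hee', Units.val_pow_eq_pow_val, map_pow, map_pow, norm_pow] at h1
    exact (pow_eq_one_iff_of_nonneg (norm_nonneg _) hp0).1 h1

end

end Fermat.Agent.S55Lib
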