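import Fermat.Agent.S55.G2.SIKey
import Fermat.Agent.S55.G2.SIInjCore

/-!
# S55, chapter G2, leaf (SI5c): independence of `S`-units and uniformizers at `T`
-/

set_option autoImplicit false
set_option linter.unusedSectionVars false
set_option linter.unusedVariables false

namespace Fermat.Agent.S55Lib

noncomputable section

variable {p : ℕ} [Fact p.Prime] {F L : IntermediateField ℚ Qbar} {σ : GQ} {α : Qbar}

/-- (SI5c) S55/G2/SIInj.lean : independence of the `S`-units and of the uniformizers at `T` in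
`J_S(F) / p`. -/
theorem si_inj (hp2 : p ≠ 2) [FiniteDimensional ℚ F] (hμ : HasMu p F) (S : Finset Nat.Primes)
    (hpS : pP p ∈ S)
    (hcl : ∀ x ∈ JF F, ∃ a ∈ FX F, ∃ y ∈ JF F ⊓ JT S, ∃ u ∈ JF F ⊓ UId S, x = diag a * y * u)
    (a : Qbar) (T : List (Nat.Primes × GQ)) (hT : IsAux p F S a T)
    (π : Fin T.length → JJ) (b : Fin T.length → Qbarˣ) (y u : Fin T.length → JJ)
    (hπ : ∀ i, π i ∈ JF F)
    (hπ0 : ∀ i, ∀ w ∈ locF (T.get i).1 (T.get i).2 F, w ≠ 0 → ∀ n : ℤ,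
      ‖w‖ ^ p = ‖((cmp (π i) (T.get i).1 (T.get i).2 : (Om (T.get i).1)ˣ) : Om (T.get i).1)‖ ^ n →
      (p : ℤ) ∣ n)
    (hπ1 : ∀ i, ∀ g, ¬ SamePlace (T.get i).1 F (T.get i).2 g → cmp (π i) (T.get i).1 g = 1)
    (hπ2 : ∀ i, ∀ q' ≠ (T.get i).1, ∀ g, cmp (π i) q' g = 1)
    (hb : ∀ i, b i ∈ FX F) (hy : ∀ i, y i ∈ JF F ⊓ JT S) (hu : ∀ i, u i ∈ JF F ⊓ UId S)
    (hdec : ∀ i, π i = diag (b i) * y i * u i)
    (e : Qbarˣ) (he : e ∈ EFT F S) (m : Fin T.length → ℕ) (x : JJ) (hx : x ∈ JF F ⊓ JT S)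
    (h : ∀ q ∈ S, ∀ g, cmp (diag e) q g * ∏ i, cmp (y i) q g ^ m i = cmp x q g ^ p) :
    (∃ e' ∈ EFT F S, e = e' ^ p) ∧ ∀ i, p ∣ m i := by
  exact SI5c_inj_of S a T hT (fun x hxF hx0 hxS hxU =>
    key_lemma hp2 hμ S hpS hcl a T hT x hxF hx0 hxS hxU) π b y u hπ hπ0 hπ1 hπ2 hb hy hu hdec
    e he m x hx h

end

end Fermat.Agent.S55Lib
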