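import Fermat.Agent.S55.G2.SIKeyCore
import Fermat.Agent.S55.G2.KumLayer
import Fermat.Agent.S55.G1b.FirstIneq

/-!
# S55, chapter G2, leaf (SI4): the key lemma
-/

set_option autoImplicit false
set_option linter.unusedSectionVars false
set_option linter.unusedVariables false

namespace Fermat.Agent.S55Lib

noncomputable section

variable {p : ℕ} [Fact p.Prime] {F L : IntermediateField ℚ Qbar} {σ : GQ} {α : Qbar}

/-- (SI4) S55/G2/SIKey.lean : **key lemma**. -/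
theorem key_lemma (hp2 : p ≠ 2) [FiniteDimensional ℚ F] (hμ : HasMu p F) (S : Finset Nat.Primes)
    (hpS : pP p ∈ S)
    (hcl : ∀ x ∈ JF F, ∃ a ∈ FX F, ∃ y ∈ JF F ⊓ JT S, ∃ u ∈ JF F ⊓ UId S, x = diag a * y * u)
    (a : Qbar) (T : List (Nat.Primes × GQ)) (hT : IsAux p F S a T)
    (x : Qbar) (hxF : x ∈ F) (hx0 : x ≠ 0) (hxS : ∀ q ∈ S, ∀ g, LocPow p F q g x)
    (hxU : ∀ q ∉ S, ∀ g, ¬ InPl F T q g → ‖iq q (g x)‖ = 1) : ∃ y ∈ F, y ^ p = x := by
  exact SI4_key_of hp2 hμ (fun K τ hK => (first_inequality p hp2 F K τ hK hμ).1)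
    (fun x hx hx0 hne => exists_isKum_of_not_pow p hμ x hx hx0 hne) S hpS hcl a T hT x hxF hx0
    hxS hxU

end

end Fermat.Agent.S55Lib
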