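import Fermat.Agent.S55.G2.SIAux
import Fermat.Agent.S55.G2.NormAsm
import Fermat.Agent.S55.G2.NormSplit
import Fermat.Agent.S55.G2.NormPow
import Fermat.Agent.S55.G2.NormUnit
import Fermat.Agent.S55.G2.KumSplit
import Fermat.Agent.S55.G.DescentC

/-!
# S55, chapter G2, leaf (SI4), core: every idele class is a norm from `F(x^{1/p})`
-/

set_option autoImplicit false
set_option linter.unusedSectionVars false
set_option linter.unusedVariables false
set_option linter.style.haveILetI false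

namespace Fermat.Agent.S55Lib

noncomputable section

variable {p : ℕ} [Fact p.Prime] {F L : IntermediateField ℚ Qbar} {σ : GQ} {α : Qbar}

lemma SI4_mk_NJ (σ : GQ) (w : JJ) :
    (∏ i ∈ Finset.range p, σ ^ i • CC.mk w) = CC.mk (NJ p σ w) := by
  unfold NJ
  simp only [CC.smul_mk]
  exact (map_prod (QuotientGroup.mk' diag.range) _ _).symm

lemma SI4_mk_diag_mul (a : Qbarˣ) (w : JJ) : CC.mk (diag a * w) = CC.mk w := by
  have h1 : CC.mk (diag a * w) = CC.mk (diag a) * CC.mk w := rfl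
  have h2 : CC.mk (diag a) = 1 := (QuotientGroup.eq_one_iff _).2 ⟨a, rfl⟩
  rw [h1, h2, one_mul]

/-- core of the key lemma: under the hypotheses of (SI4), every idele class of `F` is a norm from
the Kummer layer `F(x^{1/p})` -/
theorem SI4_all_norms (hp2 : p ≠ 2) [FiniteDimensional ℚ F] (hμ : HasMu p F)
    (S : Finset Nat.Primes) (hpS : pP p ∈ S)
    (hcl : ∀ x ∈ JF F, ∃ a ∈ FX F, ∃ y ∈ JF F ⊓ JT S, ∃ u ∈ JF F ⊓ UId S, x = diag a * y * u)
    (a : Qbar) (T : List (Nat.Primes × GQ)) (hT : IsAux p F S a T)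
    (hK : IsKum p F L σ α)
    (hxS : ∀ q ∈ S, ∀ g, LocPow p F q g (α ^ p))
    (hxU : ∀ q ∉ S, ∀ g, ¬ InPl F T q g → ‖iq q (g (α ^ p))‖ = 1) :
    ∀ c ∈ CF F, ∃ d ∈ CF L, c = ∏ i ∈ Finset.range p, σ ^ i • d := by
  classical
  have hp0 : p ≠ 0 := (Fact.out : p.Prime).ne_zero
  intro c hc
  obtain ⟨x', hx', rfl⟩ := exists_JF_of_mem_CF F c hc
  obtain ⟨a', ha', y, hy, u, hu, rfl⟩ := hcl x' hx'
  have huT : ∀ v ∈ T, ‖((cmp u v.1 v.2 : (Om v.1)ˣ) : Om v.1)‖ = 1 :=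
    fun v hv => hu.2.2 v.1 (hT.notMem v hv) v.2
  obtain ⟨e, he, hez⟩ := hT.surj u hu.1 huT
  set w : JJ := y * u * (diag e)⁻¹ with hw
  have hwF : w ∈ JF F :=
    mul_mem (mul_mem hy.1 hu.1) (inv_mem ((diag_mem_JF_iff F e).2 he.1))
  have h2' : ∀ q ∉ S, ∀ g, ¬ InPl F T q g → LocNormU p F L σ w q g := by
    intro q hq g hin
    have hξ1 : ‖iq q (g α)‖ = 1 := by
      have := hxU q hq g hin
      rw [map_pow, map_pow, norm_pow] at this
      exact (pow_eq_one_iff_of_nonneg (norm_nonneg _) hp0).1 this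
    have hw1 : ‖((cmp w q g : (Om q)ˣ) : Om q)‖ = 1 := by
      rw [hw, cmp_mul, cmp_mul, cmp_inv, hy.2 q hq g, one_mul, Units.val_mul, norm_mul,
        hu.2.2 q hq g, one_mul, Units.val_inv_eq_inv_val, norm_inv, diag_comp, he.2 q hq g, inv_one]
    exact locNormU_of_unit hK hμ hp2 w hwF q (SI1_ne_of_notMem hpS hq) g hξ1 hw1
  have h1 : ∀ q g, LocNorm p L σ w q g := by
    intro q g
    by_cases hq : q ∈ S
    · exact locNorm_of_split hK.layer w hwF q g (hK.splitAt hμ q g (hxS q hq g))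
    · by_cases hin : InPl F T q g
      · obtain ⟨v, hv, rfl, g₀, rfl, hsame⟩ := hin
        refine LocNorm.of_samePlace hK.layer hwF hsame ?_
        obtain ⟨z, hz, hzu⟩ := hez v hv
        refine locNorm_of_pow hK.layer w v.1 v.2 z hz ?_
        have he0 : iq v.1 (v.2 (e : Qbar)) ≠ 0 := by
          rw [← diag_comp]; exact Units.ne_zero _
        rw [hw, cmp_mul, cmp_mul, cmp_inv, hy.2 v.1 hq v.2, one_mul, Units.val_mul, hzu,
          Units.val_inv_eq_inv_val, diag_comp]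
        field_simp
      · exact (h2' q hq g hin).locNorm
  have h2 : ∀ q ∉ S ∪ (T.map Prod.fst).toFinset, ∀ g, LocNormU p F L σ w q g := by
    intro q hq g
    rw [Finset.mem_union, not_or] at hq
    refine h2' q hq.1 g ?_
    rintro ⟨v, hv, rfl, -⟩
    exact hq.2 (List.mem_toFinset.2 (List.mem_map_of_mem hv))
  obtain ⟨w', hw', hww'⟩ := norm_of_locNorm hK.layer w hwF h1 _ h2
  refine ⟨CC.mk w', fun s hs => by rw [CC.smul_mk, hw' s hs], ?_⟩
  rw [SI4_mk_NJ, ← hww']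
  have h3 : diag a' * y * u = diag (a' * e) * w := by
    rw [hw, map_mul]
    have h4 : diag e * (diag e)⁻¹ = 1 := mul_inv_cancel _
    calc diag a' * y * u = diag a' * (diag e * (diag e)⁻¹) * (y * u) := by
          rw [h4, mul_one, mul_assoc]
      _ = diag a' * diag e * (y * u * (diag e)⁻¹) := by
          simp only [mul_assoc, mul_comm, mul_left_comm]
  rw [h3, SI4_mk_diag_mul]

/-- (SI4) with the first inequality and (KU2) as hypotheses -/
theorem SI4_key_of (hp2 : p ≠ 2) [FiniteDimensional ℚ F] (hμ : HasMu p F)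
    (hFI : ∀ (K : IntermediateField ℚ Qbar) (τ : GQ), IsLayer p F K τ →
      ¬ (∀ c ∈ CF F, ∃ d ∈ CF K, c = ∏ i ∈ Finset.range p, τ ^ i • d))
    (hKU : ∀ x : Qbar, x ∈ F → x ≠ 0 → (¬ ∃ y ∈ F, y ^ p = x) →
      ∃ (K : IntermediateField ℚ Qbar) (τ : GQ) (ξ : Qbar), IsKum p F K τ ξ ∧ ξ ^ p = x)
    (S : Finset Nat.Primes) (hpS : pP p ∈ S)
    (hcl : ∀ x ∈ JF F, ∃ a ∈ FX F, ∃ y ∈ JF F ⊓ JT S, ∃ u ∈ JF F ⊓ UId S, x = diag a * y * u)
    (a : Qbar) (T : List (Nat.Primes × GQ)) (hT : IsAux p F S a T)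
    (x : Qbar) (hxF : x ∈ F) (hx0 : x ≠ 0) (hxS : ∀ q ∈ S, ∀ g, LocPow p F q g x)
    (hxU : ∀ q ∉ S, ∀ g, ¬ InPl F T q g → ‖iq q (g x)‖ = 1) : ∃ y ∈ F, y ^ p = x := by
  by_contra hne
  obtain ⟨K, τ, ξ, hK, rfl⟩ := hKU x hxF hx0 hne
  exact hFI K τ hK.layer (SI4_all_norms hp2 hμ S hpS hcl a T hT hK hxS hxU)

end

end Fermat.Agent.S55Lib
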