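import Fermat.Agent.S55.G2.NormSplit
import Fermat.Agent.S55.G2.NormAsm

/-! # S55 G2 (SI5b): an idele supported at one split place is a norm -/

set_option autoImplicit false
set_option linter.unusedSectionVars false
set_option linter.unusedVariables false

namespace Fermat.Agent.S55Lib

noncomputable section

open groupCohomology

section SI

variable {p : ℕ} [Fact p.Prime] {F L : IntermediateField ℚ Qbar} {σ : GQ} {α : Qbar}

/-- (SI5b) S55/G2/SISingle.lean : an idele supported at one split place is a norm. -/
theorem single_norm_of_split (hL : IsLayer p F L σ) (q : Nat.Primes) (g : GQ)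
    (hs : SplitAt q g F L) (x : JJ) (hx : x ∈ JF F)
    (h1 : ∀ g', ¬ SamePlace q F g g' → cmp x q g' = 1) (h2 : ∀ q' ≠ q, ∀ g', cmp x q' g' = 1) :
    ∃ y ∈ JF L, x = NJ p σ y := by
  classical
  refine norm_of_locNorm hL x hx (fun q' g' => ?_) {q} (fun q' hq' g' => ?_)
  · by_cases hq : q' = q
    · subst hq
      by_cases hg : SamePlace q' F g g'
      · exact LocNorm.of_samePlace hL hx hg (locNorm_of_split hL x hx q' g hs)
      · exact (locNormU_one F L σ x q' g' (h1 g' hg)).locNorm
    · exact (locNormU_one F L σ x q' g' (h2 q' hq g')).locNorm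
  · exact locNormU_one F L σ x q' g' (h2 q' (fun h => hq' (Finset.mem_singleton.2 h)) g')

end SI

end

end Fermat.Agent.S55Lib
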