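import Fermat.Agent.S55.G2.TameRes
import Fermat.Agent.S55.L.Unif

/-!
# S55, chapter G2, leaf (LT5): an element whose valuation is not divisible by `p`
-/

set_option autoImplicit false
set_option linter.unusedSectionVars false
set_option linter.unusedVariables false
set_option linter.style.haveILetI false

namespace Fermat.Agent.S55Lib

noncomputable section

variable (q : Nat.Primes) (K : IntermediateField ℚ_[(q : ℕ)] (Om q))

/-- (LT5) S55/G2/TameUnif.lean : an element whose valuation is not divisible by `p`. -/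
theorem exists_unif_like [FiniteDimensional ℚ_[(q : ℕ)] K] (p : ℕ) [Fact p.Prime] :
    ∃ ϖ ∈ K, ϖ ≠ 0 ∧ ∀ y ∈ K, y ≠ 0 → ∀ n : ℤ, ‖y‖ ^ p = ‖ϖ‖ ^ n → (p : ℤ) ∣ n := by
  obtain ⟨π, hπ⟩ := exists_isUnif (q : ℕ) (F := K)
  refine ⟨π.1, π.2, fun h0 => hπ.ne_zero (Subtype.ext h0), fun y hy hy0 n hn => ?_⟩
  obtain ⟨k, hk⟩ := hπ.exists_zpow (x := (⟨y, hy⟩ : K)) (fun h0 => hy0 (congrArg Subtype.val h0))
  rw [LT3_nm_K, LT3_nm_K] at hk
  have hk' : ‖y‖ = ‖(π : Om q)‖ ^ k := hk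
  rw [hk', ← zpow_natCast, ← zpow_mul] at hn
  have h1 : nm (q : ℕ) π ^ (k * (p : ℤ)) = nm (q : ℕ) π ^ n := by
    rw [LT3_nm_K]; exact hn
  have h2 := hπ.zpow_inj h1
  exact ⟨k, by rw [← h2, mul_comm]⟩

end

end Fermat.Agent.S55Lib
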