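import Fermat.Agent.S55.G2.SIUnits
import Fermat.Agent.S55.G2.SISingle
import Fermat.Agent.S55.G2.SIAux
import Fermat.Agent.S55.G2.SIInj
import Fermat.Agent.S55.G2.KumGen
import Fermat.Agent.S55.G2.TameUnif
import Fermat.Agent.S55.G2.PlaceUnit
import Fermat.Agent.S55.G2.IdeleCount
import Fermat.Agent.S55.G2.Count
import Fermat.Agent.S55.G.ClassTrivial
import Fermat.Agent.S55.G.TUnits
import Fermat.Agent.S55.G1b.CardJTMod

/-! # S55 G2 (SI5): the second inequality, idele form -/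

set_option autoImplicit false
set_option linter.unusedSectionVars false
set_option linter.unusedVariables false

namespace Fermat.Agent.S55Lib

noncomputable section

open groupCohomology

section SI

variable {p : ℕ} [Fact p.Prime] {F L : IntermediateField ℚ Qbar} {σ : GQ} {α : Qbar}

lemma SI5_NJ_inv (p : ℕ) (σ : GQ) (y : JJ) : NJ p σ y⁻¹ = (NJ p σ y)⁻¹ := by
  unfold NJ
  simp only [smul_inv']
  exact Finset.prod_inv_distrib _

/-- the subgroup `F^× · N J(L)` of `J` -/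
def SI5_N (p : ℕ) (F L : IntermediateField ℚ Qbar) (σ : GQ) : Subgroup JJ where
  carrier := {x | ∃ a ∈ FX F, ∃ y ∈ JF L, x = diag a * NJ p σ y}
  one_mem' := ⟨1, one_mem _, 1, one_mem _, by rw [map_one, NO0_NJ_one, one_mul]⟩
  mul_mem' := by
    rintro _ _ ⟨a, ha, y, hy, rfl⟩ ⟨a', ha', y', hy', rfl⟩
    refine ⟨a * a', mul_mem ha ha', y * y', mul_mem hy hy', ?_⟩
    have h : NJ p σ (y * y') = NJ p σ y * NJ p σ y' := by
      unfold NJ
      simp only [smul_mul']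
      exact Finset.prod_mul_distrib
    rw [map_mul, h]
    exact mul_mul_mul_comm _ _ _ _
  inv_mem' := by
    rintro _ ⟨a, ha, y, hy, rfl⟩
    exact ⟨a⁻¹, inv_mem ha, y⁻¹, inv_mem hy, by rw [map_inv, SI5_NJ_inv, mul_inv]⟩

lemma SI5_diag_mem {a : Qbarˣ} (ha : a ∈ FX F) : diag a ∈ SI5_N p F L σ :=
  ⟨a, ha, 1, one_mem _, by rw [NO0_NJ_one, mul_one]⟩

lemma SI5_NJ_mem {y : JJ} (hy : y ∈ JF L) : NJ p σ y ∈ SI5_N p F L σ :=
  ⟨1, one_mem _, y, hy, by rw [map_one, one_mul]⟩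

lemma SI5_cut_mem {S : Finset Nat.Primes} {x : JJ} (hx : x ∈ JF F) : cutT S x ∈ JF F ⊓ JT S := by
  refine ⟨fun s hs => ?_, fun q hq g => cmp_cutT_of_not_mem x hq g⟩
  rw [smul_cutT, hx s hs]

/-- `e ↦` the `S`-part of the principal idele of `e` -/
def SI5_f (F : IntermediateField ℚ Qbar) [FiniteDimensional ℚ F] (S : Finset Nat.Primes) :
    ↥(EFT F S) →* ↥(JF F ⊓ JT S) :=
  (((cutT S).comp diag).comp (EFT F S).subtype).codRestrict (JF F ⊓ JT S) (fun e =>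
    SI5_cut_mem ((diag_mem_JF_iff F _).2 e.2.1))

lemma SI5_f_coe (F : IntermediateField ℚ Qbar) [FiniteDimensional ℚ F] (S : Finset Nat.Primes)
    (e : ↥(EFT F S)) : ((SI5_f F S e : ↥(JF F ⊓ JT S)) : JJ) = cutT S (diag (e : Qbarˣ)) := rfl

/-- the prime-to-`S` part of the principal idele of an `S`-unit is a unit idele -/
lemma SI5_div_mem [FiniteDimensional ℚ F] {S : Finset Nat.Primes} {e : Qbarˣ} (he : e ∈ EFT F S) :
    diag e / cutT S (diag e) ∈ JF F ⊓ UId S := by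
  have h1 : diag e ∈ JF F := (diag_mem_JF_iff F _).2 he.1
  refine Subgroup.mem_inf.2 ⟨(JF F).div_mem h1 (SI5_cut_mem h1).1, fun q hq g => ?_,
    fun q hq g => ?_⟩
  · rw [div_eq_mul_inv, cmp_mul, cmp_inv, cmp_cutT_of_mem _ hq, mul_inv_cancel]
  · rw [div_eq_mul_inv, cmp_mul, cmp_inv, cmp_cutT_of_not_mem _ hq, inv_one, mul_one, diag_comp]
    exact he.2 q hq g

/-- the component at `(q,g)` as a homomorphism -/
def SI5_cmpHom (q : Nat.Primes) (g : GQ) : JJ →* (Om q)ˣ where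
  toFun x := cmp x q g
  map_one' := rfl
  map_mul' _ _ := rfl

lemma SI5_exists_unif [FiniteDimensional ℚ F] (p : ℕ) [Fact p.Prime] (q : Nat.Primes) (g : GQ) :
    ∃ π ∈ JF F, (∀ w ∈ locF q g F, w ≠ 0 → ∀ n : ℤ,
      ‖w‖ ^ p = ‖((cmp π q g : (Om q)ˣ) : Om q)‖ ^ n → (p : ℤ) ∣ n) ∧
      (∀ g', ¬ SamePlace q F g g' → cmp π q g' = 1) ∧ ∀ q' ≠ q, ∀ g', cmp π q' g' = 1 := by
  obtain ⟨ϖ, hϖ, hϖ0, h⟩ := exists_unif_like q (locF q g F) p
  obtain ⟨π, hπ, h1, h2, h3⟩ := exists_single F q g (Units.mk0 ϖ hϖ0) hϖ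
  refine ⟨π, hπ, ?_, h2, h3⟩
  rw [h1]
  exact h

/-- (SI5) S55/G2/SIMain.lean : **second inequality**, idele form. -/
theorem second_inequality_JF (hp2 : p ≠ 2) (hL : IsLayer p F L σ) (hμ : HasMu p F) :
    ∃ x₀ ∈ JF F, ∀ x ∈ JF F, ∃ k : ℕ, ∃ a ∈ FX F, ∃ y ∈ JF L,
      x = x₀ ^ k * diag a * NJ p σ y := by
  classical
  have := hL.finF
  have := hL.finL
  obtain ⟨α, hK⟩ := exists_isKum p hL hμ
  obtain ⟨T₀, hT₀⟩ := exists_T_classGroup_trivial F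
  have hfin := finite_nonunit α hK.ne
  obtain ⟨S, hS⟩ : ∃ S : Finset Nat.Primes, S = T₀ ∪ {pP p} ∪ hfin.toFinset := ⟨_, rfl⟩
  have hcl := hT₀ S (by
    intro q hq
    rw [hS]
    exact Finset.mem_union_left _ (Finset.mem_union_left _ hq))
  have hpS : pP p ∈ S := by
    rw [hS]
    exact Finset.mem_union_left _ (Finset.mem_union_right _ (Finset.mem_singleton_self _))
  have hαS : ∀ q ∉ S, ∀ g : GQ, ‖iq q (g α)‖ = 1 := by
    intro q hq g
    by_contra hne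
    apply hq
    rw [hS]
    exact Finset.mem_union_right _ (hfin.mem_toFinset.2 ⟨g, hne⟩)
  obtain ⟨t, ht, htpos⟩ := exists_placeCount F S
  have ht0 : 0 < t := htpos ⟨_, hpS⟩
  obtain ⟨hE, h2⟩ := card_TUnits_mod_p p hp2 F hμ S t ht
  have hX := card_JT_mod_p p hp2 F hμ S hpS t ht
  obtain ⟨s, hs⟩ : ∃ s : ℕ, s = t + Module.finrank ℚ F / 2 := ⟨_, rfl⟩
  rw [← hs] at hE
  have hX' : 2 * t + Module.finrank ℚ F = 2 * s := by omega
  rw [hX'] at hX
  obtain ⟨T, hTlen, hT⟩ := exists_isAux hp2 hK hμ S hpS hαS s hE (s - 1) (by omega)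
  choose π hπ hπ0 hπ1 hπ2 using fun i : Fin T.length =>
    SI5_exists_unif (F := F) p (T.get i).1 (T.get i).2
  choose b hb y hy u hu hdec using fun i => hcl (π i) (hπ i)
  have hUnorm : ∀ u ∈ JF F ⊓ UId S, u ∈ SI5_N p F L σ := by
    intro u hu
    obtain ⟨w, hw, rfl⟩ := unit_ideles_norm_kum hp2 hK hμ S hpS hαS u hu
    exact SI5_NJ_mem hw.1
  have hπN : ∀ i, π i ∈ SI5_N p F L σ := by
    intro i
    obtain ⟨w, hw, h⟩ := single_norm_of_split hL (T.get i).1 (T.get i).2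
      (hK.splitAt hμ _ _ (hT.locPow (T.get i) (List.get_mem T i))) (π i) (hπ i) (hπ1 i) (hπ2 i)
    rw [h]
    exact SI5_NJ_mem hw
  have hNp : ∀ x : ↥(JF F ⊓ JT S), x ^ p ∈ (SI5_N p F L σ).comap (JF F ⊓ JT S).subtype := by
    intro x
    show ((x : JJ)) ^ p ∈ SI5_N p F L σ
    rw [← NJ_of_mem hL _ x.2.1]
    exact SI5_NJ_mem (hL.JF_le x.2.1)
  have hNf : ∀ e, SI5_f F S e ∈ (SI5_N p F L σ).comap (JF F ⊓ JT S).subtype := by
    intro e
    show cutT S (diag (e : Qbarˣ)) ∈ SI5_N p F L σ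
    have h1 : cutT S (diag (e : Qbarˣ)) =
        diag (e : Qbarˣ) * (diag (e : Qbarˣ) / cutT S (diag (e : Qbarˣ)))⁻¹ := by
      rw [inv_div, mul_div_cancel]
    rw [h1]
    exact mul_mem (SI5_diag_mem e.2.1) (inv_mem (hUnorm _ (SI5_div_mem e.2)))
  have hNy : ∀ i, (⟨y i, hy i⟩ : ↥(JF F ⊓ JT S)) ∈
      (SI5_N p F L σ).comap (JF F ⊓ JT S).subtype := by
    intro i
    show y i ∈ SI5_N p F L σ
    have h1 : y i = (diag (b i))⁻¹ * π i * (u i)⁻¹ := by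
      rw [hdec i]
      rw [mul_assoc (diag (b i)), inv_mul_cancel_left, mul_inv_cancel_right]
    rw [h1]
    exact mul_mem (mul_mem (inv_mem (SI5_diag_mem (hb i))) (hπN i)) (inv_mem (hUnorm _ (hu i)))
  have hinj : ∀ (e : ↥(EFT F S)) (m : Fin T.length → ℕ) (x : ↥(JF F ⊓ JT S)),
      SI5_f F S e * ∏ i, (⟨y i, hy i⟩ : ↥(JF F ⊓ JT S)) ^ m i = x ^ p →
      (∃ e', e = e' ^ p) ∧ ∀ i, p ∣ m i := by
    intro e m x hex
    have h := si_inj hp2 hμ S hpS hcl (α ^ p) T hT π b y u hπ hπ0 hπ1 hπ2 hb hy hu hdec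
      (e : Qbarˣ) e.2 m (x : JJ) x.2 (by
        intro q hq g
        have h3 := congrArg (fun z : ↥(JF F ⊓ JT S) =>
          (SI5_cmpHom q g).comp (JF F ⊓ JT S).subtype z) hex
        simp only [map_mul, map_prod, map_pow] at h3
        have h4 : cmp (diag (e : Qbarˣ)) q g = cmp (cutT S (diag (e : Qbarˣ))) q g :=
          (cmp_cutT_of_mem _ hq g).symm
        rw [h4]
        exact h3)
    refine ⟨?_, h.2⟩
    obtain ⟨e', he', hee⟩ := h.1
    exact ⟨⟨e', he'⟩, Subtype.ext hee⟩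
  obtain ⟨x₀, hx₀⟩ := cyclic_of_count p s hX hE (SI5_f F S) T.length (by omega)
    (fun i => (⟨y i, hy i⟩ : ↥(JF F ⊓ JT S)))
    ((SI5_N p F L σ).comap (JF F ⊓ JT S).subtype) hNp hNf hNy hinj
  · refine ⟨(x₀ : JJ), x₀.2.1, fun x hx => ?_⟩
    obtain ⟨a, ha, y', hy', u', hu', rfl⟩ := hcl x hx
    obtain ⟨k, hk⟩ := hx₀ ⟨y', hy'⟩
    have hk' : y' / (x₀ : JJ) ^ k ∈ SI5_N p F L σ := hk
    obtain ⟨a', ha', w, hw, h⟩ := mul_mem (mul_mem (SI5_diag_mem (p := p) (L := L) (σ := σ) ha) hk')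
      (hUnorm u' hu')
    refine ⟨k, a', ha', w, hw, ?_⟩
    rw [mul_assoc ((x₀ : JJ) ^ k), ← h, div_eq_mul_inv]
    have : ∀ A B C D : JJ, A * B * C = D * (A * (B * D⁻¹) * C) := by
      intro A B C D
      rw [mul_comm B, ← mul_assoc, ← mul_assoc, ← mul_assoc, mul_comm D A, mul_assoc A D,
        mul_inv_cancel, mul_one]
    exact this _ _ _ _

end SI

end

end Fermat.Agent.S55Lib
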