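import Fermat.Agent.S55.G2.TameRes
import Fermat.Agent.S55.L.FrobPow

/-!
# S55, chapter G2, leaf (LT6): `w^q ≡ w` implies `w ≡ j` for an integer `j`
-/

set_option autoImplicit false
set_option linter.unusedSectionVars false
set_option linter.unusedVariables false
set_option linter.style.haveILetI false

namespace Fermat.Agent.S55Lib

noncomputable section

variable (q : Nat.Primes)

/-- (LT6) S55/G2/TameInt.lean : `w^q ≡ w` implies `w ≡ j` for an integer `j`. -/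
theorem exists_nat_of_frob_fixed (w : Om q) (hw : ‖w‖ ≤ 1) (hw' : ‖w ^ (q : ℕ) - w‖ < 1) :
    ∃ j : ℕ, ‖w - (j : Om q)‖ < 1 := by
  haveI : CharP (kk (q : ℕ) (Om q)) (q : ℕ) := kk_charP (q : ℕ)
  have h1 : (red (q : ℕ) (Om q) ⟨w, hw⟩) ^ (q : ℕ) = red (q : ℕ) (Om q) ⟨w, hw⟩ := by
    rw [← map_pow, red_eq_red]
    exact hw'
  have h2 := (Subfield.mem_bot_iff_pow_eq_self (kk (q : ℕ) (Om q)) (q : ℕ)).2 h1
  rw [← ZMod.fieldRange_castHom_eq_bot (K := kk (q : ℕ) (Om q)) (q : ℕ)] at h2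
  obtain ⟨a, ha⟩ := h2
  refine ⟨a.val, ?_⟩
  have h3 : red (q : ℕ) (Om q) ((a.val : ℕ) : OO (q : ℕ) (Om q)) = red (q : ℕ) (Om q) ⟨w, hw⟩ := by
    rw [map_natCast, ← ha]
    simp
  rw [red_eq_red] at h3
  rw [norm_sub_rev]
  have h4 : (((a.val : ℕ) : OO (q : ℕ) (Om q)) : Om q) = ((a.val : ℕ) : Om q) :=
    map_natCast (OO (q : ℕ) (Om q)).subtype a.val
  rw [h4] at h3
  exact h3

end

end Fermat.Agent.S55Lib
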