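import Fermat.Agent.S55.G2.KumIndep
import Fermat.Agent.S55.G2.PlaceVal
import Fermat.Agent.S55.G2.Count
import Fermat.Agent.S55.G2.PlaceCheb
import Fermat.Agent.S55.G2.PlaceDeg
import Fermat.Agent.S55.G2.PlaceFix
import Fermat.Agent.S55.G2.PlaceNormal
import Fermat.Agent.S55.G2.TameInt
import Fermat.Agent.S55.G2.TameCyc

/-!
# S55, chapter G2, leaf (SI1): one auxiliary place
-/

set_option autoImplicit false
set_option linter.unusedSectionVars false
set_option linter.unusedVariables false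
set_option linter.style.haveILetI false

namespace Fermat.Agent.S55Lib

noncomputable section

variable {p : ℕ} [Fact p.Prime] {F L : IntermediateField ℚ Qbar} {σ : GQ} {α : Qbar}

lemma SI1_ne_of_notMem {S₀ : Finset Nat.Primes} (hpS : pP p ∈ S₀) {q : Nat.Primes} (hq : q ∉ S₀) :
    (q : ℕ) ≠ p := by
  intro h
  apply hq
  have : q = pP p := Subtype.ext h
  rw [this]; exact hpS

lemma SI1_ne_zero (q : Nat.Primes) {x : Om q} (h : ‖x‖ = 1) : x ≠ 0 := by
  intro h0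
  rw [h0, norm_zero] at h
  exact zero_ne_one h

/-- the `p`-th roots of unity of `Ω_q` lie in every `F_v`, `μ_p ⊆ F` -/
lemma SI1_mu_mem_locF (hμ : HasMu p F) (q : Nat.Primes) (g : GQ) (ζ : Om q) (hζ : ζ ^ p = 1) :
    ζ ∈ locF q g F := by
  haveI : NeZero p := ⟨(Fact.out : p.Prime).ne_zero⟩
  haveI : NeZero (p : Qbar) := ⟨by exact_mod_cast (Fact.out : p.Prime).ne_zero⟩
  obtain ⟨ζ₀, hζ₀⟩ := HasEnoughRootsOfUnity.exists_primitiveRoot Qbar p
  have h1 : IsPrimitiveRoot (iq q (g ζ₀)) p :=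
    (hζ₀.map_of_injective (f := g) g.injective).map_of_injective (iq q).toRingHom.injective
  obtain ⟨i, -, hi⟩ := h1.eq_pow_of_pow_eq_one hζ
  rw [← hi]
  exact pow_mem (iq_mem_locF q g F (hμ ζ₀ hζ₀.pow_eq_one)) i

/-- (SI1) S55/G2/SIPlace.lean : one auxiliary place. -/
theorem exists_aux_place (hK : IsKum p F L σ α) (hμ : HasMu p F) (S₀ : Finset Nat.Primes)
    (hpS : pP p ∈ S₀) (hαS : ∀ q ∉ S₀, ∀ g : GQ, ‖iq q (g α)‖ = 1)
    (e : Qbar) (heF : e ∈ F) (heS : ∀ q ∉ S₀, ∀ g : GQ, ‖iq q (g e)‖ = 1)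
    (hne : ¬ ∃ j : ℕ, ∃ b ∈ F, e = (α ^ p) ^ j * b ^ p) :
    ∃ q ∉ S₀, ∃ g : GQ, LocPow p F q g (α ^ p) ∧ ¬ LocPow p F q g e := by
  have hp : 0 < p := (Fact.out : p.Prime).pos
  haveI := hK.layer.finF
  haveI := hK.layer.finL
  have he0 : e ≠ 0 := by
    rintro rfl
    exact hne ⟨0, 0, zero_mem F, by simp [hp.ne']⟩
  obtain ⟨ε, hε⟩ := IsAlgClosed.exists_pow_nat_eq e hp
  have hε0 : ε ≠ 0 := by
    rintro rfl
    rw [zero_pow hp.ne'] at hε
    exact he0 hε.symm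
  -- an element of `U_L` moving `ε`
  obtain ⟨τ₀, hτ₀L, hτ₀ε⟩ : ∃ τ₀ ∈ L.fixingSubgroup, τ₀ ε ≠ ε := by
    by_contra hcon
    push Not at hcon
    exact hne (hK.kummer hμ e ε heF he0 hε hcon)
  -- a finite stable field containing `L` and `ε`
  obtain ⟨M₁, hM₁fd, hM₁st, hεM₁⟩ := exists_stableF ε
  obtain ⟨M₂, hM₂fd, hM₂st, hLM₂⟩ := exists_stable_ge L
  haveI := hM₁fd
  haveI := hM₂fd
  haveI : FiniteDimensional ℚ (M₁ ⊔ M₂ : IntermediateField ℚ Qbar) :=
    IntermediateField.finiteDimensional_sup _ _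
  obtain ⟨q, hq, g, τ, k, j, hfrob, h1, h2⟩ :=
    weak_cheb_place (M₁ ⊔ M₂) (hM₁st.sup hM₂st) τ₀ S₀
  have hML : (M₁ ⊔ M₂ : IntermediateField ℚ Qbar).fixingSubgroup ≤ L.fixingSubgroup :=
    IntermediateField.fixingSubgroup_antitone (hLM₂.trans le_sup_right)
  have hMε : ∀ m ∈ (M₁ ⊔ M₂ : IntermediateField ℚ Qbar).fixingSubgroup, m ε = ε := by
    intro m hm
    rw [IntermediateField.mem_fixingSubgroup_iff] at hm
    exact hm ε ((le_sup_left : M₁ ≤ M₁ ⊔ M₂) hεM₁)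
  have hqp : (q : ℕ) ≠ p := SI1_ne_of_notMem hpS hq
  have hnd : ¬ (q : ℕ) ∣ p := fun h => hqp ((Nat.prime_dvd_prime_iff_eq q.2 Fact.out).1 h)
  -- `τ ∈ U_L`
  have hτL : τ ∈ L.fixingSubgroup := by
    have h3 : τ⁻¹ ∈ L.fixingSubgroup := by
      have h4 := mul_mem (hML h2) (inv_mem (pow_mem hτ₀L j))
      simpa using h4
    simpa using inv_mem h3
  have hτF : τ ∈ F.fixingSubgroup :=
    IntermediateField.fixingSubgroup_antitone hK.layer.le hτL
  -- `τ ε ≠ ε`
  have hτε : τ ε ≠ ε := by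
    intro hfix
    have h3 : (τ ^ k) ε = ε := by
      have : τ ∈ MulAction.stabilizer GQ ε := hfix
      exact pow_mem this k
    have h4 := hMε _ h1
    have h5 : τ₀⁻¹ ((τ ^ k) ε) = ε := h4
    rw [h3] at h5
    apply hτ₀ε
    have h6 := congrArg τ₀ h5
    rw [show τ₀ (τ₀⁻¹ ε) = ε from τ₀.apply_symm_apply ε] at h6
    exact h6.symm
  refine ⟨q, hq, g, ?_, ?_⟩
  · -- `α ^ p` is a local `p`-th power
    have hβ1 : ‖iq q (g α)‖ = 1 := hαS q hq g
    have hτα : τ α = α := by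
      rw [IntermediateField.mem_fixingSubgroup_iff] at hτL
      exact hτL α hK.mem
    have h3 := hfrob α hβ1.le
    rw [hτα] at h3
    obtain ⟨n, hn⟩ := exists_nat_of_frob_fixed q (iq q (g α)) hβ1.le (LT_symm h3)
    have hn1 : ‖(n : Om q)‖ = 1 := LT_norm_eq_one (LT_symm hn) hβ1
    have hn0 : (n : Om q) ≠ 0 := SI1_ne_zero q hn1
    have hmem : iq q (g (α ^ p)) / (n : Om q) ^ p ∈ locF q g F :=
      div_mem (iq_mem_locF q g F hK.pow) (pow_mem (natCast_mem _ n) p)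
    have h4 : ‖iq q (g (α ^ p)) / (n : Om q) ^ p - 1‖ < 1 := by
      have h5 : iq q (g (α ^ p)) / (n : Om q) ^ p - 1
          = (iq q (g α) ^ p - (n : Om q) ^ p) / (n : Om q) ^ p := by
        rw [map_pow, map_pow]
        field_simp
      rw [h5, norm_div, norm_pow (n : Om q), hn1, one_pow, div_one]
      exact LT_pow_congr hβ1.le hn1.le hn p
    obtain ⟨y, hy, hyp, -⟩ := one_unit_pow q (locF q g F) p hqp _ hmem h4
    refine ⟨(n : Om q) * y, mul_mem (natCast_mem _ n) hy, ?_⟩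
    rw [mul_pow, hyp]
    field_simp
  · -- `e` is not a local `p`-th power
    rintro ⟨z, hz, hzp⟩
    have hε'p : iq q (g ε) ^ p = iq q (g e) := by rw [← map_pow, ← map_pow, hε]
    have hε'1 : ‖iq q (g ε)‖ = 1 := by
      have : ‖iq q (g ε)‖ ^ p = 1 := by rw [← norm_pow, hε'p, heS q hq g]
      exact (pow_eq_one_iff_of_nonneg (norm_nonneg _) hp.ne').1 this
    have hε'0 : iq q (g ε) ≠ 0 := SI1_ne_zero q hε'1
    have hz0 : z ≠ 0 := by
      rintro rfl
      rw [zero_pow hp.ne', ← hε'p] at hzp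
      exact pow_ne_zero p hε'0 hzp.symm
    have hε'mem : iq q (g ε) ∈ locF q g F := by
      have h3 : (iq q (g ε) / z) ^ p = 1 := by
        rw [div_pow, hε'p, hzp, div_self]
        rw [← hzp]; exact pow_ne_zero p hz0
      have h4 := mul_mem (SI1_mu_mem_locF hμ q g _ h3) hz
      rwa [div_mul_cancel₀ _ hz0] at h4
    have h5 := frob_fixed_locF F q g τ hfrob hτF _ hε'mem hε'1.le
    have h6 := hfrob ε hε'1.le
    have h7 : ‖iq q (g (τ ε)) - iq q (g ε)‖ < 1 := LT_trans h6 h5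
    have h8 : (iq q (g (τ ε / ε))) ^ p = 1 := by
      rw [← map_pow, ← map_pow, div_pow, ← map_pow, hε]
      rw [IntermediateField.mem_fixingSubgroup_iff] at hτF
      rw [hτF e heF, div_self he0, map_one, map_one]
    have h9 : ‖iq q (g (τ ε / ε)) - 1‖ < 1 := by
      have : iq q (g (τ ε / ε)) - 1 = (iq q (g (τ ε)) - iq q (g ε)) / iq q (g ε) := by
        rw [map_div₀, map_div₀]
        field_simp
      rw [this, norm_div, hε'1, div_one]
      exact h7
    have h10 := LT1_eq_one q hnd h8 h9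
    have h11 : τ ε / ε = 1 := by
      have : iq q (g (τ ε / ε)) = iq q (g 1) := by rw [h10, map_one, map_one]
      exact g.injective ((iq q).toRingHom.injective this)
    exact hτε ((div_eq_one_iff_eq hε0).1 h11)

end

end Fermat.Agent.S55Lib
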