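import Fermat.Agent.S55.G2.NormUnit
import Fermat.Agent.S55.G2.NormAsm

/-! # S55 G2 (SI5a): unit ideles outside `S` are norms (Kummer form) -/

set_option autoImplicit false
set_option linter.unusedSectionVars false
set_option linter.unusedVariables false

namespace Fermat.Agent.S55Lib

noncomputable section

open groupCohomology

section SI

variable {p : ℕ} [Fact p.Prime] {F L : IntermediateField ℚ Qbar} {σ : GQ} {α : Qbar}

lemma SI5a_ne {S : Finset Nat.Primes} (hpS : pP p ∈ S) {q : Nat.Primes} (hq : q ∉ S) :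
    (q : ℕ) ≠ p := by
  intro h
  apply hq
  have : q = pP p := Subtype.ext h
  rw [this]
  exact hpS

/-- (SI5a) S55/G2/SIUnits.lean : unit ideles outside `S` are norms (Kummer form of
`unit_ideles_norm`). -/
theorem unit_ideles_norm_kum (hp2 : p ≠ 2) (hK : IsKum p F L σ α) (hμ : HasMu p F)
    (S : Finset Nat.Primes) (hpS : pP p ∈ S) (hαS : ∀ q ∉ S, ∀ g : GQ, ‖iq q (g α)‖ = 1)
    (u : JJ) (hu : u ∈ JF F ⊓ UId S) : ∃ w ∈ JF L ⊓ UId S, u = NJ p σ w :=
  norm_of_locNormU hK.layer u hu.1 S hu.2 (fun q hq g =>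
    locNormU_of_unit hK hμ hp2 u hu.1 q (SI5a_ne hpS hq) g (hαS q hq g) (hu.2.2 q hq g))

end SI

end

end Fermat.Agent.S55Lib
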