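import Fermat.Agent.S55.G2.Defs

/-! # S55 G2 (TR1): subgroups containing `U_M` are fixing subgroups of number fields -/

set_option autoImplicit false
set_option linter.unusedSectionVars false
set_option linter.unusedVariables false

namespace Fermat.Agent.S55Lib

noncomputable section

open groupCohomology

section TR

variable (p : ℕ) [Fact p.Prime] (M : IntermediateField ℚ Qbar) [FiniteDimensional ℚ M]

/-- (TR1) S55/G2/TRFix.lean : subgroups containing `U_M` are fixing subgroups of number fields. -/
theorem exists_field_of_subgroup (H : Subgroup GQ) (hH : M.fixingSubgroup ≤ H) :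
    ∃ F : IntermediateField ℚ Qbar, FiniteDimensional ℚ F ∧ F ≤ M ∧ F.fixingSubgroup = H := by
  have hopen : IsOpen (H : Set GQ) :=
    Subgroup.isOpen_mono hH M.fixingSubgroup_isOpen
  have hclosed : IsClosed (H : Set GQ) := Subgroup.isClosed_of_isOpen H hopen
  have hle : IntermediateField.fixedField H ≤ M := by
    have h1 : IntermediateField.fixedField M.fixingSubgroup = M :=
      InfiniteGalois.fixedField_fixingSubgroup M
    rw [← h1]
    intro x hx
    rw [IntermediateField.mem_fixedField_iff] at hx ⊢
    exact fun s hs => hx s (hH hs)
  refine ⟨IntermediateField.fixedField H, ?_, hle, ?_⟩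
  · have h2 : (IntermediateField.fixedField H).toSubalgebra.toSubmodule ≤
        M.toSubalgebra.toSubmodule := hle
    have h3 : FiniteDimensional ℚ M.toSubalgebra.toSubmodule :=
      (inferInstance : FiniteDimensional ℚ M)
    exact Submodule.finiteDimensional_of_le h2
  · exact InfiniteGalois.fixingSubgroup_fixedField ⟨H, hclosed⟩

end TR

end

end Fermat.Agent.S55Lib
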