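import Fermat.Agent.S55.G2.PlaceNormal

/-! # S55 G2 (TR2): fixed fields of `p`-subgroups contain `μ_p` -/

set_option autoImplicit false
set_option linter.unusedSectionVars false
set_option linter.unusedVariables false

namespace Fermat.Agent.S55Lib

noncomputable section

open groupCohomology

section TR

variable (p : ℕ) [Fact p.Prime] (M : IntermediateField ℚ Qbar) [FiniteDimensional ℚ M]

/-- (TR2) S55/G2/TRMu.lean : fixed fields of `p`-subgroups contain `μ_p`. -/
theorem hasMu_of_isPGroup [M.fixingSubgroup.Normal] (hμ : HasMu p M)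
    (H : Subgroup (GQ ⧸ M.fixingSubgroup)) (hH : IsPGroup p H) (F : IntermediateField ℚ Qbar)
    (hF : F.fixingSubgroup = H.comap (QuotientGroup.mk' M.fixingSubgroup)) : HasMu p F := by
  intro z hz
  apply mem_of_fixed_Q F z
  intro s hs
  by_cases hz1 : z = 1
  · rw [hz1, map_one]
  have hord : orderOf z = p := orderOf_eq_prime hz hz1
  have hprim : IsPrimitiveRoot z p := hord ▸ IsPrimitiveRoot.orderOf z
  have hp : 0 < p := (Fact.out : p.Prime).pos
  have : NeZero p := ⟨hp.ne'⟩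
  have hfin : IsOfFinOrder z := isOfFinOrder_iff_pow_eq_one.2 ⟨p, hp, hz⟩
  have hsz : (s z) ^ p = 1 := by rw [← map_pow, hz, map_one]
  obtain ⟨k, -, hk⟩ := hprim.eq_pow_of_pow_eq_one hsz
  have hiter : ∀ j : ℕ, (s ^ j) z = z ^ (k ^ j) := by
    intro j
    induction j with
    | zero => simp
    | succ j ih =>
      rw [pow_succ', AlgEquiv.mul_apply, ih, map_pow, ← hk, ← pow_mul, pow_succ']
  have hsH : ((s : GQ) : GQ ⧸ M.fixingSubgroup) ∈ H := by
    rw [hF] at hs
    exact hs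
  obtain ⟨n, hn⟩ := hH ⟨_, hsH⟩
  have hn' : ((s : GQ) : GQ ⧸ M.fixingSubgroup) ^ (p ^ n) = 1 := congrArg Subtype.val hn
  rw [← QuotientGroup.mk_pow, QuotientGroup.eq_one_iff,
    IntermediateField.mem_fixingSubgroup_iff] at hn'
  have h1 : (s ^ (p ^ n)) z = z := hn' z (hμ z hz)
  rw [hiter] at h1
  have h2 : z ^ (k ^ (p ^ n)) = z ^ 1 := by rw [h1, pow_one]
  rw [hfin.pow_eq_pow_iff_modEq, hord, ← ZMod.natCast_eq_natCast_iff, Nat.cast_pow,
    ZMod.pow_card_pow] at h2
  rw [← hk]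
  have h3 : z ^ k = z ^ 1 := by
    rw [hfin.pow_eq_pow_iff_modEq, hord, ← ZMod.natCast_eq_natCast_iff]
    exact h2
  rw [h3, pow_one]

end TR

end

end Fermat.Agent.S55Lib
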