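import Fermat.Agent.S55.G2.SIClass
import Fermat.Agent.S55.G2.TRFix
import Fermat.Agent.S55.G2.TRMu
import Fermat.Agent.S55.G3.ClassMod
import Fermat.Agent.S55.G1b.FirstIneq

/-! # S55 G2 (TR3): the cyclic layers of the idele class module -/

set_option autoImplicit false
set_option linter.unusedSectionVars false
set_option linter.unusedVariables false

namespace Fermat.Agent.S55Lib

noncomputable section

open groupCohomology

section TR

variable (p : ℕ) [Fact p.Prime] (M : IntermediateField ℚ Qbar) [FiniteDimensional ℚ M]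

section aux

variable {M} [M.fixingSubgroup.Normal]

lemma TR3_mem_iff (K : IntermediateField ℚ Qbar) (HK : Subgroup (GQ ⧸ M.fixingSubgroup))
    (hK : K.fixingSubgroup = HK.comap (QuotientGroup.mk' M.fixingSubgroup))
    (c : inv M.fixingSubgroup (Additive CC)) :
    c ∈ inv HK (inv M.fixingSubgroup (Additive CC)) ↔
      Additive.toMul (c : Additive CC) ∈ CF K := by
  constructor
  · intro h t ht
    rw [hK] at ht
    have h1 := h _ ht
    exact congrArg (fun z : inv M.fixingSubgroup (Additive CC) => Additive.toMul (z : Additive CC)) h1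
  · intro h q hq
    induction q using QuotientGroup.induction_on with
    | H t =>
      have ht : t ∈ K.fixingSubgroup := by rw [hK]; exact hq
      apply Subtype.ext
      exact congrArg Additive.ofMul (h t ht)

lemma TR3_lift (K : IntermediateField ℚ Qbar) (HK : Subgroup (GQ ⧸ M.fixingSubgroup))
    (hK : K.fixingSubgroup = HK.comap (QuotientGroup.mk' M.fixingSubgroup))
    (d : CC) (hd : d ∈ CF K) : ∃ c : inv M.fixingSubgroup (Additive CC),
      c ∈ inv HK (inv M.fixingSubgroup (Additive CC)) ∧ Additive.toMul (c : Additive CC) = d := by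
  have hle : M.fixingSubgroup ≤ K.fixingSubgroup := by
    intro t ht
    rw [hK, Subgroup.mem_comap]
    have : QuotientGroup.mk' M.fixingSubgroup t = 1 := (QuotientGroup.eq_one_iff t).2 ht
    rw [this]
    exact one_mem _
  refine ⟨⟨Additive.ofMul d, fun t ht => congrArg Additive.ofMul (hd t (hle ht))⟩, ?_, rfl⟩
  rw [TR3_mem_iff K HK hK]
  exact hd

lemma TR3_smul (σ : GQ) (i : ℕ) (c : inv M.fixingSubgroup (Additive CC)) :
    Additive.toMul (((((σ : GQ) : GQ ⧸ M.fixingSubgroup) ^ i • c :
      inv M.fixingSubgroup (Additive CC)) : Additive CC)) =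
      σ ^ i • Additive.toMul (c : Additive CC) := by
  rw [← QuotientGroup.mk_pow]
  rfl

lemma TR3_sum (σ : GQ) (n : ℕ) (c : inv M.fixingSubgroup (Additive CC)) :
    Additive.toMul (((∑ i ∈ Finset.range n, ((σ : GQ) : GQ ⧸ M.fixingSubgroup) ^ i • c :
      inv M.fixingSubgroup (Additive CC)) : Additive CC)) =
      ∏ i ∈ Finset.range n, σ ^ i • Additive.toMul (c : Additive CC) := by
  induction n with
  | zero => rfl
  | succ n ih =>
    rw [Finset.sum_range_succ, Finset.prod_range_succ, ← ih, ← TR3_smul]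
    rfl

end aux

/-- the layer of number fields attached to a layer of subgroups of `G_ℚ / U_M` -/
lemma TR3_isLayer [M.fixingSubgroup.Normal] (H H' : Subgroup (GQ ⧸ M.fixingSubgroup))
    (hle : H' ≤ H) (hn : (H'.subgroupOf H).Normal) (hidx : H'.relIndex H = p) (σ : GQ)
    (hσ : ((σ : GQ) : GQ ⧸ M.fixingSubgroup) ∈ H) (hσ' : ((σ : GQ) : GQ ⧸ M.fixingSubgroup) ∉ H')
    (F L : IntermediateField ℚ Qbar) (hFfin : FiniteDimensional ℚ F) (hLfin : FiniteDimensional ℚ L)
    (hF : F.fixingSubgroup = H.comap (QuotientGroup.mk' M.fixingSubgroup))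
    (hL : L.fixingSubgroup = H'.comap (QuotientGroup.mk' M.fixingSubgroup)) :
    IsLayer p F L σ := by
  have hfix : L.fixingSubgroup ≤ F.fixingSubgroup := by
    rw [hF, hL]
    exact Subgroup.comap_mono hle
  refine ⟨hFfin, hLfin, ?_, ?_, ?_, ?_, ?_⟩
  · intro x hx
    apply mem_of_fixed_Q L x
    intro s hs
    exact (IntermediateField.mem_fixingSubgroup_iff F s).1 (hfix hs) x hx
  · intro s hs x hx
    apply mem_of_fixed_Q L (s x)
    intro t ht
    have h1 : s⁻¹ * t * s ∈ L.fixingSubgroup := by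
      rw [hL, Subgroup.mem_comap]
      rw [hF, Subgroup.mem_comap] at hs
      rw [hL, Subgroup.mem_comap] at ht
      have h2 := hn.conj_mem ⟨_, hle ht⟩ (Subgroup.mem_subgroupOf.2 ht) ⟨_, H.inv_mem hs⟩
      rw [Subgroup.mem_subgroupOf] at h2
      simpa using h2
    have h3 : (s⁻¹ * t * s) x = x := (IntermediateField.mem_fixingSubgroup_iff L _).1 h1 x hx
    have h4 : s ((s⁻¹ * t * s) x) = t (s x) := by
      show s (s⁻¹ (t (s x))) = t (s x)
      exact s.apply_symm_apply _
    rw [← h4, h3]
  · rw [hF, hL, Subgroup.relIndex_comap,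
      Subgroup.map_comap_eq_self_of_surjective (QuotientGroup.mk'_surjective _)]
    exact hidx
  · rw [hF]; exact hσ
  · rw [hL]; exact hσ'

/-- (TR3) S55/G2/TRLayer.lean : **the cyclic layers of the idele class module**. -/
theorem hlayer_CC (hp2 : p ≠ 2) [M.fixingSubgroup.Normal] (hμ : HasMu p M) :
    HLayer p (GQ ⧸ M.fixingSubgroup) (inv M.fixingSubgroup (Additive CC)) := by
  intro H H' hH hle hn hidx s hs hs'
  induction s using QuotientGroup.induction_on with
  | H σ =>
  have hker : ∀ K : Subgroup (GQ ⧸ M.fixingSubgroup),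
      M.fixingSubgroup ≤ K.comap (QuotientGroup.mk' M.fixingSubgroup) := by
    intro K t ht
    rw [Subgroup.mem_comap]
    have : QuotientGroup.mk' M.fixingSubgroup t = 1 := (QuotientGroup.eq_one_iff t).2 ht
    rw [this]
    exact one_mem _
  obtain ⟨F, hFfin, -, hF⟩ := exists_field_of_subgroup M _ (hker H)
  obtain ⟨L, hLfin, -, hL⟩ := exists_field_of_subgroup M _ (hker H')
  have hlay : IsLayer p F L σ := TR3_isLayer p M H H' hle hn hidx σ hs hs' F L hFfin hLfin hF hL
  have hμF : HasMu p F := hasMu_of_isPGroup p M hμ H hH F hF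
  have hsec := second_inequality hp2 hlay hμF
  have hfst := (first_inequality p hp2 F L σ hlay hμF).2 hsec
  constructor
  · intro c hc hN
    rw [TR3_mem_iff L H' hL] at hc
    have hN' : ∏ i ∈ Finset.range p, σ ^ i • Additive.toMul (c : Additive CC) = 1 := by
      rw [← TR3_sum, hN]
      rfl
    obtain ⟨e, he, hce⟩ := hfst _ hc hN'
    obtain ⟨d, hd, rfl⟩ := TR3_lift L H' hL e he
    refine ⟨d, hd, ?_⟩
    apply Subtype.ext
    exact congrArg Additive.ofMul hce
  · obtain ⟨c₀, hc₀, h⟩ := hsec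
    obtain ⟨C₀, hC₀, rfl⟩ := TR3_lift F H hF c₀ hc₀
    refine ⟨C₀, hC₀, fun c hc => ?_⟩
    rw [TR3_mem_iff F H hF] at hc
    obtain ⟨k, d, hd, hcd⟩ := h _ hc
    obtain ⟨D, hD, rfl⟩ := TR3_lift L H' hL d hd
    refine ⟨(k : ℤ), D, hD, ?_⟩
    apply Subtype.ext
    rw [← TR3_sum] at hcd
    rw [natCast_zsmul]
    exact congrArg Additive.ofMul hcd

end TR

end

end Fermat.Agent.S55Lib
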