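import Fermat.Agent.S55.G2.TameFix

/-!
# S55, chapter G2, leaf (LT1): `p`-th roots of unity are distinct mod the maximal ideal
-/

set_option autoImplicit false
set_option linter.unusedSectionVars false
set_option linter.unusedVariables false

namespace Fermat.Agent.S55Lib

noncomputable section

variable (q : Nat.Primes)

lemma LT1_norm_eq_one_of_pow {n : ℕ} (hn : n ≠ 0) {y : Om q} (h : y ^ n = 1) : ‖y‖ = 1 := by
  have h1 : ‖y‖ ^ n = 1 := by rw [← norm_pow, h, norm_one]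
  exact (pow_eq_one_iff_of_nonneg (norm_nonneg y) hn).1 h1

/-- a root of unity of order prime to `q` congruent to `1` is `1` -/
lemma LT1_eq_one {N : ℕ} (hN : ¬ (q : ℕ) ∣ N) {t : Om q} (ht : t ^ N = 1) (h : ‖t - 1‖ < 1) :
    t = 1 := by
  have hN0 : N ≠ 0 := fun h0 => hN (h0 ▸ dvd_zero _)
  have ht1 : ‖t‖ = 1 := LT1_norm_eq_one_of_pow q hN0 ht
  have h1 : (t - 1) * ∑ i ∈ Finset.range N, t ^ i = 0 := by rw [mul_geom_sum, ht, sub_self]
  have h2 : ‖∑ i ∈ Finset.range N, t ^ i‖ = 1 := by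
    have h3 : ‖(∑ i ∈ Finset.range N, t ^ i) - (N : Om q)‖ < 1 := by
      have e : (∑ i ∈ Finset.range N, t ^ i) - (N : Om q) = ∑ i ∈ Finset.range N, (t ^ i - 1) := by
        rw [Finset.sum_sub_distrib]; simp
      rw [e]
      refine (LT_sum_le _ _ (norm_nonneg (t - 1)) (fun i _ => ?_)).trans_lt h
      rw [← mul_geom_sum t i, norm_mul]
      refine mul_le_of_le_one_right (norm_nonneg _) ?_
      exact LT_sum_le _ _ zero_le_one (fun j _ => by rw [norm_pow, ht1, one_pow])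
    exact LT_norm_eq_one h3 (norm_natCast_Om q hN)
  rcases mul_eq_zero.1 h1 with h0 | h0
  · exact sub_eq_zero.1 h0
  · rw [h0, norm_zero] at h2
    exact absurd h2 zero_ne_one

/-- (LT1) S55/G2/TameMu.lean : `p`-th roots of unity are distinct mod the maximal ideal. -/
theorem norm_root_sub_one (p : ℕ) [Fact p.Prime] (hqp : (q : ℕ) ≠ p) (ζ : Om q) (hζ : ζ ^ p = 1)
    (hζ1 : ζ ≠ 1) : ‖ζ - 1‖ = 1 := by
  have hnd : ¬ (q : ℕ) ∣ p := fun h => hqp ((Nat.prime_dvd_prime_iff_eq q.2 Fact.out).1 h)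
  have h1 : ‖ζ‖ = 1 := LT1_norm_eq_one_of_pow q (Fact.out : p.Prime).ne_zero hζ
  have h2 : ‖ζ - 1‖ ≤ 1 := (LT_sub_le _ _).trans (by rw [h1, norm_one, max_self])
  by_contra hne
  exact hζ1 (LT1_eq_one q hnd hζ (lt_of_le_of_ne h2 hne))

end

end Fermat.Agent.S55Lib
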