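import Fermat.Agent.S55.G2.TameOne
import Fermat.Agent.S55.L.ResFinite

/-!
# S55, chapter G2, leaf (LT3): the residue field of `K` inside the residue field of `Ω_q`
-/

set_option autoImplicit false
set_option linter.unusedSectionVars false
set_option linter.unusedVariables false
set_option linter.style.haveILetI false

namespace Fermat.Agent.S55Lib

noncomputable section

open Polynomial

variable (q : Nat.Primes) (K : IntermediateField ℚ_[(q : ℕ)] (Om q))

lemma LT3_nm_Om (x : Om q) : nm (q : ℕ) x = ‖x‖ := rfl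

lemma LT3_nm_K (z : K) : nm (q : ℕ) z = ‖(z : Om q)‖ := (nm_algHom (q : ℕ) K.val z).symm

/-- (LT3) S55/G2/TameRes.lean : the residue field of `K` is `𝔽_Q` inside the residue field of
`Ω_q`. -/
theorem exists_residue_card [FiniteDimensional ℚ_[(q : ℕ)] K] :
    ∃ Q : ℕ, 1 < Q ∧ (∀ z ∈ K, ‖z‖ ≤ 1 → ‖z ^ Q - z‖ < 1) ∧
      ∀ w : Om q, ‖w‖ ≤ 1 → ‖w ^ Q - w‖ < 1 → ∃ b ∈ K, ‖w - b‖ < 1 := by
  classical
  haveI : Finite (kk (q : ℕ) K) := finite_kk (q : ℕ) (F := K)
  letI : Fintype (kk (q : ℕ) K) := Fintype.ofFinite _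
  have hQ1 : 1 < Fintype.card (kk (q : ℕ) K) := Fintype.one_lt_card
  refine ⟨Fintype.card (kk (q : ℕ) K), hQ1, ?_, ?_⟩
  · intro z hz hz1
    have hz' : nm (q : ℕ) (⟨z, hz⟩ : K) ≤ 1 := by rw [LT3_nm_K]; exact hz1
    have h1 : (red (q : ℕ) K ⟨⟨z, hz⟩, hz'⟩) ^ Fintype.card (kk (q : ℕ) K)
        = red (q : ℕ) K ⟨⟨z, hz⟩, hz'⟩ := FiniteField.pow_card _
    rw [← map_pow, red_eq_red, LT3_nm_K] at h1
    exact h1
  · intro w hw hw'
    set Q := Fintype.card (kk (q : ℕ) K) with hQ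
    have hP : (X ^ Q - X : (kk (q : ℕ) (Om q))[X]) ≠ 0 :=
      FiniteField.X_pow_card_sub_X_ne_zero _ hQ1
    have hdeg : (X ^ Q - X : (kk (q : ℕ) (Om q))[X]).natDegree = Q :=
      FiniteField.X_pow_card_sub_X_natDegree_eq _ hQ1
    have hRcard : (Finset.univ.image (kk.map (q : ℕ) K.val)).card = Q :=
      Finset.card_image_of_injective _ (kk.map (q : ℕ) K.val).injective
    have hRsub : Finset.univ.image (kk.map (q : ℕ) K.val)
        ⊆ (X ^ Q - X : (kk (q : ℕ) (Om q))[X]).roots.toFinset := by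
      intro c hc
      obtain ⟨d, -, rfl⟩ := Finset.mem_image.1 hc
      rw [Multiset.mem_toFinset, mem_roots hP, IsRoot.def, eval_sub, eval_pow, eval_X,
        ← map_pow, FiniteField.pow_card, sub_self]
    have hcard : (X ^ Q - X : (kk (q : ℕ) (Om q))[X]).roots.toFinset.card ≤ Q :=
      (Multiset.toFinset_card_le _).trans ((card_roots' _).trans hdeg.le)
    have hEq := Finset.eq_of_subset_of_card_le hRsub (by rw [hRcard]; exact hcard)
    have hwroot : red (q : ℕ) (Om q) ⟨w, hw⟩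
        ∈ (X ^ Q - X : (kk (q : ℕ) (Om q))[X]).roots.toFinset := by
      rw [Multiset.mem_toFinset, mem_roots hP, IsRoot.def, eval_sub, eval_pow, eval_X,
        ← map_pow, sub_eq_zero, red_eq_red]
      exact hw'
    rw [← hEq] at hwroot
    obtain ⟨c, -, hc⟩ := Finset.mem_image.1 hwroot
    obtain ⟨b, rfl⟩ := red_surjective (q : ℕ) c
    rw [kk.map_red, red_eq_red] at hc
    refine ⟨b.1.1, b.1.2, ?_⟩
    rw [norm_sub_rev]
    exact hc

end

end Fermat.Agent.S55Lib
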